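import Mathlib
import Fermat.Prelude.Def_CuspForm_HeckeLocal
import Fermat.Prelude.Thm_CongruenceSubgroup_one_mem_strictPeriods_Gamma0
import Fermat.Prelude.Thm_ModularFormClass_qCoeff_heckeT
import Fermat.Prelude.Thm_ModularFormClass_qCoeff_heckeU

/-!
# Coefficients of cusp forms on `Γ₀(N)` under the Hecke operators
-/

set_option autoImplicit false

noncomputable section

namespace Fermat.Agent.HeckeDuality

open CongruenceSubgroup ModularFormClass UpperHalfPlane

variable {N : ℕ} {k : ℤ}

/-- The `n`-th coefficient as a linear functional. -/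
def coeffLin (N : ℕ) (k : ℤ) (n : ℕ) : CuspForm (Gamma0 N) k →ₗ[ℂ] ℂ where
  toFun f := qCoeff f n
  map_add' f g := by
    simp only [qCoeff, FunLike.coe_add]
    rw [ModularForm.qExpansion_add one_pos (one_mem_strictPeriods_Gamma0 N) f g, map_add]
  map_smul' c f := by
    have h : ⇑(c • f) = c • ⇑f := rfl
    simp only [qCoeff, h, RingHom.id_apply]
    rw [ModularForm.qExpansion_smul one_pos (one_mem_strictPeriods_Gamma0 N) c f, map_smul]

@[simp] theorem coeffLin_apply (n : ℕ) (f : CuspForm (Gamma0 N) k) :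
    coeffLin N k n f = qCoeff f n := rfl

/-- Coefficients are additive. -/
theorem coeff_add (n : ℕ) (f g : CuspForm (Gamma0 N) k) :
    qCoeff ⇑(f + g) n = qCoeff f n + qCoeff g n :=
  (coeffLin N k n).map_add f g

/-- Coefficients respect subtraction. -/
theorem coeff_sub (n : ℕ) (f g : CuspForm (Gamma0 N) k) :
    qCoeff ⇑(f - g) n = qCoeff f n - qCoeff g n :=
  (coeffLin N k n).map_sub f g

/-- Coefficients respect complex multiples. -/
theorem coeff_smul (n : ℕ) (c : ℂ) (f : CuspForm (Gamma0 N) k) :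
    qCoeff ⇑(c • f) n = c * qCoeff f n :=
  (coeffLin N k n).map_smul c f

/-- Coefficients respect integer multiples. -/
theorem coeff_zsmul (n : ℕ) (c : ℤ) (f : CuspForm (Gamma0 N) k) :
    qCoeff ⇑(c • f) n = c * qCoeff f n := by
  rw [← Int.cast_smul_eq_zsmul ℂ c f, coeff_smul]

/-- The constant term of a cusp form vanishes. -/
theorem coeff_zero (f : CuspForm (Gamma0 N) k) : qCoeff f 0 = 0 :=
  CuspFormClass.qExpansion_coeff_zero f one_pos (one_mem_strictPeriods_Gamma0 N)

/-- `q`-expansion principle: a cusp form is determined by its coefficients. -/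
theorem eq_zero_of_coeff (f : CuspForm (Gamma0 N) k) (h : ∀ n, qCoeff f n = 0) : f = 0 := by
  have : Fact (IsCusp OnePoint.infty (Subgroup.map (Matrix.SpecialLinearGroup.mapGL ℝ)
      (Gamma0 N))) :=
    ⟨Subgroup.isCusp_of_mem_strictPeriods one_pos (one_mem_strictPeriods_Gamma0 N)⟩
  apply DFunLike.coe_injective
  rw [FunLike.coe_zero, ← UpperHalfPlane.qExpansion_eq_zero_iff one_pos
    (SlashInvariantFormClass.periodic_comp_ofComplex f (one_mem_strictPeriods_Gamma0 N))
    (CuspFormClass.holo f)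
    (ModularFormClass.bdd_at_infty f)]
  ext n
  simpa [qCoeff] using h n

/-- A cusp form is determined by its coefficients. -/
theorem ext_coeff {f g : CuspForm (Gamma0 N) k} (h : ∀ n, qCoeff f n = qCoeff g n) : f = g :=
  sub_eq_zero.1 <| eq_zero_of_coeff _ fun n => by rw [coeff_sub, h n, sub_self]

/-- The coefficients of `T_p f`: `a_{np}` plus `p^{k-1} a_{n/p}` when `p ∣ n`. -/
theorem coeff_heckeTLin {p : ℕ} (hp : p.Prime) (hpN : ¬ p ∣ N) (f : CuspForm (Gamma0 N) k)
    (n : ℕ) : qCoeff ⇑(CuspForm.heckeTLin k hp hpN f) n =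
      qCoeff f (n * p) + if p ∣ n then (p : ℂ) ^ (k - 1) * qCoeff f (n / p) else 0 := by
  rw [CuspForm.coe_heckeTLin_apply, qCoeff_heckeT f (one_mem_strictPeriods_Gamma0 N) hp.ne_zero n]
  rfl

theorem coeff_heckeULin [NeZero N] {p : ℕ} (hpN : p ∣ N) (f : CuspForm (Gamma0 N) k)
    (n : ℕ) : qCoeff ⇑(CuspForm.heckeULin k hpN f) n = qCoeff f (n * p) := by
  have hp : p ≠ 0 := fun h => NeZero.ne N (Nat.eq_zero_of_zero_dvd (h ▸ hpN))
  rw [CuspForm.coe_heckeULin_apply, qCoeff_heckeU f (one_mem_strictPeriods_Gamma0 N) hp n]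
  rfl

/-- The integral lattice consists of the forms with integral coefficients. -/
theorem mem_intLattice_iff (f : CuspForm (Gamma0 N) k) :
    f ∈ CuspForm.intLattice N k ↔ ∀ n, ∃ m : ℤ, qCoeff f n = (m : ℂ) := by
  refine ⟨fun hf => ?_, fun h => Submodule.subset_span h⟩
  induction hf using Submodule.span_induction with
  | mem g hg => exact hg
  | zero => exact fun n => ⟨0, by simpa using (coeffLin N k n).map_zero⟩
  | add g g' _ _ hg hg' =>
    intro n
    obtain ⟨a, ha⟩ := hg n
    obtain ⟨b, hb⟩ := hg' n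
    exact ⟨a + b, by rw [coeff_add, ha, hb]; push_cast; ring⟩
  | smul c g _ hg =>
    intro n
    obtain ⟨a, ha⟩ := hg n
    exact ⟨c * a, by rw [coeff_zsmul, ha]; push_cast; ring⟩

end Fermat.Agent.HeckeDuality
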