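import Mathlib.Tactic

/-!
# Hecke recursions on sequences of coefficients
-/

set_option autoImplicit false

namespace Fermat.Agent.HeckeDuality

variable {R : Type*} [CommRing R]

/-- `a` is an eigen-sequence with eigenvalues `lam` and weights `e`:
`a (n * ℓ) + e ℓ * a (n / ℓ) [ℓ ∣ n] = lam ℓ * a n` for all primes `ℓ`. -/
def SeqEigen (e lam a : ℕ → R) : Prop :=
  ∀ ℓ : ℕ, ℓ.Prime → ∀ n : ℕ,
    a (n * ℓ) + (if ℓ ∣ n then e ℓ * a (n / ℓ) else 0) = lam ℓ * a n

namespace SeqEigen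

variable {e lam a : ℕ → R}

theorem apply_prime (h : SeqEigen e lam a) {ℓ : ℕ} (hℓ : ℓ.Prime) : a ℓ = lam ℓ * a 1 := by
  have h1 := h ℓ hℓ 1
  rwa [if_neg hℓ.not_dvd_one, add_zero, one_mul] at h1

/-- An eigen-sequence with vanishing terms at `0` and `1` vanishes. -/
theorem eq_zero (h : SeqEigen e lam a) (h0 : a 0 = 0) (h1 : a 1 = 0) : ∀ n, a n = 0 := by
  intro n
  induction n using Nat.strong_induction_on with
  | h n ih =>
    rcases lt_or_ge n 2 with hn | hn
    · interval_cases n <;> assumption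
    · obtain ⟨ℓ, hℓ, m, rfl⟩ : ∃ ℓ, ℓ.Prime ∧ ∃ m, n = m * ℓ :=
        ⟨n.minFac, Nat.minFac_prime (by omega), n / n.minFac,
          (Nat.div_mul_cancel (Nat.minFac_dvd n)).symm⟩
      have hm : m < m * ℓ := lt_mul_of_one_lt_right (Nat.pos_of_ne_zero (by
        rintro rfl; simp at hn)) hℓ.one_lt
      have hrel := h ℓ hℓ m
      rw [ih m hm, mul_zero] at hrel
      by_cases hd : ℓ ∣ m
      · rwa [if_pos hd, ih (m / ℓ) (lt_of_le_of_lt (Nat.div_le_self _ _) hm), mul_zero,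
          add_zero] at hrel
      · rwa [if_neg hd, add_zero] at hrel

theorem mul_of_coprime (h : SeqEigen e lam a) (h0 : a 0 = 0) (h1 : a 1 = 1) :
    ∀ m n : ℕ, m.Coprime n → a (m * n) = a m * a n := by
  intro m
  induction m using Nat.strong_induction_on with
  | h m ih =>
    intro n hmn
    rcases lt_or_ge m 2 with hm | hm
    · interval_cases m <;> simp [h0, h1]
    · obtain ⟨ℓ, hℓ, k, rfl⟩ : ∃ ℓ, ℓ.Prime ∧ ∃ k, m = k * ℓ :=
        ⟨m.minFac, Nat.minFac_prime (by omega), m / m.minFac,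
          (Nat.div_mul_cancel (Nat.minFac_dvd m)).symm⟩
      have hk : k < k * ℓ := lt_mul_of_one_lt_right (Nat.pos_of_ne_zero (by
        rintro rfl; simp at hm)) hℓ.one_lt
      have hkn : k.Coprime n := Nat.Coprime.coprime_dvd_left (dvd_mul_right k ℓ) hmn
      have hℓn : ℓ.Coprime n := Nat.Coprime.coprime_dvd_left (dvd_mul_left ℓ k) hmn
      have e1 := h ℓ hℓ (k * n)
      have e2 := h ℓ hℓ k
      have hiff : ℓ ∣ k * n ↔ ℓ ∣ k := hℓn.dvd_mul_right
      rw [ih k hk n hkn] at e1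
      rw [show k * ℓ * n = k * n * ℓ by ring]
      by_cases hd : ℓ ∣ k
      · have hdn : k * n / ℓ = k / ℓ * n := Nat.mul_div_right_comm hd n
        rw [if_pos (hiff.2 hd), hdn, ih (k / ℓ) (lt_of_le_of_lt (Nat.div_le_self _ _) hk) n
          (Nat.Coprime.coprime_dvd_left (Nat.div_dvd_of_dvd hd) hkn)] at e1
        rw [if_pos hd] at e2
        linear_combination e1 - (a n) * e2
      · rw [if_neg (mt hiff.1 hd), add_zero] at e1
        rw [if_neg hd, add_zero] at e2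
        linear_combination e1 - (a n) * e2

theorem prime_pow (h : SeqEigen e lam a) {ℓ : ℕ} (hℓ : ℓ.Prime) (r : ℕ) :
    a (ℓ ^ (r + 2)) + e ℓ * a (ℓ ^ r) = lam ℓ * a (ℓ ^ (r + 1)) := by
  have h2 := h ℓ hℓ (ℓ ^ (r + 1))
  rwa [if_pos (dvd_pow_self ℓ (Nat.succ_ne_zero r)), ← pow_succ, pow_succ ℓ r,
    Nat.mul_div_cancel _ hℓ.pos, ← pow_succ] at h2

end SeqEigen

end Fermat.Agent.HeckeDuality
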