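import Fermat.Agent.HeckeDuality.Coeff
import Fermat.Agent.HeckeDuality.Sequence
import Fermat.Agent.IntegralStructure.HeckeFinite

/-!
# Eigenvectors of the weight-two Hecke algebra give normalised eigenforms
-/

set_option autoImplicit false

noncomputable section

namespace Fermat.Agent.HeckeDuality

open CongruenceSubgroup ModularFormClass UpperHalfPlane

variable {N : ℕ} [NeZero N]

/-- The Hecke operator (`T` or `U`) at a prime, as an element of the full Hecke algebra. -/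
def heckeOp (N : ℕ) [NeZero N] (k : ℤ) (ℓ : ℕ) (hℓ : ℓ.Prime) : CuspForm.heckeAlgebra N k ∅ :=
  if h : ℓ ∣ N then CuspForm.heckeAlgebra.U hℓ h (Set.notMem_empty _)
  else CuspForm.heckeAlgebra.T hℓ h (Set.notMem_empty _)

/-- The weight in the Hecke recursion at a prime `ℓ` in weight two. -/
def eulerWeight (N : ℕ) (ℓ : ℕ) : ℂ := if ℓ ∣ N then 0 else (ℓ : ℂ)

/-- The `n`-th coefficient of `T_ℓ f` or `U_ℓ f`: `a_{nℓ}`, plus `eulerWeight N ℓ * a_{n/ℓ}` if
`ℓ ∣ n`. -/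
theorem coeff_heckeOp {ℓ : ℕ} (hℓ : ℓ.Prime) (f : CuspForm (Gamma0 N) 2) (n : ℕ) :
    qCoeff ⇑((heckeOp N 2 ℓ hℓ).1 f) n =
      qCoeff f (n * ℓ) + if ℓ ∣ n then eulerWeight N ℓ * qCoeff f (n / ℓ) else 0 := by
  by_cases h : ℓ ∣ N
  · rw [heckeOp, dif_pos h, CuspForm.heckeAlgebra.coe_U, coeff_heckeULin, eulerWeight, if_pos h]
    simp
  · rw [heckeOp, dif_neg h, CuspForm.heckeAlgebra.coe_T, coeff_heckeTLin, eulerWeight, if_neg h]
    norm_num

/-- A nonzero vector which is an eigenvector for all `T_ℓ`, `U_q` has nonzero first coefficient,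
and its multiple with first coefficient one is a normalised eigenform with the eigenvalues as
coefficients. -/
theorem isNormalizedEigenform_of_eigen {f : CuspForm (Gamma0 N) 2} (hf : f ≠ 0)
    (lam : ℕ → ℂ) (hlam : ∀ ℓ (hℓ : ℓ.Prime), (heckeOp N 2 ℓ hℓ).1 f = lam ℓ • f) :
    qCoeff f 1 ≠ 0 ∧ ((qCoeff f 1)⁻¹ • f).IsNormalizedEigenform ∧
      ∀ ℓ, ℓ.Prime → qCoeff ⇑((qCoeff f 1)⁻¹ • f) ℓ = lam ℓ := by
  have hseq : ∀ g : CuspForm (Gamma0 N) 2,
      (∀ ℓ (hℓ : ℓ.Prime), (heckeOp N 2 ℓ hℓ).1 g = lam ℓ • g) →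
      SeqEigen (eulerWeight N) lam (qCoeff g) := by
    intro g hg ℓ hℓ n
    rw [← coeff_heckeOp hℓ g n, hg ℓ hℓ, coeff_smul]
  have h1 : qCoeff f 1 ≠ 0 := fun h =>
    hf <| eq_zero_of_coeff _ ((hseq f hlam).eq_zero (coeff_zero f) h)
  refine ⟨h1, ?_⟩
  set g := (qCoeff f 1)⁻¹ • f with hg
  have hg1 : qCoeff g 1 = 1 := by rw [hg, coeff_smul, inv_mul_cancel₀ h1]
  have H : SeqEigen (eulerWeight N) lam (qCoeff g) := hseq g fun ℓ hℓ => by
    rw [hg, map_smul, hlam ℓ hℓ, smul_comm]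
  have hp : ∀ ℓ, ℓ.Prime → qCoeff g ℓ = lam ℓ := fun ℓ hℓ => by
    rw [H.apply_prime hℓ, hg1, mul_one]
  refine ⟨⟨hg1, H.mul_of_coprime (coeff_zero g) hg1, fun p r hp' hpN => ?_,
    fun p r hp' hpN => ?_⟩, hp⟩
  · have h := H.prime_pow hp' r
    rw [eulerWeight, if_neg hpN, ← hp p hp'] at h
    linear_combination h
  · have h := H.prime_pow hp' r
    rw [eulerWeight, if_pos hpN, ← hp p hp', zero_mul, add_zero] at h
    exact h

/-- Finitely many vectors are separated from a given one by some `∑ kⁱ tᵢ`. -/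
theorem exists_nat_separating {r : ℕ} {s : Set (Fin r → ℂ)} (hs : s.Finite)
    (t₀ : Fin r → ℂ) :
    ∃ k : ℕ, ∀ t ∈ s, ∑ i : Fin r, (k : ℂ) ^ (i : ℕ) * t i = ∑ i : Fin r, (k : ℂ) ^ (i : ℕ) * t₀ i →
      t = t₀ := by
  classical
  let Q : (Fin r → ℂ) → Polynomial ℂ := fun t =>
    ∑ i : Fin r, Polynomial.monomial (i : ℕ) (t i - t₀ i)
  have hQ : ∀ t, t ≠ t₀ → Q t ≠ 0 := fun t ht h => ht (funext fun j => by
    have := congrArg (fun q => Polynomial.coeff q (j : ℕ)) h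
    simpa [Q, Polynomial.finsetSum_coeff, Polynomial.coeff_monomial, ← Fin.ext_iff,
      sub_eq_zero] using this)
  have hbad : (⋃ t ∈ {t ∈ s | t ≠ t₀}, {z | (Q t).IsRoot z}).Finite :=
    (hs.subset fun t ht => ht.1).biUnion fun t ht =>
      Polynomial.finite_setOfPred_isRoot (hQ t ht.2)
  obtain ⟨k, hk⟩ := (hbad.preimage (Nat.cast_injective (R := ℂ)).injOn).exists_notMem
  refine ⟨k, fun t ht h => by_contra fun hne => hk (Set.mem_biUnion
    (Set.mem_ofPred.2 ⟨ht, hne⟩) ?_)⟩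
  show (Q t).eval (k : ℂ) = 0
  simp only [Q, Polynomial.eval_finsetSum, Polynomial.eval_monomial, sub_mul,
    Finset.sum_sub_distrib, sub_eq_zero]
  simpa only [mul_comm] using h

/-- A commutative algebra of operators on a finite-dimensional complex space has a common
eigenvector in every nonzero stable subspace. -/
theorem exists_eigenCharacter {V : Type*} [AddCommGroup V] [Module ℂ V] [FiniteDimensional ℂ V]
    {A : Type*} [CommRing A] (ρ : A →+* Module.End ℂ V) (W : Submodule ℂ V) (hW : W ≠ ⊥)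
    (hinv : ∀ a, ∀ w ∈ W, ρ a w ∈ W) :
    ∃ (θ : A →+* ℂ) (v : V), v ∈ W ∧ v ≠ 0 ∧ ∀ a, ρ a v = θ a • v := by
  classical
  -- Take a minimal nonzero stable subspace `U`.
  obtain ⟨U, ⟨hU0, hUW, hUinv⟩, hmin⟩ :=
    WellFounded.has_min (wellFounded_lt (α := Submodule ℂ V))
      {U : Submodule ℂ V | U ≠ ⊥ ∧ U ≤ W ∧ ∀ a, ∀ u ∈ U, ρ a u ∈ U} ⟨W, hW, le_rfl, hinv⟩
  have key : ∀ a, ∃ c : ℂ, ∀ u ∈ U, ρ a u = c • u := by
    intro a
    have : Nontrivial U := Submodule.nontrivial_iff_ne_bot.2 hU0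
    obtain ⟨c, hc⟩ := Module.End.exists_eigenvalue ((ρ a).restrict (hUinv a))
    obtain ⟨u₀, hu₀⟩ := hc.exists_hasEigenvector
    refine ⟨c, ?_⟩
    -- Each operator has an eigenspace in `U`, stable by commutativity, hence equal to `U`.
    let U' : Submodule ℂ V := U ⊓ LinearMap.ker (ρ a - c • (1 : Module.End ℂ V))
    have hu₀' : (u₀ : V) ∈ U' := by
      refine Submodule.mem_inf.2 ⟨u₀.2, ?_⟩
      have := congrArg Subtype.val hu₀.apply_eq_smul
      simpa [sub_eq_zero] using this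
    have hne : U' ≠ ⊥ := fun h => hu₀.2 <| by
      rw [h, Submodule.mem_bot] at hu₀'
      exact Subtype.ext hu₀'
    have hU'inv : ∀ b, ∀ u ∈ U', ρ b u ∈ U' := by
      intro b u hu
      obtain ⟨hu1, hu2⟩ := Submodule.mem_inf.1 hu
      refine Submodule.mem_inf.2 ⟨hUinv b u hu1, ?_⟩
      have hu3 : ρ a u = c • u := by simpa [sub_eq_zero] using hu2
      have hcomm : ρ a (ρ b u) = ρ b (ρ a u) := by
        rw [← Module.End.mul_apply, ← map_mul, mul_comm, map_mul, Module.End.mul_apply]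
      simp [hcomm, hu3]
    have hnlt := hmin U' ⟨hne, inf_le_left.trans hUW, hU'inv⟩
    have hEq : U' = U := eq_of_le_of_not_lt inf_le_left hnlt
    intro u hu
    rw [← hEq] at hu
    simpa [sub_eq_zero] using (Submodule.mem_inf.1 hu).2
  choose θ hθ using key
  -- At `τ₀`, translation by `s ^ n` scales a leading term of order `p` by `denom ^ (-2np)`.
  obtain ⟨v, hvU, hv⟩ := Submodule.exists_mem_ne_zero_of_ne_bot hU0
  have hinj : Function.Injective (fun c : ℂ => c • v) := smul_left_injective ℂ hv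
  refine ⟨{ toFun := θ, map_one' := hinj ?_, map_mul' := fun a b => hinj ?_, map_zero' := hinj ?_,
            map_add' := fun a b => hinj ?_ }, v, hUW hvU, hv, fun a => hθ a v hvU⟩
  · show θ 1 • v = (1 : ℂ) • v
    rw [← hθ 1 v hvU, map_one, one_smul]; rfl
  · show θ (a * b) • v = (θ a * θ b) • v
    rw [← hθ (a * b) v hvU, map_mul, Module.End.mul_apply, hθ b v hvU, map_smul, hθ a v hvU,
      smul_smul, mul_comm]
  · show θ 0 • v = (0 : ℂ) • v
    rw [← hθ 0 v hvU, map_zero, zero_smul]; rfl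
  · show θ (a + b) • v = (θ a + θ b) • v
    rw [← hθ (a + b) v hvU, map_add, LinearMap.add_apply, hθ a v hvU, hθ b v hvU, add_smul]

/-- Every minimal prime of the Hecke algebra is contained in (hence equal to) the kernel of the
eigencharacter of a normalised eigenform. -/
theorem exists_eigenform_of_minimalPrime
    (𝔭 : Ideal ↥(CuspForm.heckeAlgebra N 2 ∅)) (hmin : 𝔭 ∈ minimalPrimes _) :
    ∃ (f : CuspForm (Gamma0 N) 2) (θ : ↥(CuspForm.heckeAlgebra N 2 ∅) →+* ℂ),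
      f.IsNormalizedEigenform ∧ 𝔭 ≤ RingHom.ker θ ∧
      ∀ ℓ (hℓ : ℓ.Prime), qCoeff f ℓ = θ (heckeOp N 2 ℓ hℓ) := by
  classical
  have := IntegralStructure.heckeAlgebra_finite N 2 ∅
  have := IntegralStructure.finiteDimensional_cuspForm N 2
  have : IsNoetherianRing ↥(CuspForm.heckeAlgebra N 2 ∅) := IsNoetherianRing.of_finite ℤ _
  -- The prime is the annihilator of some element `x ≠ 0` of the algebra.
  have hass : IsAssociatedPrime 𝔭 ↥(CuspForm.heckeAlgebra N 2 ∅) := by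
    apply Module.associatedPrimes.minimalPrimes_annihilator_subset_associatedPrimes
    rwa [Module.annihilator_eq_bot.2 inferInstance]
  obtain ⟨-, x, hx⟩ := (isAssociatedPrime_iff).1 hass
  have hmem : ∀ t, t ∈ 𝔭 ↔ t * x = 0 := fun t => by
    rw [hx, Submodule.mem_colon_singleton, Submodule.mem_bot, smul_eq_mul]
  have hx0 : x ≠ 0 := fun h0 => hmin.1.1.ne_top <|
    (Ideal.eq_top_iff_one _).2 <| (hmem 1).2 (by rw [h0, mul_zero])
  let ρ : ↥(CuspForm.heckeAlgebra N 2 ∅) →+* Module.End ℂ (CuspForm (Gamma0 N) 2) :=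
    (CuspForm.heckeAlgebra N 2 ∅).val.toRingHom
  -- The forms killed by the prime include the image of `x`, so are nonzero.
  let W : Submodule ℂ (CuspForm (Gamma0 N) 2) :=
    ⨅ t : 𝔭, LinearMap.ker (ρ t)
  have hW : W ≠ ⊥ := by
    have hx1 : ρ x ≠ 0 := fun h0 => hx0 (Subtype.ext h0)
    obtain ⟨v, hv⟩ : ∃ v, ρ x v ≠ 0 := by
      by_contra! hc
      exact hx1 (LinearMap.ext hc)
    refine (Submodule.ne_bot_iff _).2 ⟨ρ x v, ?_, hv⟩
    refine (Submodule.mem_iInf _).2 fun t => ?_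
    rw [LinearMap.mem_ker, ← Module.End.mul_apply, ← map_mul, (hmem t).1 t.2, map_zero,
      LinearMap.zero_apply]
  -- A common eigenvector there, normalised, is the eigenform.
  obtain ⟨θ, v, hvW, hv, heig⟩ := exists_eigenCharacter ρ W hW fun a w hw =>
    (Submodule.mem_iInf _).2 fun t => by
      have hw' : ρ t w = 0 := LinearMap.mem_ker.1 ((Submodule.mem_iInf _).1 hw t)
      rw [LinearMap.mem_ker, ← Module.End.mul_apply, ← map_mul, mul_comm, map_mul,
        Module.End.mul_apply, hw', map_zero]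
  set lam : ℕ → ℂ := fun ℓ => if hℓ : ℓ.Prime then θ (heckeOp N 2 ℓ hℓ) else 0 with hlamdef
  have hlam : ∀ ℓ (hℓ : ℓ.Prime), (heckeOp N 2 ℓ hℓ).1 v = lam ℓ • v := fun ℓ hℓ => by
    rw [hlamdef]
    simp only [dif_pos hℓ]
    exact heig (heckeOp N 2 ℓ hℓ)
  obtain ⟨-, hnorm, hcoeff⟩ := isNormalizedEigenform_of_eigen hv lam hlam
  refine ⟨_, θ, hnorm, fun t ht => ?_, fun ℓ hℓ => ?_⟩
  · have h0 : ρ t v = 0 := LinearMap.mem_ker.1 ((Submodule.mem_iInf _).1 hvW ⟨t, ht⟩)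
    rw [heig t, smul_eq_zero] at h0
    exact RingHom.mem_ker.2 (h0.resolve_right hv)
  · rw [hcoeff ℓ hℓ, hlamdef]
    simp only [dif_pos hℓ]

end Fermat.Agent.HeckeDuality
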