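import Fermat.Agent.HeckeDuality.Eigenform

/-!
# A normalised eigenform is an eigenvector of all Hecke operators
-/

set_option autoImplicit false

noncomputable section

namespace Fermat.Agent.HeckeDuality

open CongruenceSubgroup ModularFormClass

variable {N : ℕ} [NeZero N]

omit [NeZero N] in
theorem prime_pow_recursion {f : CuspForm (Gamma0 N) 2} (hf : f.IsNormalizedEigenform) {ℓ : ℕ}
    (hℓ : ℓ.Prime) (r : ℕ) :
    qCoeff f (ℓ ^ (r + 2)) + eulerWeight N ℓ * qCoeff f (ℓ ^ r) =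
      qCoeff f ℓ * qCoeff f (ℓ ^ (r + 1)) := by
  by_cases h : ℓ ∣ N
  · rw [eulerWeight, if_pos h, zero_mul, add_zero, hf.qCoeff_prime_pow_of_dvd ℓ r hℓ h]
  · rw [eulerWeight, if_neg h, hf.qCoeff_prime_pow_of_not_dvd ℓ r hℓ h, sub_add_cancel]

omit [NeZero N] in
/-- The coefficients of a normalised eigenform satisfy the Hecke recursions. -/
theorem seqEigen_of_isNormalizedEigenform {f : CuspForm (Gamma0 N) 2}
    (hf : f.IsNormalizedEigenform) :
    SeqEigen (eulerWeight N) (fun ℓ => qCoeff f ℓ) (qCoeff f) := by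
  intro ℓ hℓ n
  rcases Nat.eq_zero_or_pos n with rfl | hn
  · simp [coeff_zero f]
  · obtain ⟨k, m, hm, rfl⟩ := Nat.exists_eq_pow_mul_and_not_dvd (n := n) hn.ne' ℓ hℓ.ne_one
    have hcop : ∀ j, (ℓ ^ j).Coprime m := fun j => ((hℓ.coprime_iff_not_dvd).2 hm).pow_left j
    rw [show ℓ ^ k * m * ℓ = ℓ ^ (k + 1) * m by ring,
      hf.qCoeff_mul_of_coprime _ _ (hcop (k + 1)), hf.qCoeff_mul_of_coprime _ _ (hcop k)]
    rcases k with _ | k
    · rw [pow_zero, one_mul, if_neg hm, hf.qCoeff_one, zero_add, pow_one, one_mul, add_zero]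
    · have hd : ℓ ∣ ℓ ^ (k + 1) * m := (dvd_pow_self ℓ (Nat.succ_ne_zero k)).mul_right m
      rw [if_pos hd, show ℓ ^ (k + 1) * m / ℓ = ℓ ^ k * m by
        rw [pow_succ, mul_right_comm, Nat.mul_div_cancel _ hℓ.pos],
        hf.qCoeff_mul_of_coprime _ _ (hcop k)]
      linear_combination (qCoeff f m) * prime_pow_recursion hf hℓ k

/-- A normalised eigenform is an eigenvector of `T_ℓ` and `U_ℓ` with eigenvalue `a_ℓ`. -/
theorem heckeOp_apply_of_isNormalizedEigenform {f : CuspForm (Gamma0 N) 2}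
    (hf : f.IsNormalizedEigenform) {ℓ : ℕ} (hℓ : ℓ.Prime) :
    (heckeOp N 2 ℓ hℓ).1 f = qCoeff f ℓ • f :=
  ext_coeff fun n => by
    rw [coeff_heckeOp hℓ f n, coeff_smul]
    exact seqEigen_of_isNormalizedEigenform hf ℓ hℓ n

/-- A normalised eigenform is an eigenvector of `T_ℓ` with eigenvalue its `ℓ`-th coefficient. -/
theorem heckeTLin_apply_of_isNormalizedEigenform {f : CuspForm (Gamma0 N) 2}
    (hf : f.IsNormalizedEigenform) {ℓ : ℕ} (hℓ : ℓ.Prime) (hℓN : ¬ ℓ ∣ N) :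
    CuspForm.heckeTLin 2 hℓ hℓN f = qCoeff f ℓ • f := by
  have h := heckeOp_apply_of_isNormalizedEigenform hf hℓ
  rwa [heckeOp, dif_neg hℓN] at h

end Fermat.Agent.HeckeDuality
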