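import Fermat.Agent.HeckeDuality.NoConstant
import Fermat.Agent.Genus.JFunction

/-!
# The obstructions to a weight two form on `Γ₀(p)` congruent to a constant

Applications of `false_of_sheets` (`NoConstant`) to products with level one forms: case A for a
constant prime to `ℓ`, case B at `ℓ = 2`.

These are `false_of_const_caseA` and `false_of_const_caseB`.
-/

set_option autoImplicit false

noncomputable section

open UpperHalfPlane hiding I
open Matrix.SpecialLinearGroup (mapGL)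
open CongruenceSubgroup ModularGroup ModularForm
open scoped MatrixGroups ArithmeticFunction.sigma

namespace Fermat.Agent.HeckeDuality

variable {p : ℕ}

local notation "ι" => PowerSeries.map (Int.castRingHom ℂ)

/-! ### Expansions -/

/-- The coefficient series `n ↦ a (n p)`. -/
def decimate (p : ℕ) (G : PowerSeries ℤ) : PowerSeries ℤ :=
  PowerSeries.mk fun n => G.coeff (n * p)

theorem decimate_C_add (p : ℕ) [NeZero p] (c d : ℤ) (G : PowerSeries ℤ) :
    decimate p (PowerSeries.C c + PowerSeries.C d * G) =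
      PowerSeries.C c + PowerSeries.C d * decimate p G := by
  ext n
  rw [decimate, decimate, PowerSeries.coeff_mk, map_add, map_add, PowerSeries.coeff_C_mul,
    PowerSeries.coeff_C_mul, PowerSeries.coeff_C, PowerSeries.coeff_C, PowerSeries.coeff_mk]
  simp [NeZero.ne p]

theorem expand_C_int (p : ℕ) (hp : p ≠ 0) (c : ℤ) :
    PowerSeries.expand p hp (PowerSeries.C c) = PowerSeries.C c :=
  PowerSeries.expand_C p hp c

theorem ι_expand (p : ℕ) (hp : p ≠ 0) (P : PowerSeries ℤ) :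
    ι (PowerSeries.expand p hp P) = PowerSeries.expand p hp (ι P) :=
  PowerSeries.map_expand p hp _ P

theorem smul_eq_C (c : ℂ) (P : PowerSeries ℂ) : c • P = PowerSeries.C c * P :=
  PowerSeries.smul_eq_C_mul P c

/-- Expansions of `p • g` at the two cusps. -/
theorem hasExp_smul_p (hp : p.Prime) [NeZero p]
    (g : ModularForm ((Gamma0 p).map (mapGL ℝ)) 2) (G : PowerSeries ℤ)
    (hG : qExpansion 1 g = ι G) :
    HasExp 1 ((p : ℂ) • ⇑g) (ι (PowerSeries.C (p : ℤ) * G)) ∧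
      HasExp p (((p : ℂ) • ⇑g) ∣[(2 : ℤ)] S) (ι (-decimate p G)) := by
  constructor
  · have h := hasExp_of_modularFormClass (h := 1) g (Γ := (Gamma0 p).map (mapGL ℝ)) (k := 2)
      (by rw [Nat.cast_one]; exact CongruenceSubgroup.one_mem_strictPeriods_Gamma0 p)
    rw [Nat.cast_one, hG] at h
    convert! h.smul (p : ℂ) using 1
    rw [map_mul, smul_eq_C, PowerSeries.map_C]
    simp
  · have h := (hasExp_slash_S hp g (ι G) hG).smul (p : ℂ)
    rw [ModularForm.SL_smul_slash]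
    convert! h using 1
    rw [smul_smul, mul_neg, mul_inv_cancel₀ (by exact_mod_cast hp.ne_zero), neg_one_smul, map_neg]
    ext n
    simp [decimate]

theorem mul_slash_weight (γ : SL(2, ℤ)) (x y : ℍ → ℂ) (i j n : ℤ) (hn : n = i + j) :
    (x * y) ∣[n] γ = (x ∣[i] γ) * (y ∣[j] γ) := by
  subst hn; exact ModularForm.mul_slash_SL2 i j γ x y

theorem hasExp_levelOne {a : ℤ} (M : ModularForm 𝒮ℒ a) (P : PowerSeries ℤ)
    (hM : qExpansion 1 M = ι P) : HasExp 1 (⇑M) (ι P) := by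
  have h := hasExp_of_modularFormClass (h := 1) M (Γ := 𝒮ℒ) (k := a)
    (by rw [Nat.cast_one]; exact one_mem_strictPeriods_SL)
  rwa [Nat.cast_one, hM] at h

/-! ### Case A -/

/-- `c (e M + D)` is nonzero modulo `ℓ` if `M 0 = 1`, `D 0 = 0` and `ℓ ∤ c D 1`. -/
private theorem C_mul_comb_ne_zero {ℓ : ℕ} [Fact ℓ.Prime] {c : ZMod ℓ} (hc : c ≠ 0) (e : ZMod ℓ)
    {M D : PowerSeries (ZMod ℓ)} (hM : M.coeff 0 = 1) (hD0 : D.coeff 0 = 0)
    (hD1 : D.coeff 1 ≠ 0) : PowerSeries.C c * (PowerSeries.C e * M + D) ≠ 0 := fun h => by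
  have h0 := congrArg (fun Z : PowerSeries (ZMod ℓ) => Z.coeff 0) h
  have h1 := congrArg (fun Z : PowerSeries (ZMod ℓ) => Z.coeff 1) h
  simp only [PowerSeries.coeff_C_mul, map_add, map_zero, hM, hD0, mul_one, add_zero,
    mul_eq_zero, hc, false_or] at h0
  simp only [PowerSeries.coeff_C_mul, map_zero, h0, zero_mul, zero_add, mul_eq_zero, hc,
    false_or] at h1
  exact hD1 h1

/-- `c D(q ^ p)` is nonzero modulo `ℓ` if `ℓ ∤ c D 1`. -/
private theorem C_mul_expand_ne_zero {ℓ : ℕ} [Fact ℓ.Prime] {c : ZMod ℓ} (hc : c ≠ 0)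
    (hp : p ≠ 0) {D : PowerSeries (ZMod ℓ)} (hD1 : D.coeff 1 ≠ 0) :
    PowerSeries.C c * PowerSeries.expand p hp D ≠ 0 := fun h => by
  have h1 := congrArg (fun Z : PowerSeries (ZMod ℓ) => Z.coeff (p * 1)) h
  simp only [PowerSeries.coeff_C_mul, PowerSeries.coeff_expand_mul, map_zero, mul_eq_zero, hc,
    false_or] at h1
  exact hD1 h1

/-- Case A: a form congruent to a constant `c` prime to `ℓ` modulo `ℓ ^ (r + 1)`. -/
theorem false_of_const_caseA (hp : p.Prime) {ℓ : ℕ} (hℓ : ℓ.Prime) (r : ℕ)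
    (g : ModularForm ((Gamma0 p).map (mapGL ℝ)) 2) (G : PowerSeries ℤ) (c : ℤ)
    (hG : qExpansion 1 g = ι (PowerSeries.C c + PowerSeries.C ((ℓ : ℤ) ^ (r + 1)) * G))
    (hc : ¬ (ℓ : ℤ) ∣ c) (e : ℤ) (he : (p : ℤ) + 1 = (ℓ : ℤ) ^ r * e)
    (a : ℕ) (ha : (a + 2) * (p + 1) < 12 * p)
    (M : ModularForm 𝒮ℒ (a : ℤ)) (L : ModularForm 𝒮ℒ ((a + 2 : ℕ) : ℤ))
    (Ms Ds : PowerSeries ℤ) (hM : qExpansion 1 M = ι Ms)
    (hL : qExpansion 1 L = ι (Ms + PowerSeries.C ((ℓ : ℤ) ^ r) * Ds))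
    (hMs : PowerSeries.constantCoeff Ms = 1) (hDs0 : PowerSeries.constantCoeff Ds = 0)
    (hDs1 : ¬ (ℓ : ℤ) ∣ Ds.coeff 1) : False := by
  have : NeZero p := ⟨hp.ne_zero⟩
  set Lr : ℂ := (ℓ : ℂ) ^ r with hLr
  have hLr0 : Lr ≠ 0 := pow_ne_zero _ (by exact_mod_cast hℓ.ne_zero)
  -- `F = (p g M + c L) / ℓ^r` has weight `a + 2` and integral expansions `A`, `B` at `∞`, `0`:
  -- modulo `ℓ`, `A ≡ c (e Ms + Ds)` and `B ≡ c Ds(q^p)`, which vanishes to order `p`.
  set F : ℍ → ℂ := Lr⁻¹ • (((p : ℂ) • ⇑g) * ⇑M + (c : ℂ) • ⇑L) with hF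
  obtain ⟨hg1, hg2⟩ := hasExp_smul_p hp g _ hG
  have hM1 := hasExp_levelOne M Ms hM
  have hL1 := hasExp_levelOne L _ hL
  set A : PowerSeries ℤ := PowerSeries.C ((p : ℤ) * ℓ) * G * Ms +
    PowerSeries.C c * (PowerSeries.C e * Ms + Ds) with hAdef
  set B : PowerSeries ℤ := -(PowerSeries.C (ℓ : ℤ) * decimate p G *
      PowerSeries.expand p (NeZero.ne p) Ms) +
    PowerSeries.C c * PowerSeries.expand p (NeZero.ne p) Ds with hBdef
  have hA : HasExp 1 F (ι A) := by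
    have h := ((hg1.mul hM1).add (hL1.smul (c : ℂ))).smul Lr⁻¹
    convert! h using 1
    have key : PowerSeries.C ((p : ℤ)) * (PowerSeries.C c + PowerSeries.C ((ℓ : ℤ) ^ (r + 1)) * G)
        * Ms + PowerSeries.C c * (Ms + PowerSeries.C ((ℓ : ℤ) ^ r) * Ds) =
        PowerSeries.C ((ℓ : ℤ) ^ r) * A := by
      have he' : PowerSeries.C ((p : ℤ)) + 1 =
          PowerSeries.C ((ℓ : ℤ) ^ r) * PowerSeries.C e := by
        rw [← map_mul, ← he, map_add, map_one]
      rw [hAdef, pow_succ, map_mul, map_mul]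
      linear_combination (PowerSeries.C c * Ms) * he'
    rw [← map_mul, smul_eq_C, smul_eq_C,
      show PowerSeries.C (c : ℂ) = ι (PowerSeries.C c) by simp, ← map_mul (ι), ← map_add, key,
      map_mul, PowerSeries.map_C, ← mul_assoc, ← map_mul]
    simp [hLr, hℓ.ne_zero]
  have hslash : F ∣[((a + 2 : ℕ) : ℤ)] S =
      Lr⁻¹ • ((((p : ℂ) • ⇑g) ∣[(2 : ℤ)] S) * ⇑M + (c : ℂ) • ⇑L) := by
    rw [hF, ModularForm.SL_smul_slash, SlashAction.add_slash, ModularForm.SL_smul_slash,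
      Genus.slash_eq_self,
      mul_slash_weight S _ _ 2 (a : ℤ) ((a + 2 : ℕ) : ℤ) (by push_cast; ring),
      Genus.slash_eq_self]
  have hB : HasExp p (F ∣[((a + 2 : ℕ) : ℤ)] S) (ι B) := by
    rw [hslash]
    have h := ((hg2.mul (hM1.widen p)).add ((hL1.widen p).smul (c : ℂ))).smul Lr⁻¹
    convert! h using 1
    have key : -decimate p (PowerSeries.C c + PowerSeries.C ((ℓ : ℤ) ^ (r + 1)) * G) *
        PowerSeries.expand p (NeZero.ne p) Ms + PowerSeries.C c *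
        PowerSeries.expand p (NeZero.ne p) (Ms + PowerSeries.C ((ℓ : ℤ) ^ r) * Ds) =
        PowerSeries.C ((ℓ : ℤ) ^ r) * B := by
      rw [decimate_C_add, map_add, map_mul (PowerSeries.expand p (NeZero.ne p)), expand_C_int,
        hBdef, pow_succ, map_mul]
      ring
    rw [← ι_expand, ← ι_expand, ← map_mul, smul_eq_C, smul_eq_C,
      show PowerSeries.C (c : ℂ) = ι (PowerSeries.C c) by simp, ← map_mul (ι), ← map_add, key,
      map_mul, PowerSeries.map_C, ← mul_assoc, ← map_mul]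
    simp [hLr, hℓ.ne_zero]
  have hinv : ∀ γ ∈ Gamma0 p, F ∣[((a + 2 : ℕ) : ℤ)] γ = F := by
    intro γ hγ
    rw [hF, ModularForm.SL_smul_slash, SlashAction.add_slash, ModularForm.SL_smul_slash,
      Genus.slash_eq_self,
      mul_slash_weight γ _ _ 2 (a : ℤ) ((a + 2 : ℕ) : ℤ) (by push_cast; ring),
      Genus.slash_eq_self, ModularForm.SL_smul_slash,
      invariant_of_form g γ hγ]
  let f := mkGammaZero hp ((a + 2 : ℕ) : ℤ) F hinv hA.mdiff hA.bounded hB.bounded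
  have : Fact ℓ.Prime := ⟨hℓ⟩
  have hcz : ((c : ℤ) : ZMod ℓ) ≠ 0 := by
    rwa [Ne, ZMod.intCast_zmod_eq_zero_iff_dvd]
  have hAmap : A.map (Int.castRingHom (ZMod ℓ)) = PowerSeries.C (c : ZMod ℓ) *
      (PowerSeries.C (e : ZMod ℓ) * Ms.map (Int.castRingHom (ZMod ℓ))
        + Ds.map (Int.castRingHom (ZMod ℓ))) := by
    rw [hAdef]
    simp only [map_add, map_mul, PowerSeries.map_C, eq_intCast (Int.castRingHom (ZMod ℓ)),
      Int.cast_natCast, ZMod.natCast_self, mul_zero, map_zero, zero_mul, zero_add]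
  have hBmap : B.map (Int.castRingHom (ZMod ℓ)) = PowerSeries.C (c : ZMod ℓ) *
      PowerSeries.expand p (NeZero.ne p) (Ds.map (Int.castRingHom (ZMod ℓ))) := by
    rw [hBdef]
    simp only [map_add, map_neg, map_mul, PowerSeries.map_C, eq_intCast (Int.castRingHom (ZMod ℓ)),
      Int.cast_natCast,
      ZMod.natCast_self, map_zero, zero_mul, neg_zero, zero_add, PowerSeries.map_expand]
  have hD1 : ((Ds.coeff 1 : ℤ) : ZMod ℓ) ≠ 0 := by
    rwa [Ne, ZMod.intCast_zmod_eq_zero_iff_dvd]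
  refine false_of_sheets hp hℓ (a + 2) ha f A B hA hB (fun h => ?_) (fun h => ?_) (fun n hn => ?_)
  · refine C_mul_comb_ne_zero hcz _ ?_ ?_ ?_ (hAmap ▸ h) <;>
      simp [PowerSeries.coeff_map, hMs, hDs0, hD1]
  · refine C_mul_expand_ne_zero hcz (NeZero.ne p) ?_ (hBmap ▸ h)
    simp [PowerSeries.coeff_map, hD1]
  · rw [hBdef, map_add, map_neg, mul_assoc, PowerSeries.coeff_C_mul, PowerSeries.coeff_C_mul]
    refine dvd_add (dvd_neg.2 (dvd_mul_right _ _)) ?_
    rcases Nat.eq_zero_or_pos n with rfl | hn0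
    · simp [hDs0]
    · rw [PowerSeries.coeff_expand_of_not_dvd p (NeZero.ne p) Ds
        (Nat.not_dvd_of_pos_of_lt hn0 hn), mul_zero]
      exact dvd_zero _

/-! ### Case B -/

/-- The integral identity behind case B. -/
theorem caseB_identity {R : Type*} [CommRing R] (u X a b C₁ H : R) (h : 45 * a + 63 * b = 4 * C₁) :
    (H = -u + 8 * X →
      H ^ 4 - 6 * u ^ 2 * (1 + 240 * a) * H ^ 2 - 8 * u ^ 3 * (1 - 504 * b) * H
          - 3 * u ^ 4 * (1 + 240 * a) ^ 2 =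
        256 * (-(u ^ 4 * (C₁ + 675 * a ^ 2)) + 2 * (45 * u ^ 3 * a * X - 180 * u ^ 2 * a * X ^ 2
          + 63 * u ^ 3 * b * X - 4 * u * X ^ 3 + 8 * X ^ 4))) ∧
    (H = 3 * u + 8 * X →
      H ^ 4 - 6 * u ^ 2 * (1 + 240 * a) * H ^ 2 - 8 * u ^ 3 * (1 - 504 * b) * H
          - 3 * u ^ 4 * (1 + 240 * a) ^ 2 =
        256 * (u ^ 4 * (3 * C₁ - 90 * a - 675 * a ^ 2) + 2 * (X * (u + 2 * X) ^ 3
          - 135 * u ^ 3 * a * X + 63 * u ^ 3 * b * X - 180 * u ^ 2 * a * X ^ 2))) := by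
  constructor <;> intro hH <;> subst hH
  · linear_combination (-64 * u ^ 4) * h
  · linear_combination (192 * u ^ 4) * h

theorem exists_caseB_series :
    ∃ C₁ : PowerSeries ℤ, 45 * sigmaSeries 3 + 63 * sigmaSeries 5 = 4 * C₁ ∧
      PowerSeries.constantCoeff C₁ = 0 ∧ C₁.coeff 1 = 27 := by
  have hd : ∀ d : ℕ, (4 : ℤ) ∣ 45 * (d : ℤ) ^ 3 + 63 * (d : ℤ) ^ 5 := by
    intro d
    have h : ∀ x : ZMod 4, 45 * x ^ 3 + 63 * x ^ 5 = 0 := by decide
    rw [show (4 : ℤ) = ((4 : ℕ) : ℤ) by rfl, ← ZMod.intCast_zmod_eq_zero_iff_dvd]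
    push_cast
    exact h _
  have hn : ∀ n, (4 : ℤ) ∣ 45 * (σ 3 n : ℤ) + 63 * (σ 5 n : ℤ) := by
    intro n
    rw [ArithmeticFunction.sigma_apply, ArithmeticFunction.sigma_apply]
    push_cast
    rw [Finset.mul_sum, Finset.mul_sum, ← Finset.sum_add_distrib]
    exact Finset.dvd_sum fun d _ => hd d
  choose C hC using hn
  refine ⟨PowerSeries.mk C, ?_, ?_, ?_⟩
  · ext n
    rw [show (45 : PowerSeries ℤ) = PowerSeries.C 45 from rfl,
      show (63 : PowerSeries ℤ) = PowerSeries.C 63 from rfl,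
      show (4 : PowerSeries ℤ) = PowerSeries.C 4 from rfl, map_add, PowerSeries.coeff_C_mul,
      PowerSeries.coeff_C_mul, PowerSeries.coeff_C_mul, PowerSeries.coeff_mk, sigmaSeries,
      sigmaSeries, PowerSeries.coeff_mk, PowerSeries.coeff_mk, hC n]
  · rw [← PowerSeries.coeff_zero_eq_constantCoeff_apply, PowerSeries.coeff_mk]
    have h := hC 0
    simp at h
    omega
  · rw [PowerSeries.coeff_mk]
    have h := hC 1
    simp at h
    omega

/-- The weight eight combination of case B commutes with the action of `SL(2, ℤ)`. -/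
private theorem slash_caseB (c : ℂ) (H : ℍ → ℂ) (γ : SL(2, ℤ)) :
    ((256 : ℂ)⁻¹ • (H * H * (H * H) - (6 * c ^ 2) • (⇑E₄ * (H * H))
      - (8 * c ^ 3) • (⇑E₆ * H) - (3 * c ^ 4) • (⇑E₄ * ⇑E₄))) ∣[((8 : ℕ) : ℤ)] γ =
    (256 : ℂ)⁻¹ • ((H ∣[(2 : ℤ)] γ) * (H ∣[(2 : ℤ)] γ) *
        ((H ∣[(2 : ℤ)] γ) * (H ∣[(2 : ℤ)] γ))
      - (6 * c ^ 2) • (⇑E₄ * ((H ∣[(2 : ℤ)] γ) * (H ∣[(2 : ℤ)] γ)))
      - (8 * c ^ 3) • (⇑E₆ * (H ∣[(2 : ℤ)] γ)) - (3 * c ^ 4) • (⇑E₄ * ⇑E₄)) := by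
  rw [ModularForm.SL_smul_slash]
  simp only [sub_eq_add_neg, SlashAction.add_slash, SlashAction.neg_slash,
    ModularForm.SL_smul_slash]
  rw [mul_slash_weight γ (H * H) (H * H) 4 4 ((8 : ℕ) : ℤ) (by norm_num),
    mul_slash_weight γ (⇑E₄) (H * H) 4 4 ((8 : ℕ) : ℤ) (by norm_num),
    mul_slash_weight γ (⇑E₆) H 6 2 ((8 : ℕ) : ℤ) (by norm_num),
    mul_slash_weight γ (⇑E₄) (⇑E₄) 4 4 ((8 : ℕ) : ℤ) (by norm_num),
    mul_slash_weight γ H H 2 2 4 (by norm_num)]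
  rw [Genus.slash_eq_self, Genus.slash_eq_self]

/-- The series identity of case B, divided by `256` after mapping to `ℂ`. -/
private theorem caseB_series_div (c : ℤ) (Y a₄ a₆ Z : PowerSeries ℤ)
    (hZ : Y * Y * (Y * Y) - (6 * PowerSeries.C c ^ 2) * (a₄ * (Y * Y))
      - (8 * PowerSeries.C c ^ 3) * (a₆ * Y) - (3 * PowerSeries.C c ^ 4) * (a₄ * a₄) = 256 * Z) :
    (256 : ℂ)⁻¹ • (ι Y * ι Y * (ι Y * ι Y) - (6 * (c : ℂ) ^ 2) • (ι a₄ * (ι Y * ι Y))
      - (8 * (c : ℂ) ^ 3) • (ι a₆ * ι Y) - (3 * (c : ℂ) ^ 4) • (ι a₄ * ι a₄)) = ι Z := by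
  have hofNat : ∀ (n : ℕ) [n.AtLeastTwo],
      ι (OfNat.ofNat n : PowerSeries ℤ) = (OfNat.ofNat n : PowerSeries ℂ) :=
    fun n _ => map_ofNat _ n
  have hιu : ι (PowerSeries.C c) = PowerSeries.C (c : ℂ) := by simp
  have h1 := congrArg (ι) hZ
  simp only [map_sub, map_mul, map_pow, hιu, hofNat] at h1
  simp only [smul_eq_C, map_mul, map_pow, map_ofNat]
  rw [h1, ← mul_assoc, ← map_ofNat (PowerSeries.C (R := ℂ)) 256, ← map_mul]
  norm_num

/-- Modulo two the number `2` vanishes. -/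
private theorem two_eq_zero_series : (2 : PowerSeries (ZMod 2)) = 0 := by
  rw [← map_ofNat (PowerSeries.C (R := ZMod 2)) 2, show (OfNat.ofNat 2 : ZMod 2) = 0 from rfl,
    map_zero]

/-- An odd constant is one modulo two. -/
private theorem map_C_odd {c : ℤ} (hc : Odd c) :
    (PowerSeries.C c).map (Int.castRingHom (ZMod 2)) = 1 := by
  have h1 : (c : ZMod 2) = 1 := by
    obtain ⟨k, rfl⟩ := hc
    push_cast
    rw [show (2 : ZMod 2) = 0 from rfl, zero_mul, zero_add]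
  rw [PowerSeries.map_C, eq_intCast, h1, map_one]

/-- If `H`, `E₄` and `E₆` have expansions `Y`, `a₄` and `a₆`, and the combination of case B of
these series is `256 Z`, then the weight eight combination of case B of `H` has expansion `Z`. -/
private theorem hasExp_caseB {w : ℕ} [NeZero w] (c : ℤ) {H : ℍ → ℂ} {Y a₄ a₆ Z : PowerSeries ℤ}
    (hY : HasExp w H (ι Y)) (h4 : HasExp w (⇑E₄) (ι a₄)) (h6 : HasExp w (⇑E₆) (ι a₆))
    (hZ : Y * Y * (Y * Y) - (6 * PowerSeries.C c ^ 2) * (a₄ * (Y * Y))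
      - (8 * PowerSeries.C c ^ 3) * (a₆ * Y) - (3 * PowerSeries.C c ^ 4) * (a₄ * a₄) = 256 * Z) :
    HasExp w ((256 : ℂ)⁻¹ • (H * H * (H * H) - (6 * (c : ℂ) ^ 2) • (⇑E₄ * (H * H))
      - (8 * (c : ℂ) ^ 3) • (⇑E₆ * H) - (3 * (c : ℂ) ^ 4) • (⇑E₄ * ⇑E₄))) (ι Z) := by
  have h := ((((hY.mul hY).mul (hY.mul hY)).sub
    ((h4.mul (hY.mul hY)).smul (6 * (c : ℂ) ^ 2))).sub
    ((h6.mul hY).smul (8 * (c : ℂ) ^ 3))).sub
    ((h4.mul h4).smul (3 * (c : ℂ) ^ 4)) |>.smul (256 : ℂ)⁻¹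
  convert! h using 1
  exact (caseB_series_div c _ _ _ _ hZ).symm

/-- For `Y = t c + 8 X` with `t = -1` or `3`, `c` odd and `45 a + 63 b = 4 C₁`, the combination
of case B, with `1 + 240 a` and `1 - 504 b` for the Eisenstein series, is `256` times a series
congruent to `C₁ + a ^ 2` modulo two. -/
private theorem exists_caseB_quotient {c : ℤ} (hc : Odd c) {t : ℤ} (ht : t = -1 ∨ t = 3)
    (X a b C₁ : PowerSeries ℤ) (h45 : 45 * a + 63 * b = 4 * C₁) :
    ∃ Z : PowerSeries ℤ,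
      Z.map (Int.castRingHom (ZMod 2)) = (C₁ + a ^ 2).map (Int.castRingHom (ZMod 2)) ∧
      ∀ Y, Y = PowerSeries.C t * PowerSeries.C c + 8 * X →
        Y * Y * (Y * Y) - (6 * PowerSeries.C c ^ 2) * ((1 + 240 * a) * (Y * Y))
          - (8 * PowerSeries.C c ^ 3) * ((1 - 504 * b) * Y)
          - (3 * PowerSeries.C c ^ 4) * ((1 + 240 * a) * (1 + 240 * a)) = 256 * Z := by
  have htwo := two_eq_zero_series
  have hodd : ∀ (n : ℕ) [n.AtLeastTwo], n % 2 = 1 →
      (OfNat.ofNat n : PowerSeries (ZMod 2)) = 1 := by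
    intro n _ hn
    rw [← map_ofNat (PowerSeries.C (R := ZMod 2)) n,
      show (OfNat.ofNat n : ZMod 2) = ((n : ℕ) : ZMod 2) from (Nat.cast_ofNat).symm,
      ← ZMod.natCast_mod, hn, Nat.cast_one, map_one]
  have hcu : (PowerSeries.C c).map (Int.castRingHom (ZMod 2)) = 1 := map_C_odd hc
  set u : PowerSeries ℤ := PowerSeries.C c with hu
  rcases ht with rfl | rfl
  · refine ⟨-(u ^ 4 * (C₁ + 675 * a ^ 2)) + 2 * (45 * u ^ 3 * a * X
      - 180 * u ^ 2 * a * X ^ 2 + 63 * u ^ 3 * b * X - 4 * u * X ^ 3 + 8 * X ^ 4), ?_,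
      fun Y hY => ?_⟩
    · simp only [map_add, map_neg, map_mul, map_pow, map_ofNat, hcu, htwo]
      rw [hodd 675 (by norm_num)]
      linear_combination (-(C₁.map (Int.castRingHom (ZMod 2)))
        - (a.map (Int.castRingHom (ZMod 2))) ^ 2) * htwo
    · have hid := (caseB_identity u X a b C₁ Y h45).1 (by rw [hY]; simp)
      linear_combination hid
  · refine ⟨u ^ 4 * (3 * C₁ - 90 * a - 675 * a ^ 2) + 2 * (X * (u + 2 * X) ^ 3
      - 135 * u ^ 3 * a * X + 63 * u ^ 3 * b * X - 180 * u ^ 2 * a * X ^ 2), ?_, fun Y hY => ?_⟩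
    · simp only [map_add, map_sub, map_mul, map_pow, map_ofNat, hcu, htwo]
      rw [hodd 675 (by norm_num), hodd 3 (by norm_num)]
      linear_combination (-45 * a.map (Int.castRingHom (ZMod 2))
        - (a.map (Int.castRingHom (ZMod 2))) ^ 2) * htwo
    · have hid := (caseB_identity u X a b C₁ Y h45).2 (by rw [hY]; simp [map_ofNat])
      linear_combination hid

/-- If the coefficient of `C₁` in degree one is `27`, then that of `C₁ + σ₃ ^ 2` is not zero
modulo two. -/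
private theorem coeff_one_caseB_ne_zero {C₁ : PowerSeries ℤ} (h1 : C₁.coeff 1 = 27) :
    ((C₁ + sigmaSeries 3 ^ 2).map (Int.castRingHom (ZMod 2))).coeff 1 ≠ 0 := by
  intro h
  have hsq : (sigmaSeries 3 ^ 2).coeff 1 = 0 := by
    rw [sq, PowerSeries.coeff_mul]
    refine Finset.sum_eq_zero fun x hx => ?_
    rw [Finset.HasAntidiagonal.mem_antidiagonal] at hx
    rcases (show x.1 = 0 ∨ x.2 = 0 by omega) with h | h <;>
      simp [h, constantCoeff_sigmaSeries]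
  rw [PowerSeries.coeff_map, map_add, h1, hsq, add_zero, eq_intCast,
    ZMod.intCast_zmod_eq_zero_iff_dvd] at h
  omega

/-- Case B: at `ℓ = 2`, `p ≡ 3 (mod 4)`: a form congruent to an odd constant modulo `8`. -/
theorem false_of_const_caseB (hp : p.Prime) (hp5 : 5 ≤ p) (hp4 : p % 4 = 3)
    (g : ModularForm ((Gamma0 p).map (mapGL ℝ)) 2) (G : PowerSeries ℤ) (c : ℤ) (hc : Odd c)
    (hG : qExpansion 1 g = ι (PowerSeries.C c + PowerSeries.C 8 * G)) : False := by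
  have : NeZero p := ⟨hp.ne_zero⟩
  have : Fact (Nat.Prime 2) := ⟨Nat.prime_two⟩
  obtain ⟨C₁, hC₁, hC₁0, hC₁1⟩ := exists_caseB_series
  obtain ⟨hg1, hg2⟩ := hasExp_smul_p hp g _ hG
  have h4 := hasExp_levelOne E₄ eisFour qExp_eisFour
  have h6 := hasExp_levelOne E₆ eisSix qExp_eisSix
  -- With `H = p g` the form `F = (H⁴ - 6c² E₄ H² - 8c³ E₆ H - 3c⁴ E₄²)/256` of weight eight has
  -- integral expansions `A`, `B`, congruent modulo `2` to `C₁ + σ₃²` and to the same in `q^p`.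
  set H : ℍ → ℂ := (p : ℂ) • ⇑g with hH
  set F : ℍ → ℂ := (256 : ℂ)⁻¹ • (H * H * (H * H) - (6 * (c : ℂ) ^ 2) • (⇑E₄ * (H * H))
    - (8 * (c : ℂ) ^ 3) • (⇑E₆ * H) - (3 * (c : ℂ) ^ 4) • (⇑E₄ * ⇑E₄)) with hF
  set a4 := sigmaSeries 3 with ha4
  set a6 := sigmaSeries 5
  set ex := PowerSeries.expand p (NeZero.ne p) (R := ℤ)
  -- the two expansions
  have h45 : 45 * ex a4 + 63 * ex a6 = 4 * ex C₁ := by
    simpa [map_ofNat] using congrArg ex hC₁
  obtain ⟨B, hBmap, hBid⟩ := exists_caseB_quotient hc (Or.inl rfl) (-decimate p G) _ _ _ h45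
  have hB : HasExp p (F ∣[((8 : ℕ) : ℤ)] S) (ι B) := by
    rw [hF, slash_caseB _ _ S]
    have h4' : HasExp p (⇑E₄) (ι (ex eisFour)) := by rw [ι_expand]; exact h4.widen p
    have h6' : HasExp p (⇑E₆) (ι (ex eisSix)) := by rw [ι_expand]; exact h6.widen p
    refine hasExp_caseB c hg2 h4' h6' ?_
    simp only [eisFour, eisSix, map_add, map_sub, map_mul, map_one, map_ofNat]
    refine hBid _ ?_
    rw [show (8 : PowerSeries ℤ) = PowerSeries.C 8 from rfl, decimate_C_add, map_neg, map_one]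
    ring
  obtain ⟨t, e, ht, hpe⟩ : ∃ t e : ℤ, (t = -1 ∨ t = 3) ∧ (p : ℤ) = t + 8 * e := by
    rcases (show p % 8 = 3 ∨ p % 8 = 7 by omega) with h | h
    · exact ⟨3, p / 8, Or.inr rfl, by omega⟩
    · exact ⟨-1, p / 8 + 1, Or.inl rfl, by omega⟩
  obtain ⟨A, hA1, hAid⟩ := exists_caseB_quotient hc ht
    (PowerSeries.C (p : ℤ) * G + PowerSeries.C (e * c)) a4 a6 C₁ hC₁
  have hA : HasExp 1 F (ι A) := by
    refine hasExp_caseB c hg1 h4 h6 (hAid _ ?_)
    rw [hpe, show (8 : PowerSeries ℤ) = PowerSeries.C 8 from rfl]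
    simp only [map_add, map_mul]
    ring
  have hinv : ∀ γ ∈ Gamma0 p, F ∣[((8 : ℕ) : ℤ)] γ = F := by
    intro γ hγ
    rw [hF, slash_caseB _ _ γ, hH, ModularForm.SL_smul_slash, invariant_of_form g γ hγ]
  let f := mkGammaZero hp ((8 : ℕ) : ℤ) F hinv hA.mdiff hA.bounded hB.bounded
  have hBmap' : B.map (Int.castRingHom (ZMod 2)) =
      PowerSeries.expand p (NeZero.ne p) ((C₁ + a4 ^ 2).map (Int.castRingHom (ZMod 2))) := by
    rw [hBmap, ← PowerSeries.map_expand, map_add ex, map_pow]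
  have hne := coeff_one_caseB_ne_zero hC₁1
  refine false_of_sheets hp Nat.prime_two 8 (by omega) f A B hA hB (fun h => ?_) (fun h => ?_)
    (fun n hn => ?_)
  · exact hne (by rw [← hA1, h, map_zero])
  · have h1 := congrArg (fun Z : PowerSeries (ZMod 2) => Z.coeff (p * 1)) (hBmap'.symm.trans h)
    simp only [PowerSeries.coeff_expand_mul, map_zero] at h1
    exact hne h1
  · have h1 : (B.map (Int.castRingHom (ZMod 2))).coeff n = 0 := by
      rw [hBmap']
      rcases Nat.eq_zero_or_pos n with rfl | hn0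
      · rw [show (0 : ℕ) = p * 0 by simp, PowerSeries.coeff_expand_mul,
          PowerSeries.coeff_map, map_add, PowerSeries.coeff_zero_eq_constantCoeff_apply,
          PowerSeries.coeff_zero_eq_constantCoeff_apply, map_pow, hC₁0, ha4,
          constantCoeff_sigmaSeries]
        simp
      · exact PowerSeries.coeff_expand_of_not_dvd p (NeZero.ne p) _
          (Nat.not_dvd_of_pos_of_lt hn0 hn)
    rwa [PowerSeries.coeff_map, eq_intCast, ZMod.intCast_zmod_eq_zero_iff_dvd] at h1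

end Fermat.Agent.HeckeDuality
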