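import Fermat.Agent.HeckeDuality.Sheets
import Mathlib.NumberTheory.ModularForms.NormTrace

/-!
# The `p + 1` cosets of `Γ₀(p)`: trace, norm, and a constructor of forms
-/

set_option autoImplicit false

noncomputable section

open UpperHalfPlane hiding I
open Matrix.SpecialLinearGroup (mapGL coe_inv)
open CongruenceSubgroup ModularGroup SlashInvariantForm
open scoped MatrixGroups ModularForm Manifold

namespace Fermat.Agent.HeckeDuality

variable {p : ℕ}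

/-- The coset representatives `S * T ^ j`. -/
def stPow (j : ℕ) : SL(2, ℤ) := S * T ^ (j : ℤ)

theorem coe_stPow (j : ℕ) : (stPow j).1 = !![0, -1; 1, (j : ℤ)] := by
  rw [stPow, Matrix.SpecialLinearGroup.coe_mul, coe_S, coe_T_zpow]
  simp

theorem mul_inv_stPow_apply (g : SL(2, ℤ)) (j : ℕ) :
    (g * (stPow j)⁻¹) 1 0 = g 1 0 * (j : ℤ) - g 1 1 := by
  rw [Matrix.SpecialLinearGroup.coe_mul, coe_inv, coe_stPow, Matrix.adjugate_fin_two_of,
    Matrix.mul_apply, Fin.sum_univ_two]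
  simp
  ring

/-- Every element is in `Γ₀(p)` or in one of the cosets `Γ₀(p) * S * T ^ j`. -/
theorem gamma0_coset_cases (hp : p.Prime) (g : SL(2, ℤ)) :
    g ∈ Gamma0 p ∨ ∃ j : Fin p, g * (stPow j)⁻¹ ∈ Gamma0 p := by
  have : Fact p.Prime := ⟨hp⟩
  by_cases hc : (g 1 0 : ZMod p) = 0
  · exact Or.inl (Gamma0_mem.2 hc)
  · refine Or.inr ⟨⟨((g 1 1 : ZMod p) * (g 1 0 : ZMod p)⁻¹).val, ZMod.val_lt _⟩, ?_⟩
    rw [Gamma0_mem, mul_inv_stPow_apply]
    push_cast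
    rw [ZMod.natCast_zmod_val, mul_left_comm, mul_inv_cancel₀ hc, mul_one, sub_self]

/-- The map enumerating the cosets. -/
def cosetMap (p : ℕ) : Option (Fin p) →
    (𝒮ℒ : Subgroup (GL (Fin 2) ℝ)) ⧸
      ((Gamma0 p).map (mapGL ℝ)).subgroupOf 𝒮ℒ
  | none => QuotientGroup.mk ⟨mapGL ℝ (1 : SL(2, ℤ)), ⟨1, rfl⟩⟩
  | some j => QuotientGroup.mk ⟨mapGL ℝ ((stPow j)⁻¹), ⟨(stPow j)⁻¹, rfl⟩⟩

theorem mk_eq_mk_iff_mem (g h : SL(2, ℤ)) :
    (QuotientGroup.mk ⟨mapGL ℝ g, ⟨g, rfl⟩⟩ :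
      (𝒮ℒ : Subgroup (GL (Fin 2) ℝ)) ⧸ ((Gamma0 p).map (mapGL ℝ)).subgroupOf 𝒮ℒ) =
      QuotientGroup.mk ⟨mapGL ℝ h, ⟨h, rfl⟩⟩ ↔ g⁻¹ * h ∈ Gamma0 p := by
  rw [QuotientGroup.eq, Subgroup.mem_subgroupOf]
  show (mapGL ℝ g)⁻¹ * mapGL ℝ h ∈ (Gamma0 p).map (mapGL ℝ) ↔ _
  rw [← map_inv, ← map_mul]
  exact Subgroup.mem_map_iff_mem Matrix.SpecialLinearGroup.mapGL_injective

theorem stPow_not_mem (hp : p.Prime) (j : ℕ) : stPow j ∉ Gamma0 p := by
  have : Fact p.Prime := ⟨hp⟩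
  rw [Gamma0_mem, coe_stPow]
  simp

theorem cosetMap_bijective (hp : p.Prime) : Function.Bijective (cosetMap p) := by
  constructor
  · intro a b hab
    match a, b with
    | none, none => rfl
    | none, some j =>
      rw [cosetMap, cosetMap, mk_eq_mk_iff_mem, inv_one, one_mul, inv_mem_iff] at hab
      exact absurd hab (stPow_not_mem hp j)
    | some i, none =>
      rw [cosetMap, cosetMap, mk_eq_mk_iff_mem, inv_inv, mul_one] at hab
      exact absurd hab (stPow_not_mem hp i)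
    | some i, some j =>
      rw [cosetMap, cosetMap, mk_eq_mk_iff_mem, inv_inv, Gamma0_mem, mul_inv_stPow_apply,
        coe_stPow] at hab
      have h' : ((j : ℕ) : ZMod p) = ((i : ℕ) : ZMod p) := by
        simpa [sub_eq_zero] using hab
      rw [ZMod.natCast_eq_natCast_iff', Nat.mod_eq_of_lt j.2, Nat.mod_eq_of_lt i.2] at h'
      rw [Fin.ext h'.symm]
  · intro q
    induction q using QuotientGroup.induction_on with
    | H x =>
      obtain ⟨x, g, rfl⟩ := x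
      rcases gamma0_coset_cases hp g⁻¹ with h | ⟨j, h⟩
      · refine ⟨none, ?_⟩
        rw [cosetMap, mk_eq_mk_iff_mem, inv_one, one_mul]
        exact inv_mem_iff.1 h
      · refine ⟨some j, ?_⟩
        rw [cosetMap, mk_eq_mk_iff_mem, inv_inv, ← inv_mem_iff, mul_inv_rev]
        exact h

variable {k : ℤ} {F : Type*} [FunLike F ℍ ℂ]
  [SlashInvariantFormClass F ((Gamma0 p).map (mapGL ℝ)) k]

theorem quotientFunc_cosetMap_none (f : F) :
    SlashInvariantForm.quotientFunc f (cosetMap p none) = ⇑f := by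
  show (⇑f) ∣[k] (mapGL ℝ (1 : SL(2, ℤ)))⁻¹ = ⇑f
  rw [map_one, inv_one, SlashAction.slash_one]

theorem quotientFunc_cosetMap_some (f : F) (j : Fin p) :
    SlashInvariantForm.quotientFunc f (cosetMap p (some j)) = (⇑f) ∣[k] (stPow j) := by
  show (⇑f) ∣[k] (mapGL ℝ (stPow j)⁻¹)⁻¹ = _
  rw [← map_inv, inv_inv]
  rfl

/-- The trace to level one is the sum over the `p + 1` cosets. -/
theorem sum_quotientFunc (hp : p.Prime) (f : F)
    [Fintype ((𝒮ℒ : Subgroup (GL (Fin 2) ℝ)) ⧸ ((Gamma0 p).map (mapGL ℝ)).subgroupOf 𝒮ℒ)] :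
    ∑ q, SlashInvariantForm.quotientFunc (ℋ := 𝒮ℒ) f q =
      ⇑f + ∑ j : Fin p, (⇑f) ∣[k] (stPow j) := by
  rw [← Function.Bijective.sum_comp (cosetMap_bijective hp), Fintype.sum_option,
    quotientFunc_cosetMap_none]
  simp only [quotientFunc_cosetMap_some]

/-- The norm to level one is the product over the `p + 1` cosets. -/
theorem prod_quotientFunc (hp : p.Prime) (f : F)
    [Fintype ((𝒮ℒ : Subgroup (GL (Fin 2) ℝ)) ⧸ ((Gamma0 p).map (mapGL ℝ)).subgroupOf 𝒮ℒ)] :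
    ∏ q, SlashInvariantForm.quotientFunc (ℋ := 𝒮ℒ) f q =
      ⇑f * ∏ j : Fin p, (⇑f) ∣[k] (stPow j) := by
  rw [← Function.Bijective.prod_comp (cosetMap_bijective hp), Fintype.prod_option,
    quotientFunc_cosetMap_none]
  simp only [quotientFunc_cosetMap_some]

/-- `Γ₀(p)` has index `p + 1` in `SL₂(ℤ)`. -/
theorem natCard_cosets (hp : p.Prime) :
    Nat.card ((𝒮ℒ : Subgroup (GL (Fin 2) ℝ)) ⧸ ((Gamma0 p).map (mapGL ℝ)).subgroupOf 𝒮ℒ) =
      p + 1 := by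
  rw [← Nat.card_eq_of_bijective _ (cosetMap_bijective hp), Nat.card_eq_fintype_card,
    Fintype.card_option, Fintype.card_fin]

theorem slash_stPow_apply (f : ℍ → ℂ) (j : ℕ) (τ : ℍ) :
    (f ∣[k] stPow j) τ = (f ∣[k] S) ((j : ℝ) +ᵥ τ) := by
  rw [stPow, SlashAction.slash_mul, ModularForm.SL_slash_apply, ModularGroup.denom_apply,
    modular_T_zpow_smul]
  have h1 : ((T ^ (j : ℤ) : SL(2, ℤ)) 1 0 : ℤ) = 0 := by rw [coe_T_zpow]; rfl
  have h2 : ((T ^ (j : ℤ) : SL(2, ℤ)) 1 1 : ℤ) = 1 := by rw [coe_T_zpow]; rfl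
  simp [-zpow_natCast, h1, h2]

theorem isBoundedAtImInfty_vadd {f : ℍ → ℂ} (hf : IsBoundedAtImInfty f) (x : ℝ) :
    IsBoundedAtImInfty fun τ => f (x +ᵥ τ) := by
  rw [isBoundedAtImInfty_iff] at hf ⊢
  obtain ⟨M, A, h⟩ := hf
  exact ⟨M, A, fun z hz => h _ (by simpa using hz)⟩

/-- A weight `k` form on `Γ₀(p)` from an invariant function bounded at both cusps. -/
def mkGammaZero (hp : p.Prime) (k : ℤ) (f : ℍ → ℂ)
    (hinv : ∀ γ ∈ Gamma0 p, f ∣[k] γ = f) (hhol : MDiff f) (hinf : IsBoundedAtImInfty f)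
    (hzero : IsBoundedAtImInfty (f ∣[k] S)) : ModularForm ((Gamma0 p).map (mapGL ℝ)) k where
  toFun := f
  slash_action_eq' γ hγ := by
    obtain ⟨g, hg, rfl⟩ := hγ
    exact hinv g hg
  holo' := hhol
  bdd_at_cusps' {c} hc := by
    have : NeZero p := ⟨hp.ne_zero⟩
    rw [Subgroup.IsArithmetic.isCusp_iff_isCusp_SL2Z] at hc
    rw [OnePoint.isBoundedAt_iff_forall_SL2Z hc]
    intro g _
    rcases gamma0_coset_cases hp g with h | ⟨j, h⟩
    · rw [hinv g h]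
      exact hinf
    · rw [← inv_mul_cancel_right g (stPow j), SlashAction.slash_mul, hinv _ h,
        show f ∣[k] stPow j = fun τ => (f ∣[k] S) (((j : ℕ) : ℝ) +ᵥ τ) from
          funext (slash_stPow_apply f j)]
      exact isBoundedAtImInfty_vadd hzero _

@[simp] theorem coe_mkGammaZero (hp : p.Prime) (k : ℤ) (f : ℍ → ℂ) (h₁ h₂ h₃ h₄) :
    ⇑(mkGammaZero hp k f h₁ h₂ h₃ h₄) = f := rfl

end Fermat.Agent.HeckeDuality
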