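import Fermat.Agent.HeckeDuality.ConstCongruence
import Fermat.Prelude.Thm_ModularForm_sturm_bound_Gamma0
import Fermat.Prelude.Thm_ModularFormClass_qCoeff_heckeT

/-!
# The trace of `g(τ) Δ(pτ)` to level one
-/

set_option autoImplicit false

noncomputable section

open UpperHalfPlane hiding I
open Matrix.SpecialLinearGroup (mapGL)
open CongruenceSubgroup ModularGroup ModularForm
open Fermat.Agent.ModFun (zetaN isPrimitiveRoot_zetaN)
open scoped MatrixGroups

namespace Fermat.Agent.HeckeDuality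

variable {p : ℕ}

local notation "ι" => PowerSeries.map (Int.castRingHom ℂ)

/-- The expansion of `Δ`. -/
def discInt : PowerSeries ℤ := PowerSeries.X * ModularCurve.dedekindEtaUnit

theorem discInt_zero : discInt.coeff 0 = 0 := by
  rw [discInt, PowerSeries.coeff_zero_eq_constantCoeff_apply, map_mul]
  simp

theorem discInt_one : discInt.coeff 1 = 1 := by
  rw [discInt, show 1 = 0 + 1 from rfl, PowerSeries.coeff_succ_X_mul,
    PowerSeries.coeff_zero_eq_constantCoeff_apply, ModularCurve.constantCoeff_dedekindEtaUnit]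

/-- A level one weight fourteen form without constant term vanishes. -/
theorem weight_fourteen_eq_zero (Φ : ModularForm 𝒮ℒ 14) (h : (qExpansion 1 Φ).coeff 0 = 0) :
    Φ = 0 := by
  have h2 : CuspForm.discriminantEquiv (toCuspForm Φ h) = 0 :=
    (ModularForm.mcast_eq_zero_iff (a := 14 - 12) (b := 2) (by norm_num) rfl _).1
      (weight_two_eq_zero _)
  rw [LinearEquiv.map_eq_zero_iff] at h2
  ext τ
  have := DFunLike.congr_fun h2 τ
  simpa using this

/-- The trace identity for `g(τ) Δ(pτ)`. -/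
theorem trace_mul_discDiag (hp : p.Prime) [NeZero p]
    (g : ModularForm ((Gamma0 p).map (mapGL ℝ)) 2) (G : PowerSeries ℤ)
    (hG : qExpansion 1 g = ι G) (n : ℕ) :
    (p : ℤ) ^ 12 * (G * PowerSeries.expand p (NeZero.ne p) discInt).coeff n =
      (decimate p G * discInt).coeff (p * n) := by
  have hgexp : HasExp 1 (⇑g) (ι G) := by
    have h := hasExp_of_modularFormClass (h := 1) g (Γ := (Gamma0 p).map (mapGL ℝ)) (k := 2)
      (by rw [Nat.cast_one]; exact CongruenceSubgroup.one_mem_strictPeriods_Gamma0 p)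
    rwa [Nat.cast_one, hG] at h
  -- The trace to level one of `F = g · Δ | diag(p,1)` has weight `14` and is a cusp form, hence
  -- zero; its `n`-th coefficient gives the identity.
  set F : ℍ → ℂ := ⇑g * discDiag p with hF
  have hslS : F ∣[(14 : ℤ)] S = ((⇑g) ∣[(2 : ℤ)] S) *
      (ModularForm.discriminant ∣[(12 : ℤ)] heckeMatrix p 0) := by
    rw [hF, mul_slash_weight S _ _ 2 12 14 (by norm_num), discDiag_slash_S]
  have hA : HasExp 1 F (ι (PowerSeries.C ((p : ℤ) ^ 11) *
      (G * PowerSeries.expand p (NeZero.ne p) discInt))) := by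
    have h := hgexp.mul (hasExp_discriminant.slash_diag (p := p) 12)
    convert! h using 1
    rw [← discInt, ← ι_expand, smul_eq_C, map_mul, map_mul, PowerSeries.map_C]
    have : (Int.castRingHom ℂ) ((p : ℤ) ^ 11) = (p : ℂ) ^ ((12 : ℤ) - 1) := by
      rw [show (12 : ℤ) - 1 = ((11 : ℕ) : ℤ) by norm_num, zpow_natCast]; simp
    rw [this]
    ring
  have hB : HasExp p (F ∣[(14 : ℤ)] S)
      (PowerSeries.C (-((p : ℂ) ^ 2)⁻¹) * ι (decimate p G * discInt)) := by
    rw [hslS]
    have h := (hasExp_slash_S hp g (ι G) hG).mul (hasExp_discriminant.slash_mat_zero (p := p) 12)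
    convert! h using 1
    rw [← discInt, smul_eq_C, smul_eq_C, map_mul,
      show (PowerSeries.mk fun n => (ι G).coeff (n * p)) = ι (decimate p G) by
        ext m; simp [decimate],
      show (-((p : ℂ) ^ 2)⁻¹) = (-(p : ℂ)⁻¹) * (p : ℂ)⁻¹ by rw [sq, mul_inv, neg_mul], map_mul]
    ring
  have hinv : ∀ γ ∈ Gamma0 p, F ∣[(14 : ℤ)] γ = F := by
    intro γ hγ
    rw [hF, mul_slash_weight γ _ _ 2 12 14 (by norm_num), invariant_of_form g γ hγ,
      discDiag_slash hγ]
  let f := mkGammaZero hp 14 F hinv hA.mdiff hA.bounded hB.bounded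
  have := finiteRelIndex_gamma0 hp
  let := Fintype.ofFinite
    ((𝒮ℒ : Subgroup (GL (Fin 2) ℝ)) ⧸ ((Gamma0 p).map (mapGL ℝ)).subgroupOf 𝒮ℒ)
  set Φ := ModularForm.trace 𝒮ℒ f with hΦ
  set A₀ : PowerSeries ℤ := G * PowerSeries.expand p (NeZero.ne p) discInt with hA₀
  set B₀ : PowerSeries ℤ := decimate p G * discInt with hB₀
  have hsum : HasExp p (⇑Φ) (PowerSeries.expand p (NeZero.ne p)
    (ι (PowerSeries.C ((p : ℤ) ^ 11) * A₀)) + ∑ j : Fin p, PowerSeries.rescale (zetaN p ^ (j : ℕ))
        (PowerSeries.C (-((p : ℂ) ^ 2)⁻¹) * ι B₀)) := by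
    have hfun : ⇑Φ = ⇑f + ∑ j : Fin p, (⇑f) ∣[(14 : ℤ)] stPow j := by
      rw [← sum_quotientFunc hp f, hΦ, ModularForm.coe_trace]
    rw [hfun]
    refine (hA.widen p).add (HasExp.sum _ fun j _ => ?_)
    rw [show (⇑f) ∣[(14 : ℤ)] stPow j = fun τ => (F ∣[(14 : ℤ)] S) (((j : ℕ) : ℝ) +ᵥ τ) from
      funext (slash_stPow_apply _ _)]
    exact hB.vadd j
  have hone : HasExp 1 (⇑Φ) (qExpansion 1 Φ) := by
    have h := hasExp_of_modularFormClass (h := 1) Φ (Γ := 𝒮ℒ) (k := 14)
      (by rw [Nat.cast_one]; exact one_mem_strictPeriods_SL)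
    rwa [Nat.cast_one] at h
  have hcoef : ∀ m, (qExpansion 1 Φ).coeff m =
      (p : ℂ) ^ 11 * (A₀.coeff m : ℂ) - (p : ℂ)⁻¹ * (B₀.coeff (p * m) : ℂ) := by
    intro m
    have h := congrArg (fun Z : PowerSeries ℂ => Z.coeff (p * m)) ((hone.widen p).unique hsum)
    simp only [PowerSeries.coeff_expand_mul, map_add, map_sum, PowerSeries.coeff_rescale,
      PowerSeries.coeff_C_mul, PowerSeries.coeff_map,
      eq_intCast (Int.castRingHom ℂ), Int.cast_mul, Int.cast_pow, Int.cast_natCast] at h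
    have hζ : ∀ j : ℕ, (zetaN p ^ j) ^ (p * m) = 1 := fun j => by
      rw [← pow_mul, show j * (p * m) = p * (j * m) by ring, pow_mul,
        (isPrimitiveRoot_zetaN p).pow_eq_one, one_pow]
    simp only [hζ, one_mul, Finset.sum_const, Finset.card_univ, Fintype.card_fin, nsmul_eq_mul] at h
    rw [h]
    have hp0 : (p : ℂ) ≠ 0 := by exact_mod_cast hp.ne_zero
    field_simp
    ring
  have h0 : (qExpansion 1 Φ).coeff 0 = 0 := by
    rw [hcoef, hA₀, hB₀, mul_zero]
    simp [PowerSeries.coeff_mul, discInt_zero, PowerSeries.coeff_expand]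
  have hz := hcoef n
  rw [weight_fourteen_eq_zero Φ h0, FunLike.coe_zero, UpperHalfPlane.qExpansion_zero, map_zero]
    at hz
  have hp0 : (p : ℂ) ≠ 0 := by exact_mod_cast hp.ne_zero
  field_simp at hz
  have : ((p : ℤ) ^ 12 * A₀.coeff n : ℂ) = (B₀.coeff (p * n) : ℂ) := by
    push_cast
    linear_combination -hz
  exact_mod_cast this

/-- `Δ` as a form on `Γ₀(1)`. -/
def discOne : ModularForm ((Gamma0 1).map (mapGL ℝ)) 12 where
  toFun := ModularForm.discriminant
  slash_action_eq' γ hγ := by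
    obtain ⟨g, -, rfl⟩ := hγ
    exact discriminant_slash g
  holo' := CuspForm.discriminant.holo'
  bdd_at_cusps' {c} hc := by
    rw [Subgroup.IsArithmetic.isCusp_iff_isCusp_SL2Z] at hc
    rw [OnePoint.isBoundedAt_iff_forall_SL2Z hc]
    intro g _
    rw [discriminant_slash g]
    exact ModularForm.discriminant_isZeroAtImInfty.isBoundedAtImInfty

/-- `τ(p²) = τ(p)² - p¹¹`. -/
theorem discInt_sq (hp : p.Prime) :
    discInt.coeff (p * p) = discInt.coeff p ^ 2 - (p : ℤ) ^ 11 := by
  have hp1 : ¬ p ∣ 1 := hp.not_dvd_one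
  set t : ℂ := ((discInt.coeff p : ℤ) : ℂ) with ht
  -- The form `T_p Δ - τ(p) Δ` has vanishing coefficients up to the Sturm bound of level `1`.
  set D : ModularForm ((Gamma0 1).map (mapGL ℝ)) 12 :=
    ModularForm.heckeTLin 12 hp hp1 discOne - t • discOne with hD
  have hper := CongruenceSubgroup.one_mem_strictPeriods_Gamma0 1
  have hdisc : ∀ m, (qExpansion 1 ⇑discOne).coeff m = ((discInt.coeff m : ℤ) : ℂ) := fun m => by
    show (qExpansion 1 ModularForm.discriminant).coeff m = _
    rw [Fermat.Agent.ModFun.qExpansion_discriminant, PowerSeries.coeff_map]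
    rfl
  have hcoef : ∀ m, (qExpansion 1 ⇑D).coeff m = ((discInt.coeff (m * p) : ℤ) : ℂ) +
      (if p ∣ m then (p : ℂ) ^ 11 * ((discInt.coeff (m / p) : ℤ) : ℂ) else 0) -
      t * ((discInt.coeff m : ℤ) : ℂ) := by
    intro m
    rw [hD, FunLike.coe_sub, FunLike.coe_smul, UpperHalfPlane.qExpansion_sub
      (ModularFormClass.analyticAt_cuspFunction_zero _ one_pos hper), map_sub,
      ModularForm.qExpansion_smul one_pos hper, PowerSeries.coeff_smul, hdisc,
      ModularForm.coe_heckeTLin_apply]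
    swap
    · rw [← FunLike.coe_smul]
      exact ModularFormClass.analyticAt_cuspFunction_zero _ one_pos hper
    have h := ModularFormClass.qCoeff_heckeT discOne hper hp.ne_zero (k := 12) m
    simp only [ModularFormClass.qCoeff, ModularForm.coeffHeckeT_apply, hdisc] at h
    rw [h, show (12 : ℤ) - 1 = ((11 : ℕ) : ℤ) by norm_num, zpow_natCast, smul_eq_mul]
  have hzero : D = 0 := by
    refine ModularForm.sturm_bound_Gamma0 1 D fun m hm => ?_
    have hm1 : m ≤ 1 := by
      have hi : (Gamma0 1).index = 1 := by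
        rw [Subgroup.index_eq_one]
        ext g
        simp [Gamma0_mem, Subsingleton.elim _ (0 : ZMod 1)]
      rw [hi] at hm
      simpa using hm
    rw [hcoef]
    rcases Nat.le_one_iff_eq_zero_or_eq_one.1 hm1 with rfl | rfl
    · simp [discInt_zero]
    · rw [if_neg hp1, one_mul, discInt_one, ht]
      simp
  -- So it is `0`; read off its coefficient at `p`.
  have h := hcoef p
  rw [hzero, FunLike.coe_zero, UpperHalfPlane.qExpansion_zero, map_zero, if_pos dvd_rfl,
    Nat.div_self hp.pos, discInt_one, ht] at h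
  have : ((discInt.coeff (p * p) : ℤ) : ℂ) = ((discInt.coeff p ^ 2 - (p : ℤ) ^ 11 : ℤ) : ℂ) := by
    push_cast
    push_cast at h
    linear_combination -h
  exact_mod_cast this

/-- A form congruent to a constant `c` modulo `m` has `c p¹¹ (p + 1) ≡ 0 (mod m)`. -/
theorem dvd_of_const_mod (hp : p.Prime) (g : ModularForm ((Gamma0 p).map (mapGL ℝ)) 2)
    (G : PowerSeries ℤ) (c m : ℤ)
    (hG : qExpansion 1 g = ι (PowerSeries.C c + PowerSeries.C m * G)) :
    m ∣ c * (p : ℤ) ^ 11 * ((p : ℤ) + 1) := by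
  have : NeZero p := ⟨hp.ne_zero⟩
  have key : ∀ n, m ∣ c * ((p : ℤ) ^ 12 *
      (PowerSeries.expand p (NeZero.ne p) discInt).coeff n - discInt.coeff (p * n)) := by
    intro n
    have h := trace_mul_discDiag hp g _ hG n
    rw [decimate_C_add, add_mul, add_mul, map_add, map_add, mul_assoc, mul_assoc,
      PowerSeries.coeff_C_mul, PowerSeries.coeff_C_mul, PowerSeries.coeff_C_mul,
      PowerSeries.coeff_C_mul] at h
    refine ⟨(decimate p G * discInt).coeff (p * n) -
      (p : ℤ) ^ 12 * (G * PowerSeries.expand p (NeZero.ne p) discInt).coeff n, ?_⟩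
    linear_combination h
  have h1 := key 1
  have hp2 := key p
  rw [PowerSeries.coeff_expand_of_not_dvd p (NeZero.ne p) discInt hp.not_dvd_one, mul_one,
    mul_zero, zero_sub] at h1
  have he : (PowerSeries.expand p (NeZero.ne p) discInt).coeff p = 1 := by
    have := PowerSeries.coeff_expand_mul p (NeZero.ne p) discInt 1
    rwa [mul_one, discInt_one] at this
  rw [he, discInt_sq hp] at hp2
  have : c * (p : ℤ) ^ 11 * ((p : ℤ) + 1) =
      c * ((p : ℤ) ^ 12 * 1 - (discInt.coeff p ^ 2 - (p : ℤ) ^ 11)) +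
        (-discInt.coeff p) * (c * -discInt.coeff p) := by ring
  rw [this]
  exact dvd_add hp2 (h1.mul_left _)

end Fermat.Agent.HeckeDuality
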