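import Fermat.Agent.HeckeDuality.LevelOneSturm
import Fermat.Prelude.Def_ModularForm_HeckeOperatorForms
import Fermat.Prelude.Thm_CongruenceSubgroup_one_mem_strictPeriods_Gamma0

/-!
# The forms `p E₂(pτ) - E₂(τ)`, `Δ(pτ)` and the Atkin–Lehner relation in weight two
-/

set_option autoImplicit false

noncomputable section

open UpperHalfPlane hiding I
open Matrix.SpecialLinearGroup (mapGL)
open CongruenceSubgroup ModularGroup EisensteinSeries ModularForm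
open Fermat.Agent.ModFun (affine coe_affine)
open scoped MatrixGroups ArithmeticFunction.sigma

namespace Fermat.Agent.HeckeDuality

variable {p : ℕ} [NeZero p]

local notation "β" => ModularForm.heckeMatrix
local notation "δ" => ModularForm.heckeDiagMatrix

theorem diag_smul (p : ℕ) [NeZero p] (τ : ℍ) : δ p • τ = affine p 0 1 τ := by
  ext1
  rw [coe_heckeDiagMatrix_smul (NeZero.ne p), coe_affine]
  simp

theorem mat_zero_smul (p : ℕ) [NeZero p] (τ : ℍ) : β p 0 • τ = affine 1 0 p τ := by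
  ext1
  rw [coe_heckeMatrix_smul (NeZero.ne p), coe_affine]
  simp

theorem exists_diag_mul {γ : SL(2, ℤ)} (hγ : γ ∈ Gamma0 p) :
    ∃ γ' : SL(2, ℤ), γ 1 0 = (p : ℤ) * γ' 1 0 ∧ γ' 1 1 = γ 1 1 ∧
      δ p * mapGL ℝ γ = mapGL ℝ γ' * δ p := by
  obtain ⟨c, hc⟩ : (p : ℤ) ∣ γ 1 0 := (ZMod.intCast_zmod_eq_zero_iff_dvd _ _).1 (Gamma0_mem.1 hγ)
  have hdet := γ.2
  rw [Matrix.det_fin_two, hc] at hdet
  refine ⟨⟨!![γ 0 0, (p : ℤ) * γ 0 1; c, γ 1 1], by
    rw [Matrix.det_fin_two_of]; linear_combination hdet⟩, by simpa using hc, by simp, ?_⟩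
  apply Units.ext
  rw [Units.val_mul, Units.val_mul, val_heckeDiagMatrix (NeZero.ne p)]
  ext i j
  fin_cases i <;> fin_cases j <;> simp [Matrix.mul_apply, Fin.sum_univ_two, hc] <;> ring

theorem diag_mul_S (p : ℕ) [NeZero p] :
    δ p * mapGL ℝ S = mapGL ℝ S * β p 0 := by
  apply Units.ext
  rw [Units.val_mul, Units.val_mul, val_heckeDiagMatrix (NeZero.ne p),
    val_heckeMatrix (NeZero.ne p)]
  ext i j
  fin_cases i <;> fin_cases j <;> simp [Matrix.mul_apply, Fin.sum_univ_two, coe_S]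

theorem mat_zero_mul_S (p : ℕ) [NeZero p] :
    β p 0 * mapGL ℝ S = mapGL ℝ S * δ p := by
  apply Units.ext
  rw [Units.val_mul, Units.val_mul, val_heckeDiagMatrix (NeZero.ne p),
    val_heckeMatrix (NeZero.ne p)]
  ext i j
  fin_cases i <;> fin_cases j <;> simp [Matrix.mul_apply, Fin.sum_univ_two, coe_S]

theorem exists_mat_mul_S {i i' : ℕ} (h : (i : ZMod p) * i' = -1) :
    ∃ γ ∈ Gamma0 p, β p i * mapGL ℝ S = mapGL ℝ γ * β p i' := by
  obtain ⟨m, hm⟩ : (p : ℤ) ∣ -1 - (i : ℤ) * i' := by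
    rw [← ZMod.intCast_zmod_eq_zero_iff_dvd]
    push_cast
    rw [h, sub_self]
  refine ⟨⟨!![(i : ℤ), m; (p : ℤ), -(i' : ℤ)], by
    rw [Matrix.det_fin_two_of]; linear_combination hm⟩, by simp [Gamma0_mem], ?_⟩
  apply Units.ext
  rw [Units.val_mul, Units.val_mul, val_heckeMatrix (NeZero.ne p), val_heckeMatrix (NeZero.ne p)]
  have hm' : (-1 : ℝ) - i * i' = p * m := by exact_mod_cast congrArg (Int.cast : ℤ → ℝ) hm
  ext a b
  fin_cases a <;> fin_cases b <;>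
    simp [Matrix.mul_apply, Fin.sum_univ_two, coe_S] <;> linarith [hm']

theorem slash_diag_slash {k : ℤ} {F : ℍ → ℂ} {γ : SL(2, ℤ)} (hγ : γ ∈ Gamma0 p) :
    ∃ γ' : SL(2, ℤ), γ 1 0 = (p : ℤ) * γ' 1 0 ∧ γ' 1 1 = γ 1 1 ∧
      (F ∣[k] δ p) ∣[k] γ = (F ∣[k] γ') ∣[k] δ p := by
  obtain ⟨γ', h1, h2, h⟩ := exists_diag_mul hγ
  refine ⟨γ', h1, h2, ?_⟩
  show (F ∣[k] δ p) ∣[k] mapGL ℝ γ = (F ∣[k] mapGL ℝ γ') ∣[k] δ p
  rw [← SlashAction.slash_mul, h, SlashAction.slash_mul]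

theorem slash_diag_slash_S (k : ℤ) (F : ℍ → ℂ) :
    (F ∣[k] δ p) ∣[k] S = (F ∣[k] S) ∣[k] β p 0 := by
  show (F ∣[k] δ p) ∣[k] mapGL ℝ S = (F ∣[k] mapGL ℝ S) ∣[k] β p 0
  rw [← SlashAction.slash_mul, diag_mul_S, SlashAction.slash_mul]

/-- Expansion of a slash by `diag (p, 1)`. -/
theorem HasExp.slash_diag {F : ℍ → ℂ} {R : PowerSeries ℂ} (H : HasExp 1 F R) (k : ℤ) :
    HasExp 1 (F ∣[k] δ p)
      (((p : ℂ) ^ (k - 1)) • PowerSeries.expand p (NeZero.ne p) R) := by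
  have h1 : F ∣[k] δ p = ((p : ℂ) ^ (k - 1)) • fun τ => F (affine p 0 1 τ) := by
    funext τ
    rw [slash_heckeDiagMatrix_apply k (NeZero.ne p), diag_smul]
    rfl
  rw [h1]
  exact (H.comp_affine p 1).smul _

/-- Expansion of a slash by `(1 0; 0 p)`. -/
theorem HasExp.slash_mat_zero {F : ℍ → ℂ} {R : PowerSeries ℂ} (H : HasExp 1 F R) (k : ℤ) :
    HasExp p (F ∣[k] β p 0) ((p : ℂ)⁻¹ • R) := by
  have h1 : F ∣[k] β p 0 = (p : ℂ)⁻¹ • fun τ => F (affine 1 0 p τ) := by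
    funext τ
    rw [slash_heckeMatrix_apply k (NeZero.ne p), mat_zero_smul]
    rfl
  rw [h1]
  simpa using (H.comp_affine 1 p).smul (p : ℂ)⁻¹

/-- A function of period one, in the parameter of width `p`. -/
theorem HasExp.widen {F : ℍ → ℂ} {R : PowerSeries ℂ} (H : HasExp 1 F R) (p : ℕ) [NeZero p] :
    HasExp p F (PowerSeries.expand p (NeZero.ne p) R) := by
  convert! H.comp_affine p p using 2 with τ
  congr 1
  ext1
  have : (p : ℂ) ≠ 0 := by exact_mod_cast NeZero.ne p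
  rw [coe_affine]
  field_simp
  simp

/-! ### `E₂` -/

/-- The expansion of `E₂`. -/
def eisTwo : PowerSeries ℤ := 1 - 24 * sigmaSeries 1

theorem hasExp_E2 : HasExp 1 E2 (eisTwo.map (Int.castRingHom ℂ)) := by
  have h : eisTwo.map (Int.castRingHom ℂ) =
      PowerSeries.mk fun m => if m = 0 then 1 else -24 * (σ 1 m : ℂ) := by
    ext m
    rw [PowerSeries.coeff_map, eisTwo, map_sub, PowerSeries.coeff_one, PowerSeries.coeff_mk,
      show (24 : PowerSeries ℤ) = PowerSeries.C 24 from rfl, PowerSeries.coeff_C_mul, sigmaSeries,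
      PowerSeries.coeff_mk]
    split_ifs with hm <;> simp [hm]
  rw [h]
  refine HasExp.of_hasSum E2_mdifferentiable fun τ => ?_
  convert! hasSum_qExpansion_E2 (z := τ) using 4
  simp [Fermat.Agent.ModFun.qFun, Function.Periodic.qParam]

/-- `p E₂(pτ) - E₂(τ)`. -/
def eisDiff (p : ℕ) : ℍ → ℂ := E2 ∣[(2 : ℤ)] δ p - E2

theorem sub_slash' (k : ℤ) (g : GL (Fin 2) ℝ) (f₁ f₂ : ℍ → ℂ) :
    (f₁ - f₂) ∣[k] g = f₁ ∣[k] g - f₂ ∣[k] g := by
  rw [sub_eq_add_neg, SlashAction.add_slash, SlashAction.neg_slash, sub_eq_add_neg]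

theorem eisDiff_slash {γ : SL(2, ℤ)} (hγ : γ ∈ Gamma0 p) :
    eisDiff p ∣[(2 : ℤ)] γ = eisDiff p := by
  obtain ⟨γ', h10, h11, h⟩ := slash_diag_slash (k := 2) (F := E2) hγ
  have hD : D2 γ' ∣[(2 : ℤ)] δ p = D2 γ := by
    funext τ
    rw [slash_heckeDiagMatrix_apply 2 (NeZero.ne p)]
    simp only [D2]
    rw [denom_apply, denom_apply]
    simp only [coe_heckeDiagMatrix_smul (NeZero.ne p), h10, h11]
    norm_num
    ring_nf
  show (E2 ∣[(2 : ℤ)] δ p - E2) ∣[(2 : ℤ)] mapGL ℝ γ = _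
  rw [sub_slash']
  show (E2 ∣[(2 : ℤ)] δ p) ∣[(2 : ℤ)] γ - E2 ∣[(2 : ℤ)] γ = _
  rw [h, E2_slash_action, E2_slash_action, sub_slash', ModularForm.smul_slash,
    σ_heckeDiagMatrix, ContinuousAlgEquiv.refl_apply, hD, eisDiff]
  abel

theorem eisDiff_slash_S :
    eisDiff p ∣[(2 : ℤ)] S = E2 ∣[(2 : ℤ)] β p 0 - E2 := by
  have hD : D2 S ∣[(2 : ℤ)] β p 0 = D2 S := by
    funext τ
    have hp : (p : ℂ) ≠ 0 := by exact_mod_cast NeZero.ne p
    rw [slash_heckeMatrix_apply 2 (NeZero.ne p), D2_S, D2_S, coe_heckeMatrix_smul (NeZero.ne p)]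
    field_simp
    simp
  show (E2 ∣[(2 : ℤ)] δ p - E2) ∣[(2 : ℤ)] mapGL ℝ S = _
  rw [sub_slash']
  show (E2 ∣[(2 : ℤ)] δ p) ∣[(2 : ℤ)] S - E2 ∣[(2 : ℤ)] S = _
  rw [slash_diag_slash_S, E2_slash_action, sub_slash', ModularForm.smul_slash,
    σ_heckeMatrix, ContinuousAlgEquiv.refl_apply, hD]
  abel

/-- The expansion of `p E₂(pτ) - E₂(τ)`. -/
def eisDiffSeries (p : ℕ) [NeZero p] : PowerSeries ℤ :=
  PowerSeries.C (p : ℤ) * PowerSeries.expand p (NeZero.ne p) eisTwo - eisTwo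

theorem hasExp_eisDiff : HasExp 1 (eisDiff p) ((eisDiffSeries p).map (Int.castRingHom ℂ)) := by
  have h := (hasExp_E2.slash_diag (p := p) 2).sub hasExp_E2
  convert! h using 1
  · rw [eisDiffSeries, map_sub]
    congr 1
    ext m
    simp only [PowerSeries.coeff_map, PowerSeries.coeff_smul, smul_eq_mul, PowerSeries.coeff_expand,
      PowerSeries.coeff_C_mul]
    split_ifs <;> norm_num

theorem isBoundedAtImInfty_eisDiff_S : IsBoundedAtImInfty (eisDiff p ∣[(2 : ℤ)] S) := by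
  rw [eisDiff_slash_S]
  exact ((hasExp_E2.slash_mat_zero (p := p) 2).sub (hasExp_E2.widen p)).bounded

/-- `p E₂(pτ) - E₂(τ)` as a weight two form on `Γ₀(p)`. -/
def eisTwoForm (hp : p.Prime) : ModularForm ((Gamma0 p).map (mapGL ℝ)) 2 :=
  mkGammaZero hp 2 (eisDiff p) (fun _ h => eisDiff_slash h) hasExp_eisDiff.mdiff
    hasExp_eisDiff.bounded isBoundedAtImInfty_eisDiff_S

/-! ### `Δ(pτ)` -/

theorem discriminant_slash (γ : SL(2, ℤ)) :
    ModularForm.discriminant ∣[(12 : ℤ)] γ = ModularForm.discriminant :=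
  SlashInvariantFormClass.slash_action_eq CuspForm.discriminant _ ⟨γ, rfl⟩

theorem hasExp_discriminant :
    HasExp 1 ModularForm.discriminant
      ((PowerSeries.X * ModularCurve.dedekindEtaUnit).map (Int.castRingHom ℂ)) := by
  have h := hasExp_of_modularFormClass (h := 1) CuspForm.discriminant (Γ := 𝒮ℒ) (k := 12)
    (by rw [Nat.cast_one]; exact one_mem_strictPeriods_SL)
  rw [Nat.cast_one] at h
  rwa [← Fermat.Agent.ModFun.qExpansion_discriminant]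

/-- `p¹¹ Δ(pτ)`. -/
def discDiag (p : ℕ) : ℍ → ℂ := ModularForm.discriminant ∣[(12 : ℤ)] δ p

theorem discDiag_slash {γ : SL(2, ℤ)} (hγ : γ ∈ Gamma0 p) :
    discDiag p ∣[(12 : ℤ)] γ = discDiag p := by
  obtain ⟨γ', -, -, h⟩ := slash_diag_slash (k := 12) (F := ModularForm.discriminant) hγ
  rw [discDiag, h, discriminant_slash]

theorem discDiag_slash_S :
    discDiag p ∣[(12 : ℤ)] S = ModularForm.discriminant ∣[(12 : ℤ)] β p 0 := by
  rw [discDiag, slash_diag_slash_S, discriminant_slash]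

end Fermat.Agent.HeckeDuality
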