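import Fermat.Agent.HeckeDuality.DeltaTrace
import Fermat.Agent.HeckeDuality.Coeff
import Fermat.Prelude.Def_ModularCurve_ModularUnit

/-!
# A cusp form congruent to the weight two Eisenstein series bounds the modulus
-/

set_option autoImplicit false

noncomputable section

open UpperHalfPlane hiding I
open Matrix.SpecialLinearGroup (mapGL)
open CongruenceSubgroup ModularForm
open scoped ArithmeticFunction.sigma

namespace Fermat.Agent.HeckeDuality

variable {p : ℕ}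

local notation "ι" => PowerSeries.map (Int.castRingHom ℂ)

/-- `σ'(n)`, the sum of the divisors of `n` prime to `p`. -/
def sigmaPrime (p n : ℕ) : ℤ := (σ 1 n : ℤ) - if p ∣ n then (p : ℤ) * (σ 1 (n / p) : ℤ) else 0

theorem coeff_eisDiffSeries [NeZero p] (n : ℕ) :
    (eisDiffSeries p).coeff n = if n = 0 then (p : ℤ) - 1 else 24 * sigmaPrime p n := by
  have hE : ∀ m : ℕ, eisTwo.coeff m = if m = 0 then 1 else -24 * (σ 1 m : ℤ) := by
    intro m
    rw [eisTwo, map_sub, PowerSeries.coeff_one, show (24 : PowerSeries ℤ) = PowerSeries.C 24 from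
      rfl, PowerSeries.coeff_C_mul, sigmaSeries, PowerSeries.coeff_mk]
    split_ifs with hm <;> simp [hm]
  rw [eisDiffSeries, map_sub, PowerSeries.coeff_C_mul, PowerSeries.coeff_expand, sigmaPrime]
  simp only [hE]
  rcases Nat.eq_zero_or_pos n with rfl | hn
  · simp
  · rw [if_neg hn.ne', if_neg hn.ne']
    by_cases hd : p ∣ n
    · rw [if_pos hd, if_pos hd, if_neg]
      · ring
      · exact (Nat.div_pos (Nat.le_of_dvd hn hd) (Nat.pos_of_ne_zero (NeZero.ne p))).ne'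
    · rw [if_neg hd, if_neg hd]
      ring

theorem exists_series_eq_C_add (P : PowerSeries ℤ) (c m : ℤ) (h0 : P.coeff 0 = c)
    (h : ∀ n, 1 ≤ n → m ∣ P.coeff n) :
    ∃ Q : PowerSeries ℤ, P = PowerSeries.C c + PowerSeries.C m * Q := by
  have hall : ∀ n, ∃ q : ℤ, P.coeff n = (if n = 0 then c else 0) + m * q := by
    intro n
    rcases Nat.eq_zero_or_pos n with rfl | hn
    · exact ⟨0, by simp [h0]⟩
    · obtain ⟨q, hq⟩ := h n hn
      exact ⟨q, by rw [if_neg hn.ne', zero_add, hq]⟩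
  choose q hq using hall
  refine ⟨PowerSeries.mk q, ?_⟩
  ext n
  rw [map_add, PowerSeries.coeff_C, PowerSeries.coeff_C_mul, PowerSeries.coeff_mk, hq n]

/-- Dividing a congruence to a constant by an integer. -/
theorem qExp_inv_smul (g : ModularForm ((Gamma0 p).map (mapGL ℝ)) 2)
    (Q : PowerSeries ℤ) (k c m : ℤ) (hk : k ≠ 0)
    (hg : qExpansion 1 g = ι (PowerSeries.C (k * c) + PowerSeries.C (k * m) * Q)) :
    qExpansion 1 ⇑((k : ℂ)⁻¹ • g) = ι (PowerSeries.C c + PowerSeries.C m * Q) := by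
  rw [FunLike.coe_smul,
    ModularForm.qExpansion_smul one_pos (CongruenceSubgroup.one_mem_strictPeriods_Gamma0 p), hg]
  have hk' : (k : ℂ) ≠ 0 := by exact_mod_cast hk
  have hfac : PowerSeries.C (k * c) + PowerSeries.C (k * m) * Q =
      PowerSeries.C k * (PowerSeries.C c + PowerSeries.C m * Q) := by
    rw [map_mul, map_mul]; ring
  rw [hfac, map_mul, PowerSeries.map_C, smul_eq_C, ← mul_assoc, ← map_mul,
    eq_intCast (Int.castRingHom ℂ), inv_mul_cancel₀ hk', map_one, one_mul]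

theorem coeff_one_sigmaSeries (k : ℕ) : (sigmaSeries k).coeff 1 = 1 := by
  simp [sigmaSeries]

/-- The bound at `ℓ = 2` from the discriminant alone, when `p ≡ 1 (mod 4)`. -/
private theorem dvd_numerator_two (hp : p.Prime) (hp5 : 5 ≤ p) (h4 : p % 4 = 1) {s : ℕ}
    (hΔn : 24 * 2 ^ s ∣ (p - 1) * (p + 1) * p ^ 11) :
    2 ^ s ∣ ModularCurve.eisensteinNumerator p := by
  set δ := Nat.gcd (p - 1) 12 with hδ
  have hpN : p - 1 = δ * ModularCurve.eisensteinNumerator p :=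
    (Nat.mul_div_cancel' (Nat.gcd_dvd_left _ _)).symm
  have hδ12 : δ ∣ 12 := Nat.gcd_dvd_right _ _
  have hcop : ∀ t, Nat.Coprime (2 ^ t) (p ^ 11) := fun t =>
    ((Nat.coprime_primes Nat.prime_two hp).2 (by omega)).pow _ _
  have h1 : 2 ^ (s + 3) ∣ (p - 1) * (p + 1) := by
    refine (hcop (s + 3)).dvd_of_dvd_mul_right (dvd_trans ?_ hΔn)
    exact ⟨3, by ring⟩
  obtain ⟨q, hq, hqodd⟩ : ∃ q, p + 1 = 2 * q ∧ q % 2 = 1 := ⟨(p + 1) / 2, by omega, by omega⟩
  have h2 : 2 ^ (s + 2) ∣ p - 1 := by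
    have hc : Nat.Coprime (2 ^ (s + 2)) q :=
      ((Nat.prime_two.coprime_iff_not_dvd).2 (by omega)).pow_left _
    refine hc.dvd_of_dvd_mul_right ?_
    have h3 : 2 * 2 ^ (s + 2) ∣ 2 * ((p - 1) * q) := by
      calc 2 * 2 ^ (s + 2) = 2 ^ (s + 3) := by ring
        _ ∣ (p - 1) * (p + 1) := h1
        _ = 2 * ((p - 1) * q) := by rw [hq]; ring
    exact Nat.dvd_of_mul_dvd_mul_left (by norm_num) h3
  have h4d : 4 ∣ δ := Nat.dvd_gcd (by omega) (by norm_num)
  obtain ⟨y, hy⟩ := h4d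
  have hy3 : y ∣ 3 := Nat.dvd_of_mul_dvd_mul_left (by norm_num : 0 < 4) (hy ▸ hδ12)
  have hycop : Nat.Coprime (2 ^ s) y :=
    Nat.Coprime.coprime_dvd_right hy3 (Nat.Coprime.pow_left _ (by norm_num))
  refine hycop.dvd_of_dvd_mul_left (Nat.dvd_of_mul_dvd_mul_left (by norm_num : 0 < 4) ?_)
  rw [← mul_assoc, ← hy, ← hpN]
  rwa [show 4 * 2 ^ s = 2 ^ (s + 2) by ring]

/-- The bound at `ℓ = 3` from the discriminant alone, when `p ≡ 1 (mod 3)`. -/
private theorem dvd_numerator_three (hp : p.Prime) (hp5 : 5 ≤ p) (h3 : p % 3 = 1) {s : ℕ}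
    (hΔn : 24 * 3 ^ s ∣ (p - 1) * (p + 1) * p ^ 11) :
    3 ^ s ∣ ModularCurve.eisensteinNumerator p := by
  set δ := Nat.gcd (p - 1) 12 with hδ
  have hpN : p - 1 = δ * ModularCurve.eisensteinNumerator p :=
    (Nat.mul_div_cancel' (Nat.gcd_dvd_left _ _)).symm
  have hδ12 : δ ∣ 12 := Nat.gcd_dvd_right _ _
  have hcop : ∀ t, Nat.Coprime (3 ^ t) (p ^ 11) := fun t =>
    ((Nat.coprime_primes Nat.prime_three hp).2 (by omega)).pow _ _
  have h1 : 3 ^ (s + 1) ∣ (p - 1) * (p + 1) := by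
    refine (hcop (s + 1)).dvd_of_dvd_mul_right (dvd_trans ?_ hΔn)
    exact ⟨8, by ring⟩
  have hcop3 : Nat.Coprime (3 ^ (s + 1)) (p + 1) :=
    ((Nat.prime_three.coprime_iff_not_dvd).2 (by omega)).pow_left _
  have h2 := hcop3.dvd_of_dvd_mul_right h1
  have h3d : 3 ∣ δ := Nat.dvd_gcd (by omega) (by norm_num)
  obtain ⟨y, hy⟩ := h3d
  have hy4 : y ∣ 4 := Nat.dvd_of_mul_dvd_mul_left (by norm_num : 0 < 3) (hy ▸ hδ12)
  have hycop : Nat.Coprime (3 ^ s) y :=
    Nat.Coprime.coprime_dvd_right hy4 (Nat.Coprime.pow_left _ (by norm_num))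
  refine hycop.dvd_of_dvd_mul_left (Nat.dvd_of_mul_dvd_mul_left (by norm_num : 0 < 3) ?_)
  rw [← mul_assoc, ← hy, ← hpN]
  rwa [show 3 * 3 ^ s = 3 ^ (s + 1) by ring]

/-- `744 = 2³ · 3 · 31`. -/
private theorem not_dvd_744 {ℓ : ℕ} (hℓ : ℓ.Prime) (hℓ5 : 5 ≤ ℓ) (hne : ℓ ≠ 31) : ¬ ℓ ∣ 744 := by
  intro hd
  have h1 : ℓ ∣ 2 * 2 * 2 * 3 * 31 := by norm_num; exact hd
  rcases (Nat.Prime.dvd_mul hℓ).1 h1 with h | h
  · rcases (Nat.Prime.dvd_mul hℓ).1 h with h | h
    · rcases (Nat.Prime.dvd_mul hℓ).1 h with h | h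
      · rcases (Nat.Prime.dvd_mul hℓ).1 h with h | h <;>
          exact absurd (Nat.le_of_dvd (by norm_num) h) (by omega)
      · exact absurd (Nat.le_of_dvd (by norm_num) h) (by omega)
    · exact absurd (Nat.le_of_dvd (by norm_num) h) (by omega)
  · exact hne ((Nat.prime_dvd_prime_iff_eq hℓ (by norm_num)).1 h)

/-- At `ℓ ≥ 5` a form congruent to the constant `1 - p` modulo `ℓ ^ s` forces `ℓ ^ s ∣ p - 1`. -/
private theorem false_of_five_le (hp : p.Prime) (hp5 : 5 ≤ p) {ℓ : ℕ} (hℓ : ℓ.Prime)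
    (hℓ5 : 5 ≤ ℓ) {s : ℕ} (hle : ¬ ℓ ^ s ∣ p - 1)
    (g : ModularForm ((Gamma0 p).map (mapGL ℝ)) 2) (Q : PowerSeries ℤ)
    (hgq : qExpansion 1 g =
      ι (PowerSeries.C (-((p : ℤ) - 1)) + PowerSeries.C (24 * (ℓ : ℤ) ^ s) * Q)) : False := by
  have hp1 : ((p - 1 : ℕ) : ℤ) = (p : ℤ) - 1 := by rw [Nat.cast_sub (by omega)]; simp
  obtain ⟨v, w, hw, hpw⟩ := Nat.exists_eq_pow_mul_and_not_dvd (n := p - 1) (by omega) ℓ hℓ.ne_one
  have hvs : v < s := by
    by_contra h
    exact hle (hpw ▸ Dvd.dvd.mul_right (pow_dvd_pow ℓ (by omega)) w)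
  have hpw' : ((p : ℤ) - 1) = (ℓ : ℤ) ^ v * w := by rw [← hp1, hpw]; push_cast; ring
  -- Dividing `g` by `ℓ ^ v`, with `v < s` the order of `ℓ` in `p - 1`, leaves a form congruent to a
  -- unit constant modulo `ℓ`.
  have hgq' : qExpansion 1 ⇑((((ℓ : ℤ) ^ v : ℤ) : ℂ)⁻¹ • g) =
      ι (PowerSeries.C (-(w : ℤ)) + PowerSeries.C ((ℓ : ℤ) ^ (0 + 1)) *
        (PowerSeries.C (24 * (ℓ : ℤ) ^ (s - v - 1)) * Q)) := by
    rw [← mul_assoc, ← map_mul]
    refine qExp_inv_smul g Q _ _ _ (pow_ne_zero _ (by exact_mod_cast hℓ.ne_zero)) ?_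
    rw [hgq, hpw', mul_neg]
    congr 4
    rw [show (ℓ : ℤ) ^ v * ((ℓ : ℤ) ^ (0 + 1) * (24 * (ℓ : ℤ) ^ (s - v - 1))) =
      24 * ((ℓ : ℤ) ^ (v + 1 + (s - v - 1))) by ring, show v + 1 + (s - v - 1) = s by omega]
  have hcw : ¬ (ℓ : ℤ) ∣ -(w : ℤ) := by
    rw [dvd_neg]
    exact_mod_cast hw
  -- Case A with `r = 0`: `E₆ - E₄` has first coefficient `-744`, so at `ℓ = 31`, which divides
  -- `744`, the pair `E₄ ^ 2`, `E₆` is used instead.
  by_cases h : ℓ = 31
  · refine false_of_const_caseA hp hℓ 0 _ _ _ hgq' hcw ((p : ℤ) + 1) (by ring) 6 (by omega)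
      E₆ (ModularForm.mcast (by norm_num) (E₄.mul E₄)) eisSix (eisFour * eisFour - eisSix)
      qExp_eisSix ?_ constantCoeff_eisSix ?_ ?_
    · rw [ModularForm.qExpansion_mcast, ModularForm.qExpansion_mul one_pos
        one_mem_strictPeriods_SL, qExp_eisFour, ← map_mul, pow_zero, map_one, one_mul,
        add_sub_cancel]
    · simp [constantCoeff_eisFour, constantCoeff_eisSix]
    · have hd : eisFour * eisFour - eisSix = PowerSeries.C 480 * sigmaSeries 3 +
          PowerSeries.C 57600 * (sigmaSeries 3 * sigmaSeries 3) +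
          PowerSeries.C 504 * sigmaSeries 5 := by
        rw [eisSix, eisFour, map_ofNat, map_ofNat, map_ofNat]; ring
      have hsq : (sigmaSeries 3 * sigmaSeries 3).coeff 1 = 0 := by
        rw [PowerSeries.coeff_mul]
        refine Finset.sum_eq_zero fun x hx => ?_
        rw [Finset.HasAntidiagonal.mem_antidiagonal] at hx
        rcases (show x.1 = 0 ∨ x.2 = 0 by omega) with h | h <;>
          simp [h, constantCoeff_sigmaSeries]
      rw [hd, map_add, map_add, PowerSeries.coeff_C_mul, PowerSeries.coeff_C_mul,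
        PowerSeries.coeff_C_mul, coeff_one_sigmaSeries, coeff_one_sigmaSeries, hsq, h]
      norm_num
  · refine false_of_const_caseA hp hℓ 0 _ _ _ hgq' hcw ((p : ℤ) + 1) (by ring) 4 (by omega)
      E₄ E₆ eisFour (eisSix - eisFour) qExp_eisFour ?_ constantCoeff_eisFour ?_ ?_
    · rw [pow_zero, map_one, one_mul, add_sub_cancel]
      exact qExp_eisSix
    · simp [constantCoeff_eisFour, constantCoeff_eisSix]
    · have hd : eisSix - eisFour = PowerSeries.C (-504) * sigmaSeries 5 -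
          PowerSeries.C 240 * sigmaSeries 3 := by
        rw [eisSix, eisFour, map_neg, map_ofNat, map_ofNat]; ring
      rw [hd, map_sub, PowerSeries.coeff_C_mul, PowerSeries.coeff_C_mul, coeff_one_sigmaSeries,
        coeff_one_sigmaSeries, show (-504 : ℤ) * 1 - 240 * 1 = -((744 : ℕ) : ℤ) by norm_num,
        dvd_neg]
      exact_mod_cast not_dvd_744 hℓ hℓ5 h

/-- `24 f - (p E₂(pτ) - E₂(τ))` is congruent to the constant `1 - p` modulo `24 ℓ ^ s`, which then
divides `(p² - 1) p ^ 11`. -/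
private theorem exists_const_congr [NeZero p] (hp : p.Prime)
    (f : CuspForm ((Gamma0 p).map (mapGL ℝ)) 2) (F : PowerSeries ℤ)
    (hF : qExpansion 1 f = ι F) {ℓ : ℕ} (s : ℕ)
    (hcong : ∀ n, 1 ≤ n → ((ℓ : ℤ) ^ s) ∣ F.coeff n - sigmaPrime p n) :
    ∃ (g : ModularForm ((Gamma0 p).map (mapGL ℝ)) 2) (Q : PowerSeries ℤ),
      qExpansion 1 g =
        ι (PowerSeries.C (-((p : ℤ) - 1)) + PowerSeries.C (24 * (ℓ : ℤ) ^ s) * Q) ∧
      24 * ℓ ^ s ∣ (p - 1) * (p + 1) * p ^ 11 := by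
  have hper := CongruenceSubgroup.one_mem_strictPeriods_Gamma0 p
  set g : ModularForm ((Gamma0 p).map (mapGL ℝ)) 2 :=
    (24 : ℂ) • CuspForm.toModularFormₗ f - eisTwoForm hp with hg
  set Gs : PowerSeries ℤ := PowerSeries.C 24 * F - eisDiffSeries p with hGs
  have hf1 : ⇑(CuspForm.toModularFormₗ f) = ⇑f := funext (CuspForm.toModularFormₗ_apply f)
  have he1 : ⇑(eisTwoForm hp) = eisDiff p := by rw [eisTwoForm, coe_mkGammaZero]
  have hfexp : HasExp 1 (⇑f) (ι F) := by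
    have h := hasExp_of_modularFormClass (h := 1) f (Γ := (Gamma0 p).map (mapGL ℝ)) (k := 2)
      (by rw [Nat.cast_one]; exact hper)
    rwa [Nat.cast_one, hF] at h
  have hgq : qExpansion 1 g = ι Gs := by
    have hgexp := (hfexp.smul (24 : ℂ)).sub (hasExp_eisDiff (p := p))
    have hcoe : ⇑g = (24 : ℂ) • ⇑f - eisDiff p := by
      rw [hg, FunLike.coe_sub, FunLike.coe_smul, hf1, he1]
    rw [hcoe]
    have h1 := hgexp.qExp_eq
    rw [Nat.cast_one] at h1
    rw [h1, hGs, map_sub, map_mul, PowerSeries.map_C, smul_eq_C,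
      eq_intCast (Int.castRingHom ℂ), Int.cast_ofNat]
  have hF0 : F.coeff 0 = 0 := by
    have h := congrArg (fun Z : PowerSeries ℂ => Z.coeff 0) hF
    simp only [PowerSeries.coeff_map] at h
    have h0 := coeff_zero f
    rw [ModularFormClass.qCoeff, h] at h0
    simpa using h0
  have hG0 : Gs.coeff 0 = -((p : ℤ) - 1) := by
    rw [hGs, map_sub, PowerSeries.coeff_C_mul, coeff_eisDiffSeries, hF0, if_pos rfl]
    ring
  have hGn : ∀ n, 1 ≤ n → (24 * (ℓ : ℤ) ^ s) ∣ Gs.coeff n := fun n hn => by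
    rw [hGs, map_sub, PowerSeries.coeff_C_mul, coeff_eisDiffSeries, if_neg (by omega), ← mul_sub]
    exact mul_dvd_mul_left _ (hcong n hn)
  obtain ⟨Q, hQ⟩ := exists_series_eq_C_add Gs _ _ hG0 hGn
  rw [hQ] at hgq
  have hΔ := dvd_of_const_mod hp g Q _ _ hgq
  have hp1 : ((p - 1 : ℕ) : ℤ) = (p : ℤ) - 1 := by rw [Nat.cast_sub hp.one_le]; simp
  -- the discriminant bound, in natural numbers
  have hΔn : 24 * ℓ ^ s ∣ (p - 1) * (p + 1) * p ^ 11 := by
    have h : (24 * (ℓ : ℤ) ^ s) ∣ ((p : ℤ) - 1) * ((p : ℤ) + 1) * (p : ℤ) ^ 11 := by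
      rw [show ((p : ℤ) - 1) * ((p : ℤ) + 1) * (p : ℤ) ^ 11 =
        -(-((p : ℤ) - 1) * (p : ℤ) ^ 11 * ((p : ℤ) + 1)) by ring]
      exact dvd_neg.2 hΔ
    rw [← hp1] at h
    exact_mod_cast h
  exact ⟨g, Q, hgq, hΔn⟩

/-- A cusp form congruent to the Eisenstein eigenvalues modulo a prime power forces that prime
power to divide the Eisenstein numerator. -/
theorem eisenstein_upper (hp : p.Prime) (hp5 : 5 ≤ p)
    (f : CuspForm ((Gamma0 p).map (mapGL ℝ)) 2) (F : PowerSeries ℤ)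
    (hF : qExpansion 1 f = ι F) {ℓ : ℕ} (hℓ : ℓ.Prime) (s : ℕ)
    (hcong : ∀ n, 1 ≤ n → ((ℓ : ℤ) ^ s) ∣ F.coeff n - sigmaPrime p n) :
    ℓ ^ s ∣ ModularCurve.eisensteinNumerator p := by
  have : NeZero p := ⟨hp.ne_zero⟩
  rcases Nat.eq_zero_or_pos s with rfl | hs
  · simp
  set δ := Nat.gcd (p - 1) 12 with hδ
  set N := ModularCurve.eisensteinNumerator p with hN
  have hpN : p - 1 = δ * N := (Nat.mul_div_cancel' (Nat.gcd_dvd_left _ _)).symm
  have hδ12 : δ ∣ 12 := Nat.gcd_dvd_right _ _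
  -- The form `g = 24 f - (p E₂(pτ) - E₂(τ))` is congruent to the constant `1 - p` modulo
  -- `24 ℓ^s`. The discriminant gives `24 ℓ^s ∣ (p² - 1) p^11`, which suffices at `2` and `3` for
  -- one residue of `p` each; the other cases contradict the obstructions of `ConstCongruence`.
  obtain ⟨g, Q, hgq, hΔn⟩ := exists_const_congr hp f F hF s hcong
  rcases Nat.lt_or_ge ℓ 4 with hsmall | hbig
  · have hℓ23 : ℓ = 2 ∨ ℓ = 3 := by
      have := hℓ.two_le
      omega
    rcases hℓ23 with rfl | rfl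
    · -- `ℓ = 2`
      rcases (show p % 4 = 1 ∨ p % 4 = 3 by
        rcases hp.eq_two_or_odd with h | h <;> omega) with h4 | h4
      · exact dvd_numerator_two hp hp5 h4 hΔn
      · exfalso
        obtain ⟨c, hc, hcodd⟩ : ∃ c : ℤ, -((p : ℤ) - 1) = 2 * c ∧ Odd c :=
          ⟨-(((p : ℤ) - 1) / 2), by omega, by rw [Int.odd_iff]; omega⟩
        refine false_of_const_caseB hp hp5 h4 (((2 : ℤ) : ℂ)⁻¹ • g)
          (PowerSeries.C (3 * 2 ^ (s - 1) : ℤ) * Q) c hcodd ?_
        rw [← mul_assoc, ← map_mul]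
        refine qExp_inv_smul g Q 2 c _ (by norm_num) ?_
        rw [hgq, ← hc]
        have hpow : ((2 : ℕ) : ℤ) ^ s = 2 * 2 ^ (s - 1) := by
          rw [← pow_succ', Nat.sub_add_cancel hs]; norm_num
        rw [hpow]
        ring_nf
    · -- `ℓ = 3`
      rcases (show p % 3 = 1 ∨ p % 3 = 2 by
        rcases (show p % 3 = 0 ∨ p % 3 = 1 ∨ p % 3 = 2 by omega) with h | h | h
        · exfalso
          have := (Nat.prime_dvd_prime_iff_eq Nat.prime_three hp).1 (Nat.dvd_of_mod_eq_zero h)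
          omega
        · exact Or.inl h
        · exact Or.inr h) with h3 | h3
      · exact dvd_numerator_three hp hp5 h3 hΔn
      · exfalso
        refine false_of_const_caseA hp Nat.prime_three 1 g
          (PowerSeries.C (8 * 3 ^ (s - 1) : ℤ) * Q) (-((p : ℤ) - 1)) ?_ (by omega)
          (((p : ℤ) + 1) / 3) (by omega) 4 (by omega) E₄ E₆ eisFour
          (-168 * sigmaSeries 5 - 80 * sigmaSeries 3) qExp_eisFour ?_ constantCoeff_eisFour ?_ ?_
        · rw [hgq, ← mul_assoc, ← map_mul]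
          have hpow : ((3 : ℕ) : ℤ) ^ s = 3 * 3 ^ (s - 1) := by
            rw [← pow_succ', Nat.sub_add_cancel hs]; norm_num
          rw [hpow]
          ring_nf
        · have hser : eisFour + PowerSeries.C (((3 : ℕ) : ℤ) ^ 1) *
              (-168 * sigmaSeries 5 - 80 * sigmaSeries 3) = eisSix := by
            rw [eisSix, eisFour, pow_one, Nat.cast_ofNat, map_ofNat]
            ring
          rw [hser]
          exact qExp_eisSix
        · simp [constantCoeff_sigmaSeries]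
        · rw [map_sub, show (-168 : PowerSeries ℤ) = PowerSeries.C (-168) by simp,
            show (80 : PowerSeries ℤ) = PowerSeries.C 80 from rfl, PowerSeries.coeff_C_mul,
            PowerSeries.coeff_C_mul, coeff_one_sigmaSeries, coeff_one_sigmaSeries]
          norm_num
  · -- `ℓ ≥ 5`
    have hℓ5 : 5 ≤ ℓ := by
      rcases Nat.lt_or_ge ℓ 5 with h | h
      · exact absurd (show ℓ = 4 by omega) (fun h => by subst h; exact absurd hℓ (by norm_num))
      · exact h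
    have hcδ : Nat.Coprime ℓ δ := by
      refine (hℓ.coprime_iff_not_dvd).2 fun hd => ?_
      have h12 := Nat.le_of_dvd (by norm_num) (hd.trans hδ12)
      have hd' := hd.trans hδ12
      interval_cases ℓ <;> first | omega | exact absurd hℓ (by norm_num)
    by_cases hle : ℓ ^ s ∣ p - 1
    · exact (hcδ.pow_left s).dvd_of_dvd_mul_left (hpN ▸ hle)
    exact (false_of_five_le hp hp5 hℓ hℓ5 hle g Q hgq).elim

end Fermat.Agent.HeckeDuality
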