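import Fermat.Agent.HeckeDuality.Shimura
import Fermat.Agent.HeckeDuality.EisensteinUpper
import Fermat.Agent.IntegralStructure.Duality
import Fermat.Agent.Patching.SmallLevel
import Fermat.Prelude.Def_CuspForm_HeckeLocal

/-!
# The Eisenstein index of the weight two Hecke algebra of prime level

For a prime `p` the weight two Hecke algebra of level `p` on integral forms, modulo the image of
the Eisenstein ideal, has order the numerator of `(p - 1) / 12` (`natCard_eisenstein_quotient`,
which is S16):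

1. The evaluation of polynomials in the operators at primes is surjective on the Hecke algebra
   (`heckeEvalForms_surjective`), which restricts injectively to the lattice of integral forms as
   that lattice spans (`IntegralStructure/Main`).
2. So the quotient is `ℤ/m`, with `m` the best modulus for which the Eisenstein system factors
   through the algebra (`natCard_quotient_map_ker`).
3. The numerator divides `m`: relations of the algebra hold for the Eisenstein system modulo it
   (`aeval_eisensteinSystem_eq_zero`, from the Shimura homomorphism, `HeckeDuality/Shimura`).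
4. `m` divides the numerator (`dvd_eisensteinNumerator_of_hom`): a lift to `ℤ` of the character
   to `ℤ/m` is the pairing with an integral form (`IntegralStructure/Duality`), congruent modulo
   `m` to the Eisenstein series, which bounds each prime power in `m` (`eisenstein_upper`,
   `HeckeDuality/EisensteinUpper`). For `p = 2, 3` there are no forms and `m = 1`.
-/

set_option autoImplicit false

noncomputable section

namespace Fermat.Agent.HeckeDuality

open CongruenceSubgroup ModularFormClass ModularCurve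
open scoped ArithmeticFunction.sigma

/-- `σ₁ (ℓ ^ (k + 1)) = 1 + ℓ σ₁ (ℓ ^ k)`. -/
theorem sigma_one_prime_pow_succ {ℓ : ℕ} (hℓ : ℓ.Prime) (k : ℕ) :
    σ 1 (ℓ ^ (k + 1)) = 1 + ℓ * σ 1 (ℓ ^ k) := by
  rw [ArithmeticFunction.sigma_apply_prime_pow hℓ, ArithmeticFunction.sigma_apply_prime_pow hℓ,
    Finset.sum_range_succ', Finset.mul_sum, add_comm]
  simp [pow_succ, mul_comm]

/-- The recursion for the sum of divisors at a prime. -/
theorem sigma_one_mul_prime {ℓ n : ℕ} (hℓ : ℓ.Prime) (hn : n ≠ 0) :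
    (σ 1 (n * ℓ) : ℤ) + (if ℓ ∣ n then (ℓ : ℤ) * (σ 1 (n / ℓ) : ℤ) else 0) =
      (1 + (ℓ : ℤ)) * (σ 1 n : ℤ) := by
  obtain ⟨k, r, hr, rfl⟩ := Nat.exists_eq_pow_mul_and_not_dvd hn ℓ hℓ.ne_one
  have hco : ∀ j, Nat.Coprime (ℓ ^ j) r := fun j =>
    Nat.Coprime.pow_left _ (hℓ.coprime_iff_not_dvd.mpr hr)
  have hmul : ∀ j, σ 1 (ℓ ^ j * r) = σ 1 (ℓ ^ j) * σ 1 r := fun j =>
    ArithmeticFunction.isMultiplicative_sigma.map_mul_of_coprime (hco j)
  rw [show ℓ ^ k * r * ℓ = ℓ ^ (k + 1) * r by ring, hmul, hmul, sigma_one_prime_pow_succ hℓ]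
  cases k with
  | zero => simp [hr]
  | succ j =>
    have hdiv : ℓ ^ (j + 1) * r / ℓ = ℓ ^ j * r := by
      rw [show ℓ ^ (j + 1) * r = ℓ * (ℓ ^ j * r) by ring, Nat.mul_div_cancel_left _ hℓ.pos]
    rw [if_pos (dvd_mul_of_dvd_left (dvd_pow_self ℓ j.succ_ne_zero) r), hdiv, hmul,
      sigma_one_prime_pow_succ hℓ j]
    push_cast
    ring

/-- The recursion for the coefficients of the Eisenstein series of level `p`. -/
theorem sigmaPrime_mul_prime {p : ℕ} (hp : p.Prime) (ℓ : Nat.Primes) {n : ℕ} (hn : n ≠ 0) :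
    sigmaPrime p (n * (ℓ : ℕ)) +
      (if (ℓ : ℕ) ∣ n then (if (ℓ : ℕ) ∣ p then 0 else ((ℓ : ℕ) : ℤ)) *
        sigmaPrime p (n / (ℓ : ℕ)) else 0) =
      eisensteinSystem p ℓ * sigmaPrime p n := by
  obtain ⟨ℓ, hℓ⟩ := ℓ
  show sigmaPrime p (n * ℓ) + (if ℓ ∣ n then (if ℓ ∣ p then 0 else (ℓ : ℤ)) *
    sigmaPrime p (n / ℓ) else 0) = _
  -- For `ℓ = p` the relation follows from that of `σ₁` directly.
  by_cases h : ℓ ∣ p
  · rw [show eisensteinSystem p ⟨ℓ, hℓ⟩ = 1 from if_pos h, one_mul]
    obtain rfl := (Nat.prime_dvd_prime_iff_eq hℓ hp).mp h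
    have hrec := sigma_one_mul_prime hℓ hn
    simp only [dvd_rfl, if_true, zero_mul, ite_self, add_zero, sigmaPrime, dvd_mul_left,
      Nat.mul_div_cancel _ hℓ.pos]
    linear_combination hrec
  · rw [show eisensteinSystem p ⟨ℓ, hℓ⟩ = 1 + (ℓ : ℤ) from if_neg h]
    simp only [h, if_false]
    have hpl : ¬ p ∣ ℓ := fun hd => h ((Nat.prime_dvd_prime_iff_eq hp hℓ).mp hd ▸ dvd_rfl)
    have hco : Nat.Coprime p ℓ := hp.coprime_iff_not_dvd.mpr hpl
    have hA : ∀ x, sigmaPrime p (p * x) = (σ 1 (p * x) : ℤ) - (p : ℤ) * (σ 1 x : ℤ) := fun x => by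
      rw [sigmaPrime, if_pos (dvd_mul_right p x), Nat.mul_div_cancel_left _ hp.pos]
    have hB : ∀ x, ¬ p ∣ x → sigmaPrime p x = (σ 1 x : ℤ) := fun x hx => by
      rw [sigmaPrime, if_neg hx, sub_zero]
    have hrec := sigma_one_mul_prime hℓ hn
    -- Otherwise subtract `p` times the relation of `σ₁` at `n / p` when `p ∣ n`.
    by_cases hpn : p ∣ n
    · obtain ⟨m, rfl⟩ := hpn
      have hrec' := sigma_one_mul_prime hℓ (n := m) (right_ne_zero_of_mul hn)
      have hiff : ℓ ∣ p * m ↔ ℓ ∣ m := hco.symm.dvd_mul_left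
      rw [mul_assoc p m ℓ] at hrec ⊢
      rw [hA, hA]
      by_cases hlm : ℓ ∣ m
      · rw [if_pos (hiff.mpr hlm)] at hrec ⊢
        rw [if_pos hlm] at hrec'
        rw [Nat.mul_div_assoc p hlm] at hrec ⊢
        rw [hA]
        linear_combination hrec - (p : ℤ) * hrec'
      · rw [if_neg (fun h' => hlm (hiff.mp h'))] at hrec ⊢
        rw [if_neg hlm] at hrec'
        linear_combination hrec - (p : ℤ) * hrec'
    · have h1 : ¬ p ∣ n * ℓ := fun h' => hpn (hco.dvd_of_dvd_mul_right h')
      rw [hB _ h1, hB _ hpn]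
      by_cases hln : ℓ ∣ n
      · rw [if_pos hln] at hrec ⊢
        rw [hB _ fun h' => hpn (h'.trans (Nat.div_dvd_of_dvd hln))]
        exact hrec
      · rw [if_neg hln] at hrec ⊢
        exact hrec

/-- The Euler weight is an integer. -/
theorem eulerWeight_eq_intCast (N ℓ : ℕ) :
    eulerWeight N ℓ = (((if ℓ ∣ N then 0 else (ℓ : ℤ)) : ℤ) : ℂ) := by
  unfold eulerWeight
  split_ifs <;> simp

/-- An Eisenstein congruence on the Hecke algebra has modulus dividing the numerator of
`(p - 1)/12`. -/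
theorem dvd_eisensteinNumerator_of_hom (p : ℕ) [Fact p.Prime] (hp5 : 5 ≤ p) (M : ℕ)
    (θ : CuspForm.heckeAlgebra p 2 ∅ →+* ZMod M)
    (hθ : ∀ ℓ : Nat.Primes, θ (CuspForm.heckeFormsGen p 2 ℓ) = (eisensteinSystem p ℓ : ZMod M)) :
    M ∣ eisensteinNumerator p := by
  have hp : p.Prime := Fact.out
  have := IntegralStructure.heckeAlgebra_finite p 2 ∅
  have := IntegralStructure.heckeAlgebra_free p 2 ∅
  let A := CuspForm.heckeAlgebra p 2 ∅
  -- A lift `φ` of `θ` to `ℤ` comes from an integral form `f` with `a_1 (t f) = φ t`. As the `n`-th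
  -- coefficient is `a_1 ∘ t` for a `t` with `θ t = σ'(n)`, `f` has Eisenstein coefficients mod `M`.
  let b := Module.Free.chooseBasis ℤ A
  let φ : A →ₗ[ℤ] ℤ := b.constr ℤ fun i => ((θ (b i)).cast : ℤ)
  have hφ : ∀ t : A, ((φ t : ℤ) : ZMod M) = θ t := by
    intro t
    have : (Int.castAddHom (ZMod M)).toIntLinearMap.comp φ = θ.toAddMonoidHom.toIntLinearMap :=
      b.ext fun i => by simp [φ]
    exact LinearMap.congr_fun this t
  obtain ⟨f, hf⟩ := IntegralStructure.exists_cuspForm_of_functional (N := p)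
    ((Int.castAddHom ℂ).toIntLinearMap.comp φ)
  have hint := (mem_intLattice_iff f).1
    (IntegralStructure.mem_intLattice_of_pairing_int (f := f) fun t => ⟨φ t, hf t⟩)
  choose F hF using hint
  have hkey : ∀ n, 1 ≤ n → ∃ t : A,
      (∀ g : CuspForm (Gamma0 p) 2, qCoeff ⇑g n = qCoeff ⇑(t.1 g) 1) ∧
        θ t = (sigmaPrime p n : ZMod M) := by
    intro n
    induction n using Nat.strong_induction_on with
    | _ n ih =>
      intro hn
      rcases eq_or_lt_of_le hn with h1 | h1
      · refine ⟨1, fun g => ?_, ?_⟩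
        · rw [← h1]
          rfl
        · rw [← h1, map_one, sigmaPrime, if_neg hp.not_dvd_one]
          simp
      · obtain ⟨ℓ, hℓ, m, rfl⟩ : ∃ ℓ, ℓ.Prime ∧ ∃ m, n = m * ℓ :=
          ⟨n.minFac, Nat.minFac_prime (by omega), n / n.minFac,
            (Nat.div_mul_cancel (Nat.minFac_dvd n)).symm⟩
        have hm0 : 0 < m := Nat.pos_of_ne_zero (by rintro rfl; simp at hn)
        obtain ⟨s, hs1, hs2⟩ := ih m (lt_mul_of_one_lt_right hm0 hℓ.one_lt) hm0
        have hθℓ : θ (heckeOp p 2 ℓ hℓ) = (eisensteinSystem p ⟨ℓ, hℓ⟩ : ZMod M) := hθ ⟨ℓ, hℓ⟩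
        have hrec : sigmaPrime p (m * ℓ) + (if ℓ ∣ m then (if ℓ ∣ p then 0 else (ℓ : ℤ)) *
            sigmaPrime p (m / ℓ) else 0) = eisensteinSystem p ⟨ℓ, hℓ⟩ * sigmaPrime p m :=
          sigmaPrime_mul_prime hp ⟨ℓ, hℓ⟩ hm0.ne'
        by_cases hd : ℓ ∣ m
        · have hmℓ : 0 < m / ℓ := Nat.div_pos (Nat.le_of_dvd hm0 hd) hℓ.pos
          obtain ⟨u, hu1, hu2⟩ := ih (m / ℓ) (lt_of_le_of_lt (Nat.div_le_self m ℓ)
            (lt_mul_of_one_lt_right hm0 hℓ.one_lt)) hmℓ
          set e : ℤ := if ℓ ∣ p then 0 else (ℓ : ℤ)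
          refine ⟨s * heckeOp p 2 ℓ hℓ - e • u, fun g => ?_, ?_⟩
          · have h' := coeff_heckeOp hℓ g m
            rw [if_pos hd, hs1, hu1, eulerWeight_eq_intCast] at h'
            show _ = qCoeff ⇑(s.1 ((heckeOp p 2 ℓ hℓ).1 g) - e • u.1 g) 1
            rw [coeff_sub, coeff_zsmul, h']
            ring
          · rw [if_pos hd] at hrec
            rw [map_sub, map_mul, map_zsmul, hθℓ, hs2, hu2, zsmul_eq_mul]
            have := congrArg (Int.cast : ℤ → ZMod M) hrec
            push_cast at this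
            linear_combination -this
        · refine ⟨s * heckeOp p 2 ℓ hℓ, fun g => ?_, ?_⟩
          · have h' := coeff_heckeOp hℓ g m
            rw [if_neg hd, add_zero, hs1] at h'
            exact h'.symm
          · rw [if_neg hd, add_zero] at hrec
            rw [map_mul, hθℓ, hs2, hrec]
            push_cast
            ring
  have hcong : ∀ n, 1 ≤ n → (M : ℤ) ∣ F n - sigmaPrime p n := by
    intro n hn
    obtain ⟨t, ht1, ht2⟩ := hkey n hn
    have hFn : F n = φ t := by
      have h' : IntegralStructure.heckePairing p f t = ((φ t : ℤ) : ℂ) := hf t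
      rw [IntegralStructure.heckePairing_apply, ← ht1, hF] at h'
      exact_mod_cast h'
    rw [hFn, ← ZMod.intCast_zmod_eq_zero_iff_dvd, Int.cast_sub, hφ, ht2, sub_self]
  refine (Nat.dvd_iff_prime_pow_dvd_dvd _ _).2 fun ℓ s hℓ hs => ?_
  refine eisenstein_upper hp hp5 f (PowerSeries.mk F) ?_ hℓ s fun n hn => ?_
  · ext n
    rw [PowerSeries.coeff_map, PowerSeries.coeff_mk]
    exact hF n
  · rw [PowerSeries.coeff_mk]
    exact (Dvd.dvd.trans (by exact_mod_cast hs) (hcong n hn))

/-- There are no cusp forms of weight two and level `2` or `3`. -/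
theorem cuspForm_two_eq_zero_of_lt_five (p : ℕ) [Fact p.Prime] (hp5 : p < 5)
    (f : CuspForm (Gamma0 p) 2) : f = 0 := by
  have hp : p.Prime := Fact.out
  have h : p = 2 ∨ p = 3 := by
    have := hp.two_le
    interval_cases p
    · exact Or.inl rfl
    · exact Or.inr rfl
    · exact absurd hp (by decide)
  rcases h with rfl | rfl
  · exact Patching.cuspForm_two_eq_zero_of_le_two 2 le_rfl f
  · refine IntegralStructure.eq_zero_of_coeffSeq fun n hn => ?_
    have hidx : (Gamma0 3).index = 4 := by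
      rw [Subgroup.index, Gamma0.natCard_quotient, dedekindPsi, Nat.Prime.divisors Nat.prime_three,
        Finset.sum_filter, Finset.sum_pair (by norm_num : (1 : ℕ) ≠ 3),
        if_pos squarefree_one, if_pos Nat.prime_three.squarefree]
    rw [hidx] at hn
    obtain rfl : n = 0 := by omega
    rw [IntegralStructure.coeffSeq_apply]
    exact coeff_zero f

/-- The quotient by the image of the kernel of an integer valued character is cyclic, of order
the best modulus for which the character factors. -/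
theorem natCard_quotient_map_ker {P A R : Type*} [CommRing P] [CommRing A] [CommRing R]
    (Φ : P →+* A) (hΦ : Function.Surjective Φ) (r : A →+* R) (hr : Function.Surjective r)
    (hri : Function.Injective r) (ev : P →+* ℤ) (n : ℕ)
    (upper : ∀ (M : ℕ) (θ : A →+* ZMod M), (∀ x, θ (Φ x) = (ev x : ZMod M)) → M ∣ n)
    (lower : ∀ x, Φ x = 0 → (n : ℤ) ∣ ev x) :
    Nat.card (R ⧸ Ideal.map (r.comp Φ) (RingHom.ker ev)) = n := by
  set J := Ideal.map (r.comp Φ) (RingHom.ker ev) with hJ
  have hs : Function.Surjective (r.comp Φ) := hr.comp hΦ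
  let π : P →+* R ⧸ J := (Ideal.Quotient.mk J).comp (r.comp Φ)
  have hπ : ∀ x, π x = (ev x : R ⧸ J) := by
    intro x
    have hmem : x - (ev x : P) ∈ RingHom.ker ev := by
      rw [RingHom.mem_ker, map_sub, map_intCast, Int.cast_id, sub_self]
    have h0 : π (x - (ev x : P)) = 0 :=
      Ideal.Quotient.eq_zero_iff_mem.2 (Ideal.mem_map_of_mem _ hmem)
    rwa [map_sub, map_intCast, sub_eq_zero] at h0
  set M := ringChar (R ⧸ J) with hM
  let e : ZMod M →+* R ⧸ J := ZMod.castHom dvd_rfl (R ⧸ J)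
  have he : Function.Bijective e := by
    refine ⟨ZMod.castHom_injective _, fun y => ?_⟩
    obtain ⟨y, rfl⟩ := Ideal.Quotient.mk_surjective y
    obtain ⟨x, rfl⟩ := hs y
    exact ⟨(ev x : ZMod M), by rw [map_intCast]; exact (hπ x).symm⟩
  rw [← Nat.card_congr (Equiv.ofBijective _ he), Nat.card_zmod]
  refine Nat.dvd_antisymm ?_ ?_
  · let inv := (RingEquiv.ofBijective e he).symm.toRingHom
    refine upper M ((inv.comp (Ideal.Quotient.mk J)).comp r) fun x => ?_
    show inv (π x) = _
    rw [hπ, map_intCast]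
  · have h0 : π (M : P) = 0 := by
      rw [map_natCast]
      exact CharP.cast_eq_zero (R ⧸ J) M
    obtain ⟨i, hi, hiφ⟩ :=
      (Ideal.mem_map_iff_of_surjective _ hs).1 (Ideal.Quotient.eq_zero_iff_mem.1 h0)
    have hker : Φ ((M : P) - i) = 0 := hri <| by
      rw [map_zero, map_sub, map_sub, sub_eq_zero]
      exact hiφ.symm
    have h1 := lower _ hker
    rw [map_sub, RingHom.mem_ker.1 hi, sub_zero, map_natCast] at h1
    exact Int.natCast_dvd_natCast.1 h1

/-- The full Hecke algebra is generated by the operators at primes: the evaluation map is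
surjective. -/
theorem heckeEvalForms_surjective (N : ℕ) [NeZero N] (k : ℤ) :
    Function.Surjective (CuspForm.heckeEvalForms N k) := by
  rintro ⟨t, ht⟩
  induction ht using Algebra.adjoin_induction with
  | mem x hx =>
    rcases hx with ⟨ℓ, hℓ, hℓN, hℓS, rfl⟩ | ⟨q, hqN, hq, hqS, rfl⟩
    · refine ⟨heckeGen ⟨ℓ, hℓ⟩, ?_⟩
      rw [CuspForm.heckeEvalForms_heckeGen_of_not_dvd (ℓ := ⟨ℓ, hℓ⟩) hℓN]
      rfl
    · refine ⟨heckeGen ⟨q, hq⟩, ?_⟩
      rw [CuspForm.heckeEvalForms_heckeGen_of_dvd (q := ⟨q, hq⟩) hqN]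
      rfl
  | algebraMap r =>
    exact ⟨MvPolynomial.C r, CuspForm.heckeEvalForms_C N k r⟩
  | add x y hx hy ihx ihy =>
    obtain ⟨a, ha⟩ := ihx
    obtain ⟨b, hb⟩ := ihy
    exact ⟨a + b, by rw [map_add, ha, hb]; rfl⟩
  | mul x y hx hy ihx ihy =>
    obtain ⟨a, ha⟩ := ihx
    obtain ⟨b, hb⟩ := ihy
    exact ⟨a * b, by rw [map_mul, ha, hb]; rfl⟩

/-- The Hecke algebra modulo the Eisenstein ideal is cyclic of order the numerator of
`(p - 1)/12`. -/
theorem natCard_eisenstein_quotient (p : ℕ) [Fact p.Prime] :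
    Nat.card (↥(CuspForm.heckeLatticeAlgebra p ∅) ⧸
        Ideal.map ((CuspForm.latticeRestrictHom p ∅).toRingHom.comp (CuspForm.heckeEvalForms p 2))
          (eisensteinIdeal p)) =
      eisensteinNumerator p := by
  refine natCard_quotient_map_ker (CuspForm.heckeEvalForms p 2) (heckeEvalForms_surjective p 2)
    (CuspForm.latticeRestrictHom p ∅).toRingHom (AlgHom.rangeRestrict_surjective _)
    ((injective_iff_map_eq_zero _).2 fun t ht => CuspForm.latticeRestrict_injective p ∅
      (IntegralStructure.hasIntegralStructure p 2) t (congrArg Subtype.val ht))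
    ((MvPolynomial.aeval (R := ℤ) (eisensteinSystem p)).toRingHom) (eisensteinNumerator p) ?_ ?_
  · intro M θ hθ
    rcases lt_or_ge p 5 with hlt | hge
    · have hone : (1 : CuspForm.heckeAlgebra p 2 ∅) = 0 := Subtype.ext <|
        LinearMap.ext fun f => cuspForm_two_eq_zero_of_lt_five p hlt f
      have h01 : ((1 : ℕ) : ZMod M) = 0 := by
        rw [Nat.cast_one, ← map_one θ, hone, map_zero]
      rw [ZMod.natCast_eq_zero_iff, Nat.dvd_one] at h01
      rw [h01]
      exact one_dvd _
    · refine dvd_eisensteinNumerator_of_hom p hge M θ fun ℓ => ?_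
      rw [← CuspForm.heckeEvalForms_heckeGen p 2 ℓ, hθ]
      exact congrArg _ (MvPolynomial.aeval_X _ ℓ)
  · intro x hx
    exact (ZMod.intCast_zmod_eq_zero_iff_dvd _ _).1 (aeval_eisensteinSystem_eq_zero x hx)

end Fermat.Agent.HeckeDuality
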