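import Fermat.Agent.HeckeDuality.AtkinLehnerTwo

/-!
# The criterion against forms on `Γ₀(p)` congruent to a constant

`false_of_sheets`: a form of small weight with integral expansions at the two cusps, both nonzero
modulo `ℓ`, cannot vanish to order `p` modulo `ℓ` at the cusp zero, as its norm to level one would
vanish to too high an order. It is applied in `ConstCongruence`.
-/

set_option autoImplicit false

noncomputable section

open UpperHalfPlane hiding I
open Matrix.SpecialLinearGroup (mapGL)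
open CongruenceSubgroup ModularGroup ModularForm
open Fermat.Agent.ModFun (affine coe_affine zetaN isPrimitiveRoot_zetaN)
open scoped MatrixGroups

namespace Fermat.Agent.HeckeDuality

variable {p : ℕ}

/-- The ring of algebraic integers in `ℂ`. -/
abbrev algInts : Subring ℂ := (integralClosure ℤ ℂ).toSubring

theorem zetaN_mem_algInts (p : ℕ) [NeZero p] : zetaN p ∈ algInts := by
  refine ⟨Polynomial.X ^ p - 1, Polynomial.monic_X_pow_sub_C 1 (NeZero.ne p), ?_⟩
  simp [(isPrimitiveRoot_zetaN p).pow_eq_one]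

theorem exists_maximal_over_prime {ℓ : ℕ} (hℓ : ℓ.Prime) :
    ∃ Q : Ideal algInts, Q.IsMaximal ∧ ((ℓ : ℕ) : algInts) ∈ Q ∧
      ∀ m : ℤ, (m : algInts) ∈ Q → (ℓ : ℤ) ∣ m := by
  have hne : Ideal.span {((ℓ : ℕ) : algInts)} ≠ ⊤ := by
    rw [Ne, Ideal.span_singleton_eq_top]
    intro hu
    obtain ⟨v, hv⟩ := isUnit_iff_exists_inv.1 hu
    have h1 : (ℓ : ℂ) * (v : ℂ) = 1 := by exact_mod_cast congrArg Subtype.val hv
    have hq : algebraMap ℚ ℂ ((ℓ : ℚ)⁻¹) = (v : ℂ) := by
      rw [map_inv₀, map_natCast]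
      exact inv_eq_of_mul_eq_one_right h1
    have hint : IsIntegral ℤ ((ℓ : ℚ)⁻¹) := by
      rw [← isIntegral_algebraMap_iff (algebraMap ℚ ℂ).injective, hq]
      exact v.2
    obtain ⟨m, hm⟩ := IsIntegrallyClosed.algebraMap_eq_of_integral hint
    have h2 : (m * ℓ : ℚ) = 1 := by
      rw [show (m : ℚ) = (ℓ : ℚ)⁻¹ by simpa using hm,
        inv_mul_cancel₀ (by exact_mod_cast hℓ.ne_zero)]
    have h3 : m * (ℓ : ℤ) = 1 := by exact_mod_cast h2
    have h4 := Int.eq_one_or_neg_one_of_mul_eq_one (show (ℓ : ℤ) * m = 1 by rwa [mul_comm])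
    have := hℓ.two_le
    omega
  obtain ⟨Q, hQ, hle⟩ := Ideal.exists_le_maximal _ hne
  refine ⟨Q, hQ, hle (Ideal.subset_span rfl), fun m hm => ?_⟩
  by_contra hnd
  obtain ⟨u, v, huv⟩ := ((Nat.prime_iff_prime_int.1 hℓ).coprime_iff_not_dvd).2 hnd
  apply hQ.ne_top
  rw [Ideal.eq_top_iff_one]
  have h1 : ((u * ℓ + v * m : ℤ) : algInts) = 1 := by rw [huv, Int.cast_one]
  rw [← h1]
  push_cast
  exact Q.add_mem (Q.mul_mem_left _ (hle (Ideal.subset_span rfl))) (Q.mul_mem_left _ hm)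

/-- A series nonzero modulo `ℓ` stays nonzero modulo a prime over `ℓ`. -/
private theorem map_quotient_ne_zero {ℓ : ℕ} {Q : Ideal algInts}
    (hQℤ : ∀ m : ℤ, (m : algInts) ∈ Q → (ℓ : ℤ) ∣ m) (C : PowerSeries ℤ)
    (hC : C.map (Int.castRingHom (ZMod ℓ)) ≠ 0) :
    (C.map (Int.castRingHom algInts)).map (Ideal.Quotient.mk Q) ≠ 0 := by
  intro h0
  apply hC
  ext n
  have h1 := congrArg (fun Z : PowerSeries (algInts ⧸ Q) => Z.coeff n) h0
  simp only [PowerSeries.coeff_map, map_zero, Ideal.Quotient.eq_zero_iff_mem] at h1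
  rw [PowerSeries.coeff_map, map_zero, eq_intCast, ZMod.intCast_zmod_eq_zero_iff_dvd]
  exact hQℤ _ (by simpa using h1)

/-- A series with first `p` coefficients divisible by `ℓ` is divisible by `X ^ p` modulo a prime
over `ℓ`. -/
private theorem X_pow_dvd_map_quotient {ℓ : ℕ} {Q : Ideal algInts} (hQℓ : (ℓ : algInts) ∈ Q)
    {B : PowerSeries ℤ} (hBlow : ∀ n < p, (ℓ : ℤ) ∣ B.coeff n) :
    (PowerSeries.X : PowerSeries (algInts ⧸ Q)) ^ p ∣
      (B.map (Int.castRingHom algInts)).map (Ideal.Quotient.mk Q) := by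
  rw [PowerSeries.X_pow_dvd_iff]
  intro n hn
  obtain ⟨d, hd⟩ := hBlow n hn
  rw [PowerSeries.coeff_map, PowerSeries.coeff_map, hd, map_mul, map_mul, map_natCast,
    map_natCast]
  have : ((ℓ : ℕ) : algInts ⧸ Q) = 0 := by
    rw [← map_natCast (Ideal.Quotient.mk Q), Ideal.Quotient.eq_zero_iff_mem]
    exact hQℓ
  rw [this, zero_mul]

/-- Norm argument: for `w (p + 1) < 12 p` no weight `w` form with nonzero reductions modulo `ℓ`
at both cusps vanishes modulo `ℓ` to order `p` at the cusp zero. -/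
theorem false_of_sheets (hp : p.Prime) [NeZero p] {ℓ : ℕ} (hℓ : ℓ.Prime) (w : ℕ)
    (hw : w * (p + 1) < 12 * p) (f : ModularForm ((Gamma0 p).map (mapGL ℝ)) (w : ℤ))
    (A B : PowerSeries ℤ) (hA : HasExp 1 (⇑f) (A.map (Int.castRingHom ℂ)))
    (hB : HasExp p ((⇑f) ∣[(w : ℤ)] S) (B.map (Int.castRingHom ℂ)))
    (hA0 : A.map (Int.castRingHom (ZMod ℓ)) ≠ 0) (hB0 : B.map (Int.castRingHom (ZMod ℓ)) ≠ 0)
    (hBlow : ∀ n < p, (ℓ : ℤ) ∣ B.coeff n) : False := by
  obtain ⟨Q, hQ, hQℓ, hQℤ⟩ := exists_maximal_over_prime hℓ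
  have := finiteRelIndex_gamma0 hp
  let := Fintype.ofFinite
    ((𝒮ℒ : Subgroup (GL (Fin 2) ℝ)) ⧸ ((Gamma0 p).map (mapGL ℝ)).subgroupOf 𝒮ℒ)
  set π : algInts →+* algInts ⧸ Q := Ideal.Quotient.mk Q with hπ
  -- The norm `Φ` of `f` has expansion `PR`, the product over the `p + 1` sheets, in `q^{1/p}`.
  -- Modulo a prime `Q` over `ℓ` its first `K/12` coefficients in `q` vanish, `K = w (p + 1)`, so
  -- it vanishes by Sturm's bound, hence so does a factor: a contradiction.
  set ζ : algInts := ⟨zetaN p, zetaN_mem_algInts p⟩ with hζ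
  set BR : PowerSeries algInts := B.map (Int.castRingHom algInts) with hBR
  set AR : PowerSeries algInts :=
    PowerSeries.expand p (NeZero.ne p) (A.map (Int.castRingHom algInts)) with hAR
  set PR : PowerSeries algInts := AR * ∏ j : Fin p, PowerSeries.rescale (ζ ^ (j : ℕ)) BR with hPR
  set Φ : ModularForm 𝒮ℒ ((w * (p + 1) : ℕ) : ℤ) :=
    ModularForm.mcast (by rw [natCard_cosets hp]; push_cast; ring) (ModularForm.norm 𝒮ℒ f) with hΦ
  have hcast : ∀ C : PowerSeries ℤ, (C.map (Int.castRingHom algInts)).map algInts.subtype =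
      C.map (Int.castRingHom ℂ) := fun C => by ext n; simp
  have hprod : HasExp p (⇑Φ) (PR.map algInts.subtype) := by
    have hfun : ⇑Φ = ⇑f * ∏ j : Fin p, (⇑f) ∣[(w : ℤ)] stPow j := by
      rw [← prod_quotientFunc hp f]
      show ⇑(ModularForm.norm 𝒮ℒ f) = _
      rw [ModularForm.coe_norm]
    rw [hfun, hPR, map_mul, map_prod, hAR, PowerSeries.map_expand, hcast]
    refine (hA.widen p).mul (HasExp.prod _ fun j _ => ?_)
    have hfn : (⇑f) ∣[(w : ℤ)] stPow j =
        fun τ => ((⇑f) ∣[(w : ℤ)] S) (((j : ℕ) : ℝ) +ᵥ τ) :=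
      funext (slash_stPow_apply _ _)
    have hr : (PowerSeries.rescale (ζ ^ (j : ℕ)) BR).map algInts.subtype =
        PowerSeries.rescale (zetaN p ^ (j : ℕ)) (B.map (Int.castRingHom ℂ)) := by
      ext n
      simp [PowerSeries.coeff_rescale, hBR, hζ]
      exact Or.inl rfl
    rw [hfn, hr]
    exact hB.vadd j
  have hone : HasExp 1 (⇑Φ) (qExpansion 1 Φ) := by
    have h := hasExp_of_modularFormClass (h := 1) Φ (Γ := 𝒮ℒ) (k := ((w * (p + 1) : ℕ) : ℤ))
      (by rw [Nat.cast_one]; exact one_mem_strictPeriods_SL)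
    rwa [Nat.cast_one] at h
  have hexp := (hone.widen p).unique hprod
  set P1 : PowerSeries algInts := PowerSeries.mk fun m => PR.coeff (p * m) with hP1
  have hP1exp : qExpansion 1 Φ = P1.map algInts.subtype := by
    ext m
    have h := congrArg (fun Z : PowerSeries ℂ => Z.coeff (p * m)) hexp
    simp only [PowerSeries.coeff_expand_mul, PowerSeries.coeff_map] at h
    rw [h, PowerSeries.coeff_map, hP1, PowerSeries.coeff_mk]
  have hPR1 : PR = PowerSeries.expand p (NeZero.ne p) P1 := by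
    refine PowerSeries.map_injective algInts.subtype Subtype.val_injective ?_
    rw [← hexp, PowerSeries.map_expand, hP1exp]
  have hπcast : ∀ C : PowerSeries ℤ, C.map (Int.castRingHom (ZMod ℓ)) ≠ 0 →
      (C.map (Int.castRingHom algInts)).map π ≠ 0 := fun C => map_quotient_ne_zero hQℤ C
  have hBX : (PowerSeries.X : PowerSeries (algInts ⧸ Q)) ^ p ∣ BR.map π :=
    X_pow_dvd_map_quotient hQℓ hBlow
  have hlow : ∀ m ≤ w * (p + 1) / 12, P1.coeff m ∈ Q := by
    intro m hm
    have hmp : m < p := lt_of_le_of_lt hm (Nat.div_lt_iff_lt_mul (by norm_num) |>.2 (by omega))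
    have hdvd : (PowerSeries.X : PowerSeries (algInts ⧸ Q)) ^ (p * p) ∣ PR.map π := by
      rw [hPR, map_mul, map_prod]
      refine dvd_mul_of_dvd_right ?_ _
      have h : ((PowerSeries.X : PowerSeries (algInts ⧸ Q)) ^ p) ^ p =
          ∏ _j : Fin p, (PowerSeries.X : PowerSeries (algInts ⧸ Q)) ^ p := by simp
      rw [pow_mul, h]
      refine Finset.prod_dvd_prod_of_dvd _ _ fun j _ => ?_
      rw [PowerSeries.X_pow_dvd_iff]
      intro n hn
      have hb := (PowerSeries.X_pow_dvd_iff.1 hBX) n hn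
      rw [PowerSeries.coeff_map] at hb
      rw [PowerSeries.coeff_map, PowerSeries.coeff_rescale, map_mul, hb, mul_zero]
    have hz := (PowerSeries.X_pow_dvd_iff.1 hdvd) (p * m)
      (Nat.mul_lt_mul_of_pos_left hmp hp.pos)
    rw [PowerSeries.coeff_map, hπ, Ideal.Quotient.eq_zero_iff_mem] at hz
    rwa [hP1, PowerSeries.coeff_mk]
  have hzero := levelOne_map_eq_zero Q _ Φ P1 hP1exp hlow
  have : IsDomain (algInts ⧸ Q) := Ideal.Quotient.isDomain Q
  have hPR0 : PR.map π = 0 := by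
    rw [hPR1, PowerSeries.map_expand, hzero, map_zero]
  rw [hPR, map_mul, map_prod, mul_eq_zero, Finset.prod_eq_zero_iff] at hPR0
  rcases hPR0 with h | ⟨j, -, hj⟩
  · rw [hAR, PowerSeries.map_expand] at h
    refine hπcast A hA0 ?_
    ext m
    have := congrArg (fun Z : PowerSeries (algInts ⧸ Q) => Z.coeff (p * m)) h
    simpa using this
  · refine hπcast B hB0 ?_
    ext n
    have h1 := congrArg (fun Z : PowerSeries (algInts ⧸ Q) => Z.coeff n) hj
    simp only [PowerSeries.coeff_map, PowerSeries.coeff_rescale, map_mul, map_zero, map_pow] at h1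
    rw [PowerSeries.coeff_map, map_zero]
    refine (mul_eq_zero.1 h1).resolve_left (pow_ne_zero _ (pow_ne_zero _ fun hz => ?_))
    have hu : ζ ^ p = 1 := Subtype.ext (by simp [hζ, (isPrimitiveRoot_zetaN p).pow_eq_one])
    have := congrArg π hu
    rw [map_pow, hz, zero_pow hp.ne_zero, map_one] at this
    exact zero_ne_one this

end Fermat.Agent.HeckeDuality
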