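import Mathlib.RingTheory.PowerSeries.Expand
import Mathlib.Tactic
import Fermat.Agent.ModFun.Affine

/-!
# A calculus of expansions for bounded periodic functions on the upper half plane

`HasExp h f P`: the function `f` is holomorphic, `h`-periodic, bounded at infinity, and `P` is its
expansion in the parameter `exp (2πiτ/h)`.
-/

set_option autoImplicit false

noncomputable section

open UpperHalfPlane hiding I
open Function Filter Complex
open scoped Manifold Real

namespace Fermat.Agent.HeckeDuality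

open Fermat.Agent.ModFun

variable {h : ℕ} [NeZero h] {f g : ℍ → ℂ} {P Q : PowerSeries ℂ}

/-- `P` is the expansion of the bounded periodic function `f` in `exp (2πiτ/h)`. -/
def HasExp (h : ℕ) [NeZero h] (f : ℍ → ℂ) (P : PowerSeries ℂ) : Prop :=
  ∃ hf : f ∈ BddAlg h, qExpBdd h ⟨f, hf⟩ = P

namespace HasExp

theorem qExp_eq (H : HasExp h f P) : qExpansion h f = P := by
  obtain ⟨hf, rfl⟩ := H
  rfl

theorem unique (H : HasExp h f P) (H' : HasExp h f Q) : P = Q := H.qExp_eq.symm.trans H'.qExp_eq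

theorem add (H : HasExp h f P) (H' : HasExp h g Q) : HasExp h (f + g) (P + Q) := by
  obtain ⟨hf, rfl⟩ := H
  obtain ⟨hg, rfl⟩ := H'
  refine ⟨Subalgebra.add_mem _ hf hg, ?_⟩
  rw [← map_add]
  exact congrArg (qExpBdd h) (Subtype.ext rfl)

theorem mul (H : HasExp h f P) (H' : HasExp h g Q) : HasExp h (f * g) (P * Q) := by
  obtain ⟨hf, rfl⟩ := H
  obtain ⟨hg, rfl⟩ := H'
  refine ⟨Subalgebra.mul_mem _ hf hg, ?_⟩
  rw [← map_mul]
  exact congrArg (qExpBdd h) (Subtype.ext rfl)

theorem sub (H : HasExp h f P) (H' : HasExp h g Q) : HasExp h (f - g) (P - Q) := by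
  obtain ⟨hf, rfl⟩ := H
  obtain ⟨hg, rfl⟩ := H'
  refine ⟨Subalgebra.sub_mem _ hf hg, ?_⟩
  rw [← map_sub]
  exact congrArg (qExpBdd h) (Subtype.ext rfl)

/-- Expansions respect scalars. -/
theorem smul (c : ℂ) (H : HasExp h f P) : HasExp h (c • f) (c • P) := by
  obtain ⟨hf, rfl⟩ := H
  refine ⟨Subalgebra.smul_mem _ hf c, ?_⟩
  rw [← map_smul]
  exact congrArg (qExpBdd h) (Subtype.ext rfl)

theorem zero (h : ℕ) [NeZero h] : HasExp h (0 : ℍ → ℂ) 0 :=
  ⟨Subalgebra.zero_mem _, by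
    rw [← map_zero (qExpBdd h)]
    exact congrArg (qExpBdd h) (Subtype.ext rfl)⟩

theorem one (h : ℕ) [NeZero h] : HasExp h (1 : ℍ → ℂ) 1 :=
  ⟨Subalgebra.one_mem _, by
    rw [← map_one (qExpBdd h)]
    exact congrArg (qExpBdd h) (Subtype.ext rfl)⟩

theorem sum {ι : Type*} (s : Finset ι) {F : ι → ℍ → ℂ} {G : ι → PowerSeries ℂ}
    (H : ∀ i ∈ s, HasExp h (F i) (G i)) : HasExp h (∑ i ∈ s, F i) (∑ i ∈ s, G i) := by
  classical
  induction s using Finset.induction_on with
  | empty => simpa using HasExp.zero h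
  | insert a s ha ih =>
    rw [Finset.sum_insert ha, Finset.sum_insert ha]
    exact (H a (Finset.mem_insert_self a s)).add
      (ih fun i hi => H i (Finset.mem_insert_of_mem hi))

theorem prod {ι : Type*} (s : Finset ι) {F : ι → ℍ → ℂ} {G : ι → PowerSeries ℂ}
    (H : ∀ i ∈ s, HasExp h (F i) (G i)) : HasExp h (∏ i ∈ s, F i) (∏ i ∈ s, G i) := by
  classical
  induction s using Finset.induction_on with
  | empty => simpa using HasExp.one h
  | insert a s ha ih =>
    rw [Finset.prod_insert ha, Finset.prod_insert ha]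
    exact (H a (Finset.mem_insert_self a s)).mul
      (ih fun i hi => H i (Finset.mem_insert_of_mem hi))

theorem hasSum (H : HasExp h f P) (τ : ℍ) :
    HasSum (fun m : ℕ => P.coeff m • qFun h τ ^ m) (f τ) := by
  obtain ⟨hf, rfl⟩ := H
  exact hasSum_qExpBdd ⟨f, hf⟩ τ

theorem of_hasSum {c : ℕ → ℂ} (hf : MDiff f)
    (hc : ∀ τ : ℍ, HasSum (fun m : ℕ => c m • qFun h τ ^ m) (f τ)) :
    HasExp h f (PowerSeries.mk c) :=
  ⟨mem_BddAlg_of_hasSum hf hc, qExpBdd_eq_of_hasSum hc⟩

/-- A function with an expansion is holomorphic. -/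
theorem mdiff (H : HasExp h f P) : MDiff f := H.1.1

/-- A function with an expansion is bounded at infinity. -/
theorem bounded (H : HasExp h f P) : IsBoundedAtImInfty f := H.1.2.2

end HasExp

theorem qFun_vadd (p j : ℕ) [NeZero p] (τ : ℍ) :
    qFun p ((j : ℝ) +ᵥ τ) = zetaN p ^ j * qFun p τ := by
  have hp : (p : ℂ) ≠ 0 := by exact_mod_cast NeZero.ne p
  simp only [qFun, zetaN, Periodic.qParam, coe_vadd, ← Complex.exp_nat_mul, ← Complex.exp_add]
  congr 1
  push_cast
  field_simp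

/-- Expansion of a translate. -/
theorem HasExp.vadd {p : ℕ} [NeZero p] {F : ℍ → ℂ} {R : PowerSeries ℂ} (H : HasExp p F R)
    (j : ℕ) :
    HasExp p (fun τ => F ((j : ℝ) +ᵥ τ)) (PowerSeries.rescale (zetaN p ^ j) R) := by
  have hd : MDiff (fun τ : ℍ => F ((j : ℝ) +ᵥ τ)) := by
    have h1 := mdifferentiable_comp_affine 1 (j : ℤ) 1 H.mdiff
    convert! h1 using 2 with τ
    congr 1
    ext1
    simp [coe_affine, add_comm]
  rw [show PowerSeries.rescale (zetaN p ^ j) R =
      PowerSeries.mk fun m => (zetaN p ^ j) ^ m * R.coeff m by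
    ext m; rw [PowerSeries.coeff_rescale, PowerSeries.coeff_mk]]
  refine HasExp.of_hasSum hd fun τ => ?_
  have h2 := H.hasSum ((j : ℝ) +ᵥ τ)
  rw [qFun_vadd] at h2
  refine h2.congr_fun fun m => ?_
  rw [smul_eq_mul, smul_eq_mul, mul_pow]
  ring

/-- Expansion of `τ ↦ f ((aτ)/d)` in `exp (2πiτ/d)`. -/
theorem HasExp.comp_affine {F : ℍ → ℂ} {R : PowerSeries ℂ} (H : HasExp 1 F R) (a d : ℕ)
    [NeZero a] [NeZero d] :
    HasExp d (fun τ => F (affine a 0 d τ)) (PowerSeries.expand a (NeZero.ne a) R) := by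
  rw [show PowerSeries.expand a (NeZero.ne a) R =
      PowerSeries.mk fun m => (PowerSeries.expand a (NeZero.ne a) R).coeff m by ext m; simp]
  refine HasExp.of_hasSum (mdifferentiable_comp_affine a 0 d H.mdiff) fun τ => ?_
  have h1 := hasSum_affine a 0 d (f := F) (n := 0) (c := fun m => R.coeff m)
    (fun τ => by simpa using H.hasSum τ) τ
  simp only [mul_zero, pow_zero, one_mul] at h1
  refine h1.congr_fun fun m => ?_
  congr 1
  by_cases hm : ∃ i, a * i = m
  · obtain ⟨i, rfl⟩ := hm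
    rw [(mul_right_injective₀ (NeZero.ne a)).extend_apply, PowerSeries.coeff_expand_mul,
      affineRoot_zero]
    simp
  · rw [Function.extend_apply' _ _ _ hm, PowerSeries.coeff_expand_of_not_dvd a (NeZero.ne a) R]
    · simp
    · rintro ⟨i, rfl⟩
      exact hm ⟨i, rfl⟩

/-- A form with period `h` has its `q`-expansion as expansion. -/
theorem hasExp_of_modularFormClass {F : Type*} [FunLike F ℍ ℂ] {Γ : Subgroup (GL (Fin 2) ℝ)}
    {k : ℤ} [ModularFormClass F Γ k] (x : F) (hΓ : (h : ℝ) ∈ Γ.strictPeriods) :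
    HasExp h (⇑x) (qExpansion h x) := by
  have : Fact (IsCusp OnePoint.infty Γ) :=
    ⟨Subgroup.isCusp_of_mem_strictPeriods (cast_pos_of_neZero h) hΓ⟩
  exact ⟨⟨ModularFormClass.holo x,
    fun τ => SlashInvariantForm.vAdd_apply_of_mem_strictPeriods x τ hΓ,
    ModularFormClass.bdd_at_infty x⟩, rfl⟩

end Fermat.Agent.HeckeDuality
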