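import Fermat.Agent.Periods.Hecke
import Fermat.Agent.Gamma0.Main
import Fermat.Agent.Poincare.Gamma0Link
import Fermat.Prelude.Def_CuspForm_HeckeEvalForms
import Fermat.Prelude.Def_ModularCurve_ModularUnit

/-!
# The Shimura homomorphism and the lower bound for the Eisenstein index

1. `range_periodHomPair` (the second half of S21): the period map on pairs of forms is injective
   with parabolic values (`Periods/Conj`), and both sides have dimension twice the genus
   (`Poincare.finrank_cuspForm_two`, `Gamma0.finrank_parabolicHoms`).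
2. So the Hecke algebra acts faithfully on parabolic homomorphisms, and an eigenvector with values
   in `ℤ/n` killing the parabolic and elliptic elements gives a congruence satisfied by the
   relations of the algebra (`aeval_eq_zero_of_eigen_hom`).
3. `exists_shimuraHom`: the homomorphism `Γ₀(p) → ℤ/n`, `n = (p-1)/(p-1,12)`, through the lower
   right entry is such an eigenvector, for the Eisenstein system of eigenvalues.
4. `aeval_eisensteinSystem_eq_zero`: so relations of the algebra hold for that system modulo `n`.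
-/

set_option autoImplicit false

noncomputable section

namespace Fermat.Agent.HeckeDuality

open CongruenceSubgroup Matrix.SpecialLinearGroup ModularCurve ModularCurve.Period
open P2MW.S_ModularForm_heckeT_slash_eq_self_of_mem_Gamma0.ModularForm.HeckeSlashInvariance
  (heckeRep)
open scoped MatrixGroups

/-! ### Hecke operators on homomorphisms -/

section General

variable (N : ℕ) [NeZero N]

/-- The Hecke operator at a prime on `Hom(Γ₀(N), B)`. -/
def periodHeckeOp (B : Type) [AddCommGroup B] (ℓ : Nat.Primes) :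
    (Additive (Gamma0 N) →+ B) →ₗ[ℤ] (Additive (Gamma0 N) →+ B) :=
  if h : (ℓ : ℕ) ∣ N then Periods.homU ℓ.2.ne_zero h ℤ else Periods.homT ℓ.2 h ℤ

omit [NeZero N] in
theorem periodHeckeOp_comp {B C : Type} [AddCommGroup B] [AddCommGroup C] (ℓ : Nat.Primes)
    (g : B →+ C) (φ : Additive (Gamma0 N) →+ B) :
    periodHeckeOp N C ℓ (g.comp φ) = g.comp (periodHeckeOp N B ℓ φ) := by
  by_cases h : (ℓ : ℕ) ∣ N
  · rw [periodHeckeOp, periodHeckeOp, dif_pos h, dif_pos h, Periods.homU_comp _ h ℤ ℤ]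
  · rw [periodHeckeOp, periodHeckeOp, dif_neg h, dif_neg h, Periods.homT_comp _ h ℤ ℤ]

/-- The period pairing intertwines the Hecke operators. -/
theorem periodHeckeOp_periodHomPair (ℓ : Nat.Primes)
    (f g : CuspForm (Gamma0 N) 2) :
    periodHeckeOp N ℂ ℓ (periodHomPair N (f, g)) =
      periodHomPair N
        ((CuspForm.heckeFormsGen N 2 ℓ).1 f, (CuspForm.heckeFormsGen N 2 ℓ).1 g) := by
  rw [Periods.periodHomPair_eq]
  simp only [LinearMap.coprod_apply, LinearMap.comp_apply, LinearMap.add_apply,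
    LinearMap.sub_apply, LinearMap.id_apply, Periods.periodMapLin_apply]
  by_cases h : (ℓ : ℕ) ∣ N
  · rw [periodHeckeOp, dif_pos h, CuspForm.heckeFormsGen_of_dvd h, CuspForm.heckeAlgebra.coe_U]
    simp only [map_add, map_sub, Periods.periodMap_heckeULin ℓ.2.ne_zero h]
    rw [← Periods.charInvolution_homU, ← Periods.charInvolution_homU]
    rfl
  · rw [periodHeckeOp, dif_neg h, CuspForm.heckeFormsGen_of_not_dvd h, CuspForm.heckeAlgebra.coe_T]
    simp only [map_add, map_sub, Periods.periodMap_heckeTLin ℓ.2 h]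
    rw [← Periods.charInvolution_homT, ← Periods.charInvolution_homT]
    rfl

/-- Every Hecke polynomial acts naturally on homomorphisms, compatibly with periods and with
systems of eigenvalues. -/
theorem exists_periodAction (P : HeckeAlg) :
    ∃ E : ∀ (B : Type) [AddCommGroup B],
        (Additive (Gamma0 N) →+ B) →+ (Additive (Gamma0 N) →+ B),
      (∀ (B C : Type) [AddCommGroup B] [AddCommGroup C] (g : B →+ C)
          (φ : Additive (Gamma0 N) →+ B), E C (g.comp φ) = g.comp (E B φ)) ∧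
      (∀ f g : CuspForm (Gamma0 N) 2, E ℂ (periodHomPair N (f, g)) =
          periodHomPair N ((CuspForm.heckeEvalForms N 2 P).1 f,
            (CuspForm.heckeEvalForms N 2 P).1 g)) ∧
      (∀ (B : Type) [AddCommGroup B] (lam : Nat.Primes → ℤ) (χ : Additive (Gamma0 N) →+ B),
          (∀ ℓ, periodHeckeOp N B ℓ χ = lam ℓ • χ) → E B χ = MvPolynomial.aeval lam P • χ) := by
  -- Constants act as multiples, sums as sums and `X ℓ` as the Hecke operator on periods.
  induction P using MvPolynomial.induction_on with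
  | C a =>
    refine ⟨fun B _ => a • AddMonoidHom.id (Additive (Gamma0 N) →+ B), ?_, ?_, ?_⟩
    · intro B C _ _ g φ
      ext x
      simp
    · intro f g
      rw [CuspForm.heckeEvalForms_C]
      simp only [AddMonoidHom.smul_apply, AddMonoidHom.id_apply]
      rw [← map_zsmul, Prod.smul_mk]
      rfl
    · intro B _ lam χ _
      simp
  | add P Q hP hQ =>
    obtain ⟨E, hE1, hE2, hE3⟩ := hP
    obtain ⟨F, hF1, hF2, hF3⟩ := hQ
    refine ⟨fun B _ => E B + F B, ?_, ?_, ?_⟩
    · intro B C _ _ g φ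
      simp only [AddMonoidHom.add_apply, hE1, hF1, AddMonoidHom.comp_add]
    · intro f g
      rw [map_add, AddMonoidHom.add_apply, hE2, hF2, ← map_add]
      rfl
    · intro B _ lam χ h
      rw [map_add, AddMonoidHom.add_apply, hE3 B lam χ h, hF3 B lam χ h, add_smul]
  | mul_X P ℓ hP =>
    obtain ⟨E, hE1, hE2, hE3⟩ := hP
    refine ⟨fun B _ => (E B).comp (periodHeckeOp N B ℓ).toAddMonoidHom, ?_, ?_, ?_⟩
    · intro B C _ _ g φ
      simp only [AddMonoidHom.comp_apply, LinearMap.toAddMonoidHom_coe, periodHeckeOp_comp, hE1]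
    · intro f g
      simp only [AddMonoidHom.comp_apply, LinearMap.toAddMonoidHom_coe,
        periodHeckeOp_periodHomPair, hE2]
      rw [map_mul, show CuspForm.heckeEvalForms N 2 (MvPolynomial.X ℓ) =
        CuspForm.heckeFormsGen N 2 ℓ from CuspForm.heckeEvalForms_heckeGen N 2 ℓ]
      rfl
    · intro B _ lam χ h
      simp only [AddMonoidHom.comp_apply, LinearMap.toAddMonoidHom_coe, h, map_zsmul,
        hE3 B lam χ h, map_mul, MvPolynomial.aeval_X, smul_smul]
      rw [mul_comm]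

/-- **Eichler–Shimura**: the image of the period map is the space of parabolic homomorphisms from
`Γ₀(N)` to `ℂ`. -/
theorem range_periodHomPair (N : ℕ) [NeZero N] :
    LinearMap.range (periodHomPair N) = parabolicHoms ℂ (Gamma0 N) ℂ := by
  have := (Gamma0.parabolicHoms_free N ℂ).2
  refine (Periods.periodHomPair_eichlerShimura_of_finrank N ?_).2
  have h1 := Poincare.finrank_cuspForm_two (N := N)
  rw [← Gamma0.genus_eq N, Nat.cast_inj] at h1
  rw [Gamma0.finrank_parabolicHoms N ℂ, h1]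

/-- An eigenvector in homomorphisms with any finite cyclic coefficients killing the parabolic and
elliptic elements gives a congruence satisfied by the relations of the Hecke algebra. -/
theorem aeval_eq_zero_of_eigen_hom {n : ℕ} (lam : Nat.Primes → ℤ)
    (χ : Additive (Gamma0 N) →+ ZMod n) (hχ : χ ∈ Gamma0.ellParHoms (Gamma0 N) (ZMod n))
    (h1 : ∃ γ, χ γ = 1) (heig : ∀ ℓ, periodHeckeOp N (ZMod n) ℓ χ = lam ℓ • χ)
    (P : HeckeAlg) (hP : CuspForm.heckeEvalForms N 2 P = 0) :
    ((MvPolynomial.aeval lam P : ℤ) : ZMod n) = 0 := by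
  obtain ⟨E, hE1, hE2, hE3⟩ := exists_periodAction N P
  obtain ⟨γ, hγ⟩ := Gamma0.exists_ellParHoms_basis.{0} N
  choose a ha using fun i => ZMod.intCast_surjective (χ (Additive.ofMul (γ i)))
  obtain ⟨⟨φ, hφ⟩, hφa⟩ := (hγ ℤ).2 a
  have hlift : (Int.castAddHom (ZMod n)).comp φ = χ := by
    have hmem : (Int.castAddHom (ZMod n)).comp φ ∈ Gamma0.ellParHoms (Gamma0 N) (ZMod n) := by
      intro x hx
      rw [AddMonoidHom.comp_apply, hφ x hx, map_zero]
    have := (hγ (ZMod n)).1 (a₁ := ⟨_, hmem⟩) (a₂ := ⟨χ, hχ⟩) (funext fun i => by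
      simpa [congrFun hφa i] using ha i)
    exact Subtype.ext_iff.1 this
  have hφ0 : E ℤ φ = 0 := by
    have hpar : (Int.castAddHom ℂ).comp φ ∈ parabolicHoms ℂ (Gamma0 N) ℂ := by
      intro x hx
      rw [AddMonoidHom.comp_apply, hφ x hx.le, map_zero]
    rw [← range_periodHomPair] at hpar
    obtain ⟨⟨f, g⟩, hfg⟩ := hpar
    have h0 := hE2 f g
    rw [hP, hfg, hE1 ℤ ℂ] at h0
    have hz : periodHomPair N ((0 : CuspForm.heckeAlgebra N 2 ∅).1 f,
        (0 : CuspForm.heckeAlgebra N 2 ∅).1 g) = 0 := map_zero _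
    rw [hz] at h0
    refine AddMonoidHom.ext fun x => ?_
    simpa using DFunLike.congr_fun h0 x
  have key := hE3 (ZMod n) lam χ heig
  rw [← hlift, hE1 ℤ (ZMod n), hφ0, AddMonoidHom.comp_zero, hlift] at key
  obtain ⟨x, hx⟩ := h1
  have := DFunLike.congr_fun key x
  rw [AddMonoidHom.smul_apply, hx, zsmul_one, AddMonoidHom.zero_apply] at this
  exact this.symm

end General

/-! ### The homomorphism at prime level -/

section Prime

variable {p : ℕ} [hp : Fact p.Prime]

/-- The lower right entry, as a unit mod `p`. -/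
def lowerUnit : Gamma0 p →* (ZMod p)ˣ := (Gamma0Map p).toHomUnits

theorem coe_lowerUnit (γ : Gamma0 p) :
    (lowerUnit γ : ZMod p) = (((γ : SL(2, ℤ)) 1 1 : ℤ) : ZMod p) := rfl

theorem upper_mul_lower (γ : Gamma0 p) :
    (((γ : SL(2, ℤ)) 0 0 : ℤ) : ZMod p) * (((γ : SL(2, ℤ)) 1 1 : ℤ) : ZMod p) = 1 := by
  have h := congrArg (Int.cast : ℤ → ZMod p)
    ((Matrix.det_fin_two _).symm.trans (γ : SL(2, ℤ)).2)
  push_cast at h
  rw [Gamma0_mem.mp γ.2, mul_zero, sub_zero] at h
  exact h

theorem lowerUnit_surjective : Function.Surjective (lowerUnit (p := p)) := by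
  intro u
  have hco : IsCoprime ((u : ZMod p).val : ℤ) (p : ℤ) := by
    rw [Int.isCoprime_iff_nat_coprime]
    simp only [Int.natAbs_natCast]
    exact ZMod.val_coe_unit_coprime u
  obtain ⟨x, y, hxy⟩ := hco
  refine ⟨⟨⟨!![x, -y; (p : ℤ), ((u : ZMod p).val : ℤ)], ?_⟩, ?_⟩, ?_⟩
  · rw [Matrix.det_fin_two_of]
    linear_combination hxy
  · exact Gamma0_mem.mpr (by simp)
  · ext
    rw [coe_lowerUnit]
    simp

theorem lowerUnit_pow_twelve (γ : Gamma0 p)
    (h : ((γ : SL(2, ℤ)) : Matrix (Fin 2) (Fin 2) ℤ).trace ^ 2 ≤ 4) :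
    lowerUnit γ ^ 12 = 1 := by
  ext
  rw [Units.val_pow_eq_pow_val, Units.val_one, coe_lowerUnit]
  have hm := upper_mul_lower γ
  rw [Matrix.trace_fin_two] at h
  set a := (γ : SL(2, ℤ)) 0 0
  set d := (γ : SL(2, ℤ)) 1 1
  have hq : ((d : ZMod p)) ^ 2 - ((a + d : ℤ) : ZMod p) * d + 1 = 0 := by
    push_cast
    linear_combination -hm
  have hb : -2 ≤ a + d ∧ a + d ≤ 2 := abs_le.mp (abs_le_of_sq_le_sq (by linarith) two_pos.le)
  generalize a + d = t at hq hb
  obtain ⟨h1, h2⟩ := hb
  generalize (d : ZMod p) = x at hq ⊢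
  interval_cases t <;> push_cast at hq
  · have : x + 1 = 0 := mul_self_eq_zero.mp (by linear_combination hq)
    rw [eq_neg_of_add_eq_zero_left this]; norm_num
  · have h3 : x ^ 3 = 1 := by linear_combination (x - 1) * hq
    rw [show x ^ 12 = (x ^ 3) ^ 4 by ring, h3]; norm_num
  · have h3 : x ^ 2 = -1 := by linear_combination hq
    rw [show x ^ 12 = (x ^ 2) ^ 6 by ring, h3]; norm_num
  · have h3 : x ^ 3 = -1 := by linear_combination (x + 1) * hq
    rw [show x ^ 12 = (x ^ 3) ^ 4 by ring, h3]; norm_num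
  · have : x - 1 = 0 := mul_self_eq_zero.mp (by linear_combination hq)
    rw [sub_eq_zero.mp this]; norm_num

/-- The quotient of order `(p - 1)/(p - 1, 12)` of `(ℤ/p)ˣ`. -/
theorem exists_shimuraLog : ∃ L : (ZMod p)ˣ →* Multiplicative (ZMod (eisensteinNumerator p)),
    Function.Surjective L ∧ ∀ x, x ^ 12 = 1 → L x = 1 := by
  have hcyc : IsCyclic (ZMod p)ˣ := inferInstance
  have hcard : Nat.card (ZMod p)ˣ = p - 1 := by rw [Nat.card_units, Nat.card_zmod]
  have hdvd : eisensteinNumerator p ∣ Nat.card (ZMod p)ˣ := hcard ▸ eisensteinNumerator_dvd p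
  let e := zmodCyclicMulEquiv hcyc
  let c := (ZMod.castHom hdvd (ZMod (eisensteinNumerator p))).toAddMonoidHom
  refine ⟨c.toMultiplicative.comp e.symm.toMonoidHom, ?_, ?_⟩
  · intro y
    obtain ⟨z, hz⟩ := ZMod.castHom_surjective hdvd y.toAdd
    exact ⟨e (Multiplicative.ofAdd z), by simp [c, hz]⟩
  · intro x hx
    have : NeZero (Nat.card (ZMod p)ˣ) := ⟨Nat.card_pos.ne'⟩
    set z := (e.symm x).toAdd with hz
    have h12 : (12 : ℕ) • z = 0 := by
      rw [hz, ← toAdd_pow, ← map_pow, hx, map_one, toAdd_one]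
    obtain ⟨k, hk⟩ : ∃ k : ℕ, (k : ZMod (Nat.card (ZMod p)ˣ)) = z :=
      ⟨z.val, ZMod.natCast_zmod_val z⟩
    rw [← hk, nsmul_eq_mul, ← Nat.cast_mul, ZMod.natCast_eq_zero_iff, hcard] at h12
    have hgpos : 0 < Nat.gcd (p - 1) 12 := Nat.gcd_pos_of_pos_right _ (by norm_num)
    have hN : eisensteinNumerator p ∣ k := by
      refine (Nat.coprime_div_gcd_div_gcd hgpos).dvd_of_dvd_mul_left
        ?_
      rw [← Nat.mul_dvd_mul_iff_left hgpos, ← mul_assoc,
        Nat.mul_div_cancel' (Nat.gcd_dvd_left _ _), Nat.mul_div_cancel' (Nat.gcd_dvd_right _ _)]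
      exact h12
    show Multiplicative.ofAdd (ZMod.castHom hdvd (ZMod (eisensteinNumerator p)) z) = 1
    rw [← hk, map_natCast, (ZMod.natCast_eq_zero_iff _ _).mpr hN, ofAdd_zero]

theorem apply_eq_sum_of_units {ι : Type} [Fintype ι] {n : ℕ}
    (L : (ZMod p)ˣ →* Multiplicative (ZMod n)) (u : ι → (ZMod p)ˣ) (σ : ι → ι)
    (hσ : Function.Bijective σ) (d : (ZMod p)ˣ) (c : ι → (ZMod p)ˣ)
    (h : ∀ i, u i * d = c i * u (σ i)) :
    ∑ i, (L (c i)).toAdd = Fintype.card ι • (L d).toAdd := by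
  have h' : ∀ i, (L (u i)).toAdd + (L d).toAdd = (L (c i)).toAdd + (L (u (σ i))).toAdd :=
    fun i => by
    rw [← toAdd_mul, ← map_mul, h, map_mul, toAdd_mul]
  have hs := Finset.sum_congr rfl fun i (_ : i ∈ Finset.univ) => h' i
  rw [Finset.sum_add_distrib, Finset.sum_add_distrib, hσ.sum_comp fun i => (L (u i)).toAdd,
    Finset.sum_const, Finset.card_univ] at hs
  exact add_right_cancel (hs.symm.trans (add_comm _ _))

/-- The lower right entries of the cocycle of `T_ℓ`. -/
theorem exists_units_cocycle_T {ℓ : ℕ} (hℓ : ℓ.Prime) (hℓp : ¬ ℓ ∣ p) :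
    ∃ u : Option (ZMod ℓ) → (ZMod p)ˣ, ∀ γ i, u i * lowerUnit γ =
      lowerUnit ((Periods.systemT hℓ hℓp).cocycle γ i) * u ((Periods.systemT hℓ hℓp).perm γ i) := by
  set S := Periods.systemT hℓ hℓp with hS
  have hne : (ℓ : ZMod p) ≠ 0 := by
    rw [Ne, ZMod.natCast_eq_zero_iff]
    exact fun h => hℓp ((Nat.prime_dvd_prime_iff_eq hp.out hℓ).mp h ▸ dvd_rfl)
  refine ⟨fun i => i.elim 1 fun _ => Units.mk0 _ hne, fun γ i => ?_⟩
  have he := congrArg (fun x : GL (Fin 2) ℝ => x 1 1) (S.spec γ i)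
  have hc := Gamma0_mem.mp (S.cocycle γ i).2
  have key : ∃ m m' v : ℤ, (∀ _ : True, ((i.elim 1 fun _ => (ℓ : ℤ)) = m)) ∧
      ((S.perm γ i).elim 1 fun _ => (ℓ : ℤ)) = m' ∧
      ((m * (γ : SL(2, ℤ)) 1 1 : ℤ) : ℝ) =
        (((S.cocycle γ i : SL(2, ℤ)) 1 0 * v + (S.cocycle γ i : SL(2, ℤ)) 1 1 * m' : ℤ) : ℝ) := by
    refine ⟨_, _, (S.perm γ i).elim 0 (fun x => (x.val : ℤ)), fun _ => rfl, rfl, ?_⟩
    generalize S.cocycle γ i = g at he ⊢
    generalize S.perm γ i = j at he ⊢
    cases i <;> cases j <;>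
      · simp only [hS, Periods.systemT] at he
        simp [Matrix.mul_apply, Fin.sum_univ_two, hℓ.ne_zero, OnePoint.elim, Option.elim,
          heckeRep] at he ⊢
        linarith
  obtain ⟨m, m', v, hm, hm', hk⟩ := key
  have hk' := congrArg (Int.cast : ℤ → ZMod p) (Int.cast_injective hk)
  push_cast at hk'
  rw [hc, zero_mul, zero_add, ← hm trivial, ← hm'] at hk'
  ext
  rw [Units.val_mul, Units.val_mul, coe_lowerUnit, coe_lowerUnit]
  revert hk'
  generalize S.cocycle γ i = g
  generalize S.perm γ i = j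
  cases i <;> cases j <;> simp

/-- The lower right entries of the cocycle of `U_p`. -/
theorem lowerUnit_cocycle_U {q : ℕ} (hq : q.Prime) (hqp : q ∣ p) (γ : Gamma0 p) (i : Fin q) :
    lowerUnit ((Periods.systemU hq.ne_zero hqp).cocycle γ i) = lowerUnit γ := by
  set S := Periods.systemU hq.ne_zero hqp with hS
  have he := congrArg (fun x : GL (Fin 2) ℝ => x 0 0) (S.spec γ i)
  have key : (((γ : SL(2, ℤ)) 0 0 + (i : ℕ) * (γ : SL(2, ℤ)) 1 0 : ℤ) : ℝ) =
      (((S.cocycle γ i : SL(2, ℤ)) 0 0 : ℤ) : ℝ) := by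
    generalize S.cocycle γ i = g at he ⊢
    generalize S.perm γ i = j at he ⊢
    simp only [hS, Periods.systemU] at he
    simp [Matrix.mul_apply, Fin.sum_univ_two, hq.ne_zero] at he ⊢
    linarith
  have hk' := congrArg (Int.cast : ℤ → ZMod p) (Int.cast_injective key)
  push_cast at hk'
  rw [Gamma0_mem.mp γ.2, mul_zero, add_zero] at hk'
  ext
  rw [coe_lowerUnit, coe_lowerUnit]
  have h1 := upper_mul_lower γ
  have h2 := upper_mul_lower (S.cocycle γ i)
  rw [← hk'] at h2
  exact mul_left_cancel₀ (left_ne_zero_of_mul_eq_one h1) (h2.trans h1.symm)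

/-- The Shimura homomorphism. -/
theorem exists_shimuraHom :
    ∃ χ : Additive (Gamma0 p) →+ ZMod (eisensteinNumerator p),
      χ ∈ Gamma0.ellParHoms (Gamma0 p) (ZMod (eisensteinNumerator p)) ∧ (∃ γ, χ γ = 1) ∧
      ∀ ℓ, periodHeckeOp p (ZMod (eisensteinNumerator p)) ℓ χ = eisensteinSystem p ℓ • χ := by
  obtain ⟨L, hL, hL12⟩ := exists_shimuraLog (p := p)
  let χ : Additive (Gamma0 p) →+ ZMod (eisensteinNumerator p) :=
    MonoidHom.toAdditiveLeft (L.comp lowerUnit)
  have hχ : ∀ γ, χ (Additive.ofMul γ) = (L (lowerUnit γ)).toAdd := fun _ => rfl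
  refine ⟨χ, ?_, ?_, ?_⟩
  · intro γ hγ
    rw [hχ, hL12 _ (lowerUnit_pow_twelve γ hγ), toAdd_one]
  · obtain ⟨u, hu⟩ := hL (Multiplicative.ofAdd 1)
    obtain ⟨γ, rfl⟩ := lowerUnit_surjective u
    exact ⟨Additive.ofMul γ, by rw [hχ, hu]; rfl⟩
  · intro ℓ
    by_cases h : (ℓ : ℕ) ∣ p
    · rw [periodHeckeOp, dif_pos h, eisensteinSystem_of_dvd h, one_smul, Periods.homU]
      refine AddMonoidHom.ext (Additive.ofMul.surjective.forall.mpr fun γ => ?_)
      rw [Periods.HeckeSystem.op_apply, Periods.HeckeSystem.apply_apply]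
      simp only [hχ, lowerUnit_cocycle_U ℓ.2 h, Finset.sum_const, Finset.card_univ,
        Fintype.card_fin]
      rw [(Nat.prime_dvd_prime_iff_eq ℓ.2 hp.out).mp h, nsmul_eq_mul]
      have hp1 : ((p - 1 : ℕ) : ZMod (eisensteinNumerator p)) = 0 :=
        (ZMod.natCast_eq_zero_iff _ _).mpr (eisensteinNumerator_dvd p)
      have : (p : ZMod (eisensteinNumerator p)) = 1 := by
        have hsplit := congrArg (Nat.cast : ℕ → ZMod (eisensteinNumerator p))
          (Nat.sub_add_cancel hp.out.one_le)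
        rwa [Nat.cast_add, hp1, zero_add, Nat.cast_one, eq_comm] at hsplit
      rw [this, one_mul]
    · have : NeZero (ℓ : ℕ) := ⟨ℓ.2.ne_zero⟩
      rw [periodHeckeOp, dif_neg h, eisensteinSystem_of_not_dvd h, Periods.homT]
      refine AddMonoidHom.ext (Additive.ofMul.surjective.forall.mpr fun γ => ?_)
      rw [Periods.HeckeSystem.op_apply, Periods.HeckeSystem.apply_apply, AddMonoidHom.smul_apply]
      simp only [hχ]
      obtain ⟨u, hu⟩ := exists_units_cocycle_T ℓ.2 h
      rw [apply_eq_sum_of_units L u _ ((Periods.systemT ℓ.2 h).perm_bijective γ) (lowerUnit γ) _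
        (hu γ)]
      rw [Fintype.card_option, ZMod.card, nsmul_eq_mul, zsmul_eq_mul]
      push_cast
      ring

/-- Relations of the Hecke algebra hold for the Eisenstein system modulo the numerator of
`(p - 1)/12`. -/
theorem aeval_eisensteinSystem_eq_zero (P : HeckeAlg) (hP : CuspForm.heckeEvalForms p 2 P = 0) :
    ((MvPolynomial.aeval (eisensteinSystem p) P : ℤ) : ZMod (eisensteinNumerator p)) = 0 := by
  obtain ⟨χ, h1, h2, h3⟩ := exists_shimuraHom (p := p)
  exact aeval_eq_zero_of_eigen_hom p _ χ h1 h2 h3 P hP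

end Prime

end Fermat.Agent.HeckeDuality
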